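import Fermat.Agent.Arith.Places
import Fermat.Agent.Arith.SeparatingSpan
import Fermat.Prelude.Def_GaloisRep_Flat
import Mathlib.RingTheory.Localization.FractionRing
import Mathlib.RingTheory.PrincipalIdealDomain
import Mathlib.LinearAlgebra.FreeModule.PID
import Mathlib.FieldTheory.Galois.Infinite

/-!
# Orders of equivariant functions on a finite Galois module

A `GalOrder ℓ M` is a `ℤ_(ℓ)`-subalgebra of the functions `M → ℚ̄` consisting of equivariant
functions, finite over `ℤ_(ℓ)`, separating points and compatible with the group law.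
-/

set_option autoImplicit false

noncomputable section

open Fermat.Agent.Arith

namespace Fermat.Agent.FiniteFlat

/-- The ring `ℤ_(ℓ)`. -/
abbrev Zl (l : ℕ) : Subring ℚ := GaloisRep.ratLocalizedAt l

section ZlRing

variable (l : ℕ)

theorem exists_natCast_mul_eq (x : Zl l) :
    ∃ d : ℕ, IsUnit (d : Zl l) ∧ ∃ n : ℤ, x * (d : Zl l) = (n : Zl l) := by
  have hx : (x : ℚ).den.Coprime l := x.2
  refine ⟨(x : ℚ).den, ?_, (x : ℚ).num, Subtype.ext ?_⟩
  · have hmem : ((x : ℚ).den : ℚ)⁻¹ ∈ Zl l := by
      show ((((x : ℚ).den : ℚ))⁻¹).den.Coprime l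
      rw [Rat.inv_natCast_den]
      simpa using hx
    exact IsUnit.of_mul_eq_one (⟨_, hmem⟩ : Zl l) (Subtype.ext (by simp))
  · simp

instance isPrincipalIdealRing_zl : IsPrincipalIdealRing (Zl l) := by
  refine ⟨fun I => ?_⟩
  have hI : I = (I.comap (Int.castRingHom (Zl l))).map (Int.castRingHom (Zl l)) := by
    refine le_antisymm (fun x hx => ?_) Ideal.map_comap_le
    obtain ⟨d, hd, n, hn⟩ := exists_natCast_mul_eq l x
    have : (n : Zl l) ∈ I := hn ▸ I.mul_mem_right _ hx
    rw [← Ideal.mul_unit_mem_iff_mem _ hd, hn]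
    exact Ideal.mem_map_of_mem _ (show n ∈ I.comap (Int.castRingHom (Zl l)) from this)
  obtain ⟨a, ha⟩ := (IsPrincipalIdealRing.principal (I.comap (Int.castRingHom (Zl l)))).1
  exact ⟨⟨(a : Zl l), by rw [hI, ha, Ideal.submodule_span_eq, Ideal.map_span]; simp⟩⟩

instance isFractionRing_zl : IsFractionRing (Zl l) ℚ := by
  refine IsFractionRing.of_field (Zl l) ℚ fun q => ?_
  have hint : ∀ m : ℤ, (m : ℚ) ∈ Zl l := fun m => intCast_mem _ m
  exact ⟨⟨(q.num : ℚ), hint _⟩, ⟨((q.den : ℕ) : ℚ), natCast_mem _ _⟩, (Rat.num_div_den q).symm⟩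

theorem mem_zl_of_isIntegral {x : ℚ} (hx : IsIntegral (Zl l) x) : x ∈ Zl l := by
  obtain ⟨y, hy⟩ := (IsIntegrallyClosed.isIntegral_iff (R := Zl l) (K := ℚ)).mp hx
  exact hy ▸ y.2

end ZlRing

/-- An algebraic number fixed by Galois is rational. -/
theorem exists_rat_of_fixed {x : QBar} (h : ∀ σ : GQ, σ x = x) : ∃ q : ℚ, (q : QBar) = x := by
  obtain ⟨q, hq⟩ := (InfiniteGalois.mem_range_algebraMap_iff_fixed x).mpr h
  exact ⟨q, by rw [← hq, eq_ratCast]⟩

/-- `ℤ_(ℓ)` acts on `ℚ̄` through `ℚ`. -/
theorem zl_smul {l : ℕ} (c : Zl l) (x : QBar) : c • x = ((c : ℚ) : QBar) * x := by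
  rw [Algebra.smul_def, IsScalarTower.algebraMap_apply (Zl l) ℚ QBar, eq_ratCast]
  rfl

/-- The expansion of an element of an algebra of functions in a basis, as functions. -/
theorem coe_sum_repr {l : ℕ} {M : Type} {ι : Type*} [Fintype ι]
    {H : Subalgebra (Zl l) (M → QBar)} (e : Module.Basis ι (Zl l) H) (f : H) :
    ∑ i, e.repr f i • (e i : M → QBar) = (f : M → QBar) := by
  conv_rhs => rw [← e.sum_repr f]
  simp only [AddSubmonoidClass.coe_finsetSum, SetLike.val_smul]

variable (l : ℕ) (M : Type) [AddCommGroup M] [DistribMulAction GQ M]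

/-- A `ℤ_(ℓ)`-order in the equivariant functions on `M` which separates the points and is
compatible with the group law. -/
structure GalOrder where
  /-- the order -/
  H : Subalgebra (Zl l) (M → QBar)
  equivariant : ∀ f ∈ H, ∀ (σ : GQ) (m : M), f (σ • m) = σ (f m)
  finite : Module.Finite (Zl l) H
  separates : ∀ m m', (∀ f ∈ H, f m = f m') → m = m'
  comul : ∀ f ∈ H, ∃ (n : ℕ) (a b : Fin n → (M → QBar)),
    (∀ i, a i ∈ H) ∧ (∀ i, b i ∈ H) ∧ ∀ x y, f (x + y) = ∑ i, a i x * b i y
  neg : ∀ f ∈ H, (fun x => f (-x)) ∈ H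

variable {l M}

namespace GalOrder

variable (O : GalOrder l M)

instance : Module.Finite (Zl l) O.H := O.finite

instance : Module.IsTorsionFree (Zl l) O.H := by
  refine Module.IsTorsionFree.of_smul_eq_zero fun c f h => ?_
  by_cases hc : c = 0
  · exact Or.inl hc
  · refine Or.inr (Subtype.ext (funext fun m => ?_))
    have hm := congrArg (fun g : O.H => (g : M → QBar) m) h
    simp only [SetLike.val_smul, Pi.smul_apply, zl_smul, ZeroMemClass.coe_zero, Pi.zero_apply] at hm
    rcases mul_eq_zero.mp hm with h0 | h0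
    · exact absurd (Subtype.ext (by exact_mod_cast h0)) hc
    · simpa using h0

instance : Module.Free (Zl l) O.H := inferInstance

/-- The value at zero of an element of an order lies in `ℤ_(ℓ)`. -/
theorem exists_zl_of_equivariant_zero {f : M → QBar} (hf : f ∈ O.H) :
    ∃ c : Zl l, ((c : ℚ) : QBar) = f 0 := by
  obtain ⟨q, hq⟩ := exists_rat_of_fixed (x := f 0) fun σ => by
    rw [← O.equivariant f hf σ 0, smul_zero]
  refine ⟨⟨q, mem_zl_of_isIntegral l ?_⟩, hq⟩
  have h1 : IsIntegral (Zl l) (⟨f, hf⟩ : O.H) := Algebra.IsIntegral.isIntegral _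
  have h2 := h1.map ((Pi.evalAlgHom (Zl l) (fun _ : M => QBar) 0).comp O.H.val)
  have h3 : ((Pi.evalAlgHom (Zl l) (fun _ : M => QBar) 0).comp O.H.val) ⟨f, hf⟩
      = algebraMap ℚ QBar q := by rw [eq_ratCast, hq]; rfl
  rw [h3] at h2
  exact (isIntegral_algHom_iff (IsScalarTower.toAlgHom (Zl l) ℚ QBar)
    (algebraMap ℚ QBar).injective).mp h2

/-! ### Linear independence over `ℚ̄` -/

/-- A basis of the order. -/
def basis : Module.Basis (Module.Free.ChooseBasisIndex (Zl l) O.H) (Zl l) O.H :=
  Module.Free.chooseBasis _ _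

/-- `ℤ_(ℓ)`-independent elements of the order are independent over `ℚ̄`. -/
theorem eq_zero_of_sum_mul_eq_zero {ι : Type*} (s : Finset ι) (v : ι → O.H)
    (hv : LinearIndependent (Zl l) v) (c : ι → QBar)
    (h : ∀ m, ∑ i ∈ s, c i * (v i : M → QBar) m = 0) : ∀ i ∈ s, c i = 0 := by
  classical
  -- A relation may be assumed to have Galois invariant, hence rational, coefficients.
  refine eq_zero_of_sum_mul_eq_zero_of_fixed (fun σ : GQ => σ.toRingEquiv)
    (fun σ : GQ => MulAction.toPerm σ) (fun i => (v i : M → QBar))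
    (fun σ i m => O.equivariant _ (v i).2 σ m) (fun s d hfix hd0 j hj => ?_) s c h
  choose q hq using fun i : s => exists_rat_of_fixed (hfix i.1 i.2)
  -- Clear denominators to get a relation over `ℤ_(l)`.
  obtain ⟨N, hN⟩ := IsLocalization.exist_integer_multiples (nonZeroDivisors (Zl l))
    (Finset.univ : Finset s) q
  choose a ha using fun i : s => hN i (Finset.mem_univ i)
  have hrel : ∑ i : s, a i • v i = 0 := by
    refine Subtype.ext (funext fun m => ?_)
    simp only [AddSubmonoidClass.coe_finsetSum, Finset.sum_apply, SetLike.val_smul,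
      Pi.smul_apply, zl_smul]
    have e : ∀ i : s, ((a i : ℚ) : QBar) = ((N : Zl l) : ℚ) * d i := fun i => by
      have := ha i
      rw [Subring.smul_def, smul_eq_mul] at this
      rw [show (a i : ℚ) = ((N : Zl l) : ℚ) * q i from this, Rat.cast_mul, hq]
    simp only [e, mul_assoc, ← Finset.mul_sum, Finset.univ_eq_attach]
    rw [Finset.sum_attach s fun i => d i * (v i : M → QBar) m, hd0, mul_zero]
    rfl
  have hj0 := Fintype.linearIndependent_iff.mp (hv.comp _ Subtype.val_injective) a hrel ⟨j, hj⟩
  have h1 := ha ⟨j, hj⟩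
  rw [hj0, map_zero, Subring.smul_def, smul_eq_mul] at h1
  rcases mul_eq_zero.mp h1.symm with h2 | h2
  · exact absurd (Subtype.ext h2) (nonZeroDivisors.coe_ne_zero N)
  · rw [← hq ⟨j, hj⟩, h2, Rat.cast_zero]

/-- Coefficients of combinations of independent elements of the order are unique. -/
theorem eq_of_sum_mul_eq {ι : Type*} [Fintype ι] {v : ι → O.H}
    (hv : LinearIndependent (Zl l) v) {c c' : ι → QBar}
    (h : ∀ m, ∑ i, c i * (v i : M → QBar) m = ∑ i, c' i * (v i : M → QBar) m) : c = c' :=
  funext fun i => sub_eq_zero.mp (O.eq_zero_of_sum_mul_eq_zero Finset.univ v hv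
    (fun j => c j - c' j) (fun m => by simp only [sub_mul, Finset.sum_sub_distrib, h, sub_self])
    i (Finset.mem_univ i))

/-- A basis of the order is linearly independent over `ℚ̄`. -/
theorem linearIndependent_basis :
    LinearIndependent QBar fun i => ((O.basis i : O.H) : M → QBar) := by
  rw [linearIndependent_iff']
  intro s c hc i hi
  refine O.eq_zero_of_sum_mul_eq_zero s _ O.basis.linearIndependent c (fun m => ?_) i hi
  simpa using congrFun hc m

section Finite

variable [Finite M]

/-- An order spans all functions over `ℚ̄`. -/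
theorem span_eq_top : Submodule.span QBar (O.H : Set (M → QBar)) = ⊤ :=
  span_eq_top_of_separates O.H.toSubsemiring.toSubmonoid O.separates

/-- The basis of an order spans all functions over `ℚ̄`. -/
theorem span_range_basis :
    Submodule.span QBar (Set.range fun i => ((O.basis i : O.H) : M → QBar)) = ⊤ := by
  rw [eq_top_iff, ← O.span_eq_top, Submodule.span_le]
  intro f hf
  rw [SetLike.mem_coe, show f = _ from (coe_sum_repr O.basis ⟨f, hf⟩).symm]
  exact Submodule.sum_mem _ fun i _ => Submodule.smul_of_tower_mem _ _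
    (Submodule.subset_span (Set.mem_range_self i))

/-- Every function is a `ℚ̄`-combination of the basis of an order. -/
theorem exists_sum_smul_basis (g : M → QBar) :
    ∃ c : Module.Free.ChooseBasisIndex (Zl l) O.H → QBar,
      ∑ i, c i • ((O.basis i : O.H) : M → QBar) = g :=
  (Submodule.mem_span_range_iff_exists_fun QBar).mp (O.span_range_basis ▸ Submodule.mem_top)

/-- The rank of an order over `ℤ_(ℓ)` is the cardinality of the module. -/
theorem card_basis : Nat.card (Module.Free.ChooseBasisIndex (Zl l) O.H) = Nat.card M := by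
  classical
  have := Fintype.ofFinite M
  have := Module.finrank_eq_card_basis
    (Module.Basis.mk O.linearIndependent_basis O.span_range_basis.ge)
  rw [Module.finrank_pi] at this
  simp [Nat.card_eq_fintype_card, this]

end Finite

end GalOrder

end Fermat.Agent.FiniteFlat
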