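import Fermat.Agent.Arith.Precomp
import Fermat.Agent.FiniteFlat.GalOrder
import Mathlib.RingTheory.TensorProduct.Finite
import Mathlib.RingTheory.Noetherian.Basic
import Mathlib.Algebra.Polynomial.Roots

/-!
# Closure properties of Galois orders

Galois orders restrict to stable subgroups, descend to quotients and multiply.

These are `GalOrder.restrict`, `GalOrder.quotient` and `GalOrder.prod`.
-/

set_option autoImplicit false

noncomputable section

open Polynomial
open Fermat.Agent.Arith

namespace Fermat.Agent.FiniteFlat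

namespace GalOrder

variable {l : ℕ} {M : Type} [AddCommGroup M] [DistribMulAction GQ M]
  {M' : Type} [AddCommGroup M'] [DistribMulAction GQ M']

variable (O : GalOrder l M)

/-! ### Restriction -/

theorem finite_map_precomp {X : Type} (π : X → M) :
    Module.Finite (Zl l) (O.H.map (precomp (Zl l) π)) := by
  refine Module.Finite.of_surjective (M := O.H)
    (((precomp (Zl l) π).comp O.H.val).codRestrict (O.H.map (precomp (Zl l) π))
      fun g => ⟨g, g.2, rfl⟩).toLinearMap ?_
  rintro ⟨f, g, hg, rfl⟩
  exact ⟨⟨g, hg⟩, rfl⟩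

/-- Restriction along an equivariant injection. -/
def restrict (i : M' →+ M) (hi : Function.Injective i) (hσ : ∀ (σ : GQ) m, i (σ • m) = σ • i m) :
    GalOrder l M' where
  H := O.H.map (precomp (Zl l) i)
  equivariant := by
    rintro f ⟨g, hg, rfl⟩ σ m
    exact (congrArg g (hσ σ m)).trans (O.equivariant g hg σ (i m))
  finite := O.finite_map_precomp i
  separates m m' h := hi (O.separates _ _ fun g hg => h _ ⟨g, hg, rfl⟩)
  comul := by
    rintro f ⟨g, hg, rfl⟩
    obtain ⟨n, a, b, ha, hb, h⟩ := O.comul g hg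
    exact ⟨n, fun j => precomp (Zl l) i (a j), fun j => precomp (Zl l) i (b j),
      fun j => ⟨a j, ha j, rfl⟩,
      fun j => ⟨b j, hb j, rfl⟩, fun x y => (congrArg g (map_add i x y)).trans (h _ _)⟩
  neg := by
    rintro f ⟨g, hg, rfl⟩
    exact ⟨_, O.neg g hg, funext fun x => congrArg g (map_neg i x).symm⟩

variable [Finite M]

/-! ### Quotients -/

include O in
/-- An equivariant function becomes an element of the order after scaling. -/
theorem exists_smul_mem {g : M → QBar} (hg : ∀ (σ : GQ) m, g (σ • m) = σ (g m)) :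
    ∃ c : Zl l, c ≠ 0 ∧ c • g ∈ O.H := by
  classical
  obtain ⟨c, rfl⟩ := O.exists_sum_smul_basis g
  have hfix : ∀ i (σ : GQ), σ (c i) = c i := fun i σ => by
    refine congrFun (O.eq_of_sum_mul_eq O.basis.linearIndependent (c := fun j => σ (c j))
      fun m => ?_) i
    have := hg σ (σ⁻¹ • m)
    rw [smul_inv_smul] at this
    simp only [Finset.sum_apply, Pi.smul_apply, smul_eq_mul, map_sum, map_mul] at this
    refine Eq.trans (Finset.sum_congr rfl fun j _ => ?_) this.symm
    rw [← O.equivariant _ (O.basis j).2, smul_inv_smul]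
  choose q hq using fun i => exists_rat_of_fixed (hfix i)
  obtain ⟨N, hN⟩ := IsLocalization.exist_integer_multiples (nonZeroDivisors (Zl l)) Finset.univ q
  choose a ha using fun i => hN i (Finset.mem_univ i)
  refine ⟨N, nonZeroDivisors.coe_ne_zero N, ?_⟩
  have heq : (N : Zl l) • ∑ i, c i • ((O.basis i : O.H) : M → QBar) =
      ((∑ i, a i • O.basis i : O.H) : M → QBar) := by
    funext m
    simp only [Pi.smul_apply, Finset.sum_apply, AddSubmonoidClass.coe_finsetSum,
      SetLike.val_smul, smul_eq_mul, zl_smul, Finset.mul_sum]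
    refine Finset.sum_congr rfl fun i _ => ?_
    have := ha i
    rw [Subring.smul_def, smul_eq_mul] at this
    rw [show (a i : ℚ) = ((N : Zl l) : ℚ) * q i from this, Rat.cast_mul, hq]
    ring
  rw [heq]
  exact (∑ i, a i • O.basis i : O.H).2

include O in
/-- Equivariant functions separate the fibres of an equivariant homomorphism. -/
theorem exists_separating (π : M →+ M') (hσ : ∀ (σ : GQ) m, π (σ • m) = σ • π m) {m₁ m₂ : M}
    (hne : π m₁ ≠ π m₂) :
    ∃ g : M → QBar, (∀ (σ : GQ) m, g (σ • m) = σ (g m)) ∧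
      (∀ m m', π m = π m' → g m = g m') ∧ g m₁ ≠ g m₂ := by
  classical
  have := Fintype.ofFinite M
  -- an injective element of the order
  obtain ⟨f, hf, hfi⟩ : ∃ f ∈ O.H, Function.Injective f := by
    obtain ⟨n, ⟨e⟩⟩ : ∃ n, Nonempty (Fin n ≃ Module.Free.ChooseBasisIndex (Zl l) O.H) :=
      ⟨_, ⟨(Fintype.equivFin _).symm⟩⟩
    let b : Fin n → O.H := fun i => O.basis (e i)
    let P : M × M → QBar[X] := fun mm =>
      ∑ i : Fin n, C ((b i : M → QBar) mm.1 - (b i : M → QBar) mm.2) * X ^ (i : ℕ)
    have hP : ∀ mm : M × M, mm.1 ≠ mm.2 → P mm ≠ 0 := by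
      intro mm hmm h0
      apply hmm
      refine O.separates _ _ fun f hf => ?_
      rw [show f = _ from (coe_sum_repr O.basis ⟨f, hf⟩).symm]
      simp only [Finset.sum_apply, Pi.smul_apply]
      refine Finset.sum_congr rfl fun j _ => ?_
      have h1 := congrArg (fun p : QBar[X] => p.coeff (e.symm j : ℕ)) h0
      simp only [P, finsetSum_coeff, coeff_C_mul, coeff_X_pow, Fin.val_inj, mul_ite, mul_one,
        mul_zero, Finset.sum_ite_eq, Finset.mem_univ, if_true, coeff_zero, sub_eq_zero, b,
        Equiv.apply_symm_apply] at h1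
      rw [h1]
    have hbad : (⋃ mm ∈ {mm : M × M | mm.1 ≠ mm.2}, {t : ℕ | (P mm).IsRoot (t : QBar)}).Finite :=
      (Set.toFinite _).biUnion fun mm hmm =>
        (finite_setOfPred_isRoot (hP mm hmm)).preimage Nat.cast_injective.injOn
    obtain ⟨t, ht⟩ := hbad.infinite_compl.nonempty
    refine ⟨((∑ i : Fin n, (t ^ (i : ℕ)) • b i : O.H) : M → QBar), Subtype.coe_prop _,
      fun m m' hmm => ?_⟩
    by_contra hne
    refine ht (Set.mem_biUnion (x := (m, m')) hne ?_)
    simp only [Set.mem_ofPred_eq, IsRoot, P, eval_finsetSum, eval_mul, eval_C, eval_pow, eval_X,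
      sub_mul, Finset.sum_sub_distrib, sub_eq_zero]
    simpa [AddSubmonoidClass.coe_finsetSum, Finset.sum_apply, mul_comm] using hmm
  -- the fibre polynomials
  let F : M → QBar[X] := fun m =>
    ∏ m' ∈ Finset.univ.filter (fun m' => π m' = π m), (X - C (f m'))
  have hF : F m₁ ≠ F m₂ := by
    intro h
    have := congrArg (Polynomial.eval (f m₁)) h
    simp only [F, eval_prod, eval_sub, eval_X, eval_C] at this
    rw [Finset.prod_eq_zero (i := m₁) (by simp) (sub_self _), eq_comm, Finset.prod_eq_zero_iff]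
      at this
    obtain ⟨m', hm', he⟩ := this
    rw [Finset.mem_filter] at hm'
    exact hne ((congrArg π (hfi (sub_eq_zero.mp he))).trans hm'.2)
  obtain ⟨t, ht⟩ : ∃ t : ℤ, (F m₁).eval (t : QBar) ≠ (F m₂).eval (t : QBar) := by
    by_contra! hall
    exact hF (eq_of_infinite_eval_eq _ _ ((Set.infinite_range_of_injective Int.cast_injective).mono
      (by rintro _ ⟨t, rfl⟩; exact hall t)))
  refine ⟨fun m => (F m).eval (t : QBar), fun σ m => ?_, fun m m' h => ?_, ht⟩
  · simp only [F, eval_prod, eval_sub, eval_X, eval_C, map_prod, map_sub, map_intCast]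
    refine Finset.prod_nbij' (fun x => σ⁻¹ • x) (fun x => σ • x) ?_ ?_
      (fun x _ => smul_inv_smul σ x) (fun x _ => inv_smul_smul σ x) (fun x _ => ?_)
    · intro x hx
      simp only [Finset.mem_filter, Finset.mem_univ, true_and] at hx ⊢
      rw [hσ, hx, hσ, inv_smul_smul]
    · intro x hx
      simp only [Finset.mem_filter, Finset.mem_univ, true_and] at hx ⊢
      rw [hσ, hx, hσ]
    · rw [← O.equivariant f hf, smul_inv_smul]
  · simp only [F, h]

omit [Finite M] in
/-- Expansion of the translate in terms of a given basis in the first variable. -/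
theorem exists_comul_basis {ι : Type} [Fintype ι] (v : ι → O.H)
    (f : M → QBar) (n : ℕ) (a b : Fin n → (M → QBar))
    (ha : ∀ i, ∃ c : ι → Zl l, a i = ∑ j, c j • (v j : M → QBar)) (hb : ∀ i, b i ∈ O.H)
    (h : ∀ x y, f (x + y) = ∑ i, a i x * b i y) :
    ∃ b' : ι → O.H, ∀ x y, f (x + y) = ∑ j, (v j : M → QBar) x * (b' j : M → QBar) y := by
  choose c hc using ha
  refine ⟨fun j => ∑ i, c i j • (⟨b i, hb i⟩ : O.H), fun x y => ?_⟩
  rw [h x y]
  simp only [hc, Finset.sum_apply, Pi.smul_apply, AddSubmonoidClass.coe_finsetSum,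
    SetLike.val_smul, zl_smul, Finset.sum_mul, Finset.mul_sum]
  rw [Finset.sum_comm]
  exact Finset.sum_congr rfl fun j _ => Finset.sum_congr rfl fun i _ => by ring

/-- Pull-back along `π` from the quotient order to the order. -/
private def comapIncl (π : M →+ M') : O.H.comap (precomp (Zl l) π) →ₐ[Zl l] O.H :=
  ((precomp (Zl l) π).comp (O.H.comap (precomp (Zl l) π)).val).codRestrict _ fun f => f.2

omit [DistribMulAction GQ M'] [Finite M] in
private theorem comapIncl_injective {π : M →+ M'} (hπ : Function.Surjective π) :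
    Function.Injective (O.comapIncl π) := fun f g h => Subtype.ext (funext fun m => by
  obtain ⟨m, rfl⟩ := hπ m
  exact congrFun (congrArg Subtype.val h) m)

omit [DistribMulAction GQ M'] [Finite M] in
/-- An element of the order which is constant on the fibres of `π` comes from the quotient. -/
private theorem exists_mem_comap {π : M →+ M'} (hπ : Function.Surjective π) {g : M → QBar}
    (hg : g ∈ O.H) (hinv : ∀ y y', π y = π y' → g y = g y') :
    ∃ g' ∈ O.H.comap (precomp (Zl l) π), ∀ m, g' (π m) = g m := by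
  have e : ∀ m, g (hπ (π m)).choose = g m := fun m => hinv _ _ (hπ (π m)).choose_spec
  refine ⟨fun x => g (hπ x).choose, ?_, e⟩
  show precomp (Zl l) π (fun x => g (hπ x).choose) ∈ O.H
  rwa [show precomp (Zl l) π (fun x => g (hπ x).choose) = g from funext e]

omit [DistribMulAction GQ M'] [Finite M] in
/-- The translates of a function whose pull-back is in the order expand in functions of the same
kind. -/
private theorem exists_comul_quotient (π : M →+ M') (hπ : Function.Surjective π)
    {f : M' → QBar} (hf : f ∈ O.H.comap (precomp (Zl l) π)) :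
    ∃ (n : ℕ) (a b : Fin n → (M' → QBar)), (∀ i, a i ∈ O.H.comap (precomp (Zl l) π)) ∧
      (∀ i, b i ∈ O.H.comap (precomp (Zl l) π)) ∧ ∀ x y, f (x + y) = ∑ i, a i x * b i y := by
  classical
  obtain ⟨n, a, b, ha, hb, h⟩ := O.comul (precomp (Zl l) π f) hf
  -- in the second variable, invariance under the kernel
  obtain ⟨b₁, hb₁⟩ := O.exists_comul_basis O.basis (precomp (Zl l) π f) n a b
    (fun i => ⟨fun j => O.basis.repr ⟨a i, ha i⟩ j, (coe_sum_repr O.basis ⟨a i, ha i⟩).symm⟩) hb h
  have hb₁i : ∀ j y y', π y = π y' → (b₁ j : M → QBar) y = (b₁ j : M → QBar) y' := by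
    intro j y y' hy
    refine congrFun (O.eq_of_sum_mul_eq O.basis.linearIndependent
      (c := fun k => (b₁ k : M → QBar) y) (c' := fun k => (b₁ k : M → QBar) y') fun x => ?_) j
    have h1 := hb₁ x y
    have h2 := hb₁ x y'
    simp only [precomp_apply, map_add, hy] at h1 h2
    simpa only [mul_comm] using h1.symm.trans h2
  -- swap the variables
  let v := O.comapIncl π
  have hv : Function.Injective v := O.comapIncl_injective hπ
  have : IsNoetherian (Zl l) O.H := isNoetherian_of_isNoetherianRing_of_finite (Zl l) O.H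
  have : Module.Finite (Zl l) (O.H.comap (precomp (Zl l) π)) :=
    Module.Finite.of_injective v.toLinearMap hv
  have : Module.IsTorsionFree (Zl l) (O.H.comap (precomp (Zl l) π)) :=
    Function.Injective.moduleIsTorsionFree (R := Zl l) v hv (fun c x => map_smul v c x)
  let B := Module.Free.chooseBasis (Zl l) (O.H.comap (precomp (Zl l) π))
  have hbpre : ∀ j, ∃ g : O.H.comap (precomp (Zl l) π), v g = b₁ j := fun j => by
    obtain ⟨g', hg', e⟩ := O.exists_mem_comap hπ (b₁ j).2 (hb₁i j)
    exact ⟨⟨g', hg'⟩, Subtype.ext (funext e)⟩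
  choose g hg using hbpre
  -- expand in the second variable in the basis of the quotient order
  have hB : LinearIndependent (Zl l) fun i => v (B i) :=
    B.linearIndependent.map' v.toLinearMap (LinearMap.ker_eq_bot.mpr hv)
  let a₂ : _ → O.H := fun i => ∑ j, B.repr (g j) i • O.basis j
  have h₂ : ∀ x y, f (π x + π y) =
      ∑ i, (v (B i) : M → QBar) y * (a₂ i : M → QBar) x := fun x y => by
    have h1 := hb₁ x y
    simp only [precomp_apply, map_add] at h1
    rw [h1]
    have hg' : ∀ j, (b₁ j : M → QBar) y = ∑ i, B.repr (g j) i • (v (B i) : M → QBar) y :=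
      fun j => by
      have := congrArg (fun g => ((v g : O.H) : M → QBar) y) (B.sum_repr (g j))
      simp only [map_sum, map_smul, AddSubmonoidClass.coe_finsetSum, Finset.sum_apply,
        SetLike.val_smul, Pi.smul_apply] at this
      rw [← hg j]
      exact this.symm
    simp only [hg', a₂, AddSubmonoidClass.coe_finsetSum, SetLike.val_smul, Finset.sum_apply,
      Pi.smul_apply, zl_smul, Finset.mul_sum]
    rw [Finset.sum_comm]
    exact Finset.sum_congr rfl fun i _ => Finset.sum_congr rfl fun j _ => by ring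
  have ha₂ : ∀ i x x', π x = π x' → (a₂ i : M → QBar) x = (a₂ i : M → QBar) x' := by
    intro i x x' hx
    refine congrFun (O.eq_of_sum_mul_eq hB (c := fun k => (a₂ k : M → QBar) x)
      (c' := fun k => (a₂ k : M → QBar) x') fun y => ?_) i
    have h1 := h₂ x y
    rw [hx, h₂ x' y] at h1
    simpa only [mul_comm] using h1.symm
  let e := Fintype.equivFin (Module.Free.ChooseBasisIndex (Zl l) (O.H.comap (precomp (Zl l) π)))
  choose a₃ ha₃ ha₃' using fun i => O.exists_mem_comap hπ (a₂ i).2 (ha₂ i)
  refine ⟨_, fun i => a₃ (e.symm i),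
    fun i => ((B (e.symm i) : O.H.comap (precomp (Zl l) π)) : M' → QBar), fun i => ha₃ _,
    fun i => (B (e.symm i)).2, fun x y => ?_⟩
  obtain ⟨x, rfl⟩ := hπ x
  obtain ⟨y, rfl⟩ := hπ y
  rw [h₂, ← e.symm.sum_comp]
  exact Finset.sum_congr rfl fun i _ => by
    dsimp only
    rw [mul_comm, ← ha₃' (e.symm i) x]
    rfl

/-- Descent along an equivariant surjection. -/
def quotient (π : M →+ M') (hπ : Function.Surjective π)
    (hσ : ∀ (σ : GQ) m, π (σ • m) = σ • π m) : GalOrder l M' where
  H := O.H.comap (precomp (Zl l) π)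
  equivariant f hf σ m := by
    obtain ⟨m, rfl⟩ := hπ m
    rw [← hσ]
    exact O.equivariant _ hf σ m
  finite := by
    have : IsNoetherian (Zl l) O.H := isNoetherian_of_isNoetherianRing_of_finite (Zl l) O.H
    exact Module.Finite.of_injective (O.comapIncl π).toLinearMap (O.comapIncl_injective hπ)
  separates m m' h := by
    obtain ⟨m, rfl⟩ := hπ m
    obtain ⟨m', rfl⟩ := hπ m'
    by_contra hne
    obtain ⟨g, hg, hgi, hgne⟩ := O.exists_separating π hσ hne
    obtain ⟨c, hc, hcg⟩ := O.exists_smul_mem hg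
    obtain ⟨g', hg', e⟩ := O.exists_mem_comap hπ hcg fun y y' hy =>
      congrArg (c • ·) (hgi y y' hy)
    have := h g' hg'
    rw [e, e, Pi.smul_apply, Pi.smul_apply, zl_smul, zl_smul] at this
    exact hgne (mul_left_cancel₀ (fun h0 => hc (Subtype.ext (by exact_mod_cast h0))) this)
  comul _ hf := O.exists_comul_quotient π hπ hf
  neg f hf := by
    show precomp (Zl l) π _ ∈ O.H
    have := O.neg _ hf
    rwa [show precomp (Zl l) π (fun x => f (-x)) = fun x => precomp (Zl l) π f (-x) from
      funext fun x => by simp]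

/-! ### Products -/

omit [Finite M] in
/-- The product of two Galois orders. -/
def prod (O' : GalOrder l M') : GalOrder l (M × M') where
  H := O.H.map (precomp (Zl l) Prod.fst) ⊔ O'.H.map (precomp (Zl l) Prod.snd)
  equivariant f hf := by
    -- Equivariant functions form a subalgebra containing both factors.
    let S : Subalgebra (Zl l) (M × M' → QBar) :=
      { carrier := {f | ∀ (σ : GQ) m, f (σ • m) = σ (f m)}
        mul_mem' := fun hf hg σ m => by simp [hf σ m, hg σ m]
        add_mem' := fun hf hg σ m => by simp [hf σ m, hg σ m]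
        algebraMap_mem' := fun c σ m => by
          rw [Pi.algebraMap_apply, Pi.algebraMap_apply,
            IsScalarTower.algebraMap_apply (Zl l) ℚ QBar, AlgEquiv.commutes] }
    refine (sup_le ?_ ?_ : _ ≤ S) hf
    · rintro _ ⟨g, hg, rfl⟩ σ m; exact O.equivariant g hg σ m.1
    · rintro _ ⟨g, hg, rfl⟩ σ m; exact O'.equivariant g hg σ m.2
  finite := by
    have : Module.Finite (Zl l) (O.H.map (precomp (Zl l) (Prod.fst : M × M' → M))) :=
      O.finite_map_precomp _
    have : Module.Finite (Zl l) (O'.H.map (precomp (Zl l) (Prod.snd : M × M' → M'))) :=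
      O'.finite_map_precomp _
    exact Subalgebra.finite_sup _ _
  separates m m' h := Prod.ext
    (O.separates _ _ fun g hg => h _ (SetLike.le_def.mp le_sup_left ⟨g, hg, rfl⟩))
    (O'.separates _ _ fun g hg => h _ (SetLike.le_def.mp le_sup_right ⟨g, hg, rfl⟩))
  comul f hf := by
    set H := O.H.map (precomp (Zl l) Prod.fst) ⊔ O'.H.map (precomp (Zl l) Prod.snd)
    -- So do the functions whose translates decompose over `H`.
    refine (sup_le ?_ ?_ : _ ≤ sumsOfProducts H (· + ·)) hf
    · rintro _ ⟨g, hg, rfl⟩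
      obtain ⟨n, a, b, ha, hb, h⟩ := O.comul g hg
      exact ⟨n, fun i => precomp (Zl l) Prod.fst (a i), fun i => precomp (Zl l) Prod.fst (b i),
        fun i => SetLike.le_def.mp le_sup_left ⟨a i, ha i, rfl⟩,
        fun i => SetLike.le_def.mp le_sup_left ⟨b i, hb i, rfl⟩, fun x y => h x.1 y.1⟩
    · rintro _ ⟨g, hg, rfl⟩
      obtain ⟨n, a, b, ha, hb, h⟩ := O'.comul g hg
      exact ⟨n, fun i => precomp (Zl l) Prod.snd (a i), fun i => precomp (Zl l) Prod.snd (b i),
        fun i => SetLike.le_def.mp le_sup_right ⟨a i, ha i, rfl⟩,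
        fun i => SetLike.le_def.mp le_sup_right ⟨b i, hb i, rfl⟩, fun x y => h x.2 y.2⟩
  neg f hf := by
    set H := O.H.map (precomp (Zl l) Prod.fst) ⊔ O'.H.map (precomp (Zl l) Prod.snd)
    refine (sup_le ?_ ?_ : H ≤ H.comap (precomp (Zl l) fun x : M × M' => -x)) hf
    · rintro _ ⟨g, hg, rfl⟩
      exact (le_sup_left : O.H.map (precomp (Zl l) Prod.fst) ≤ H) ⟨_, O.neg g hg, rfl⟩
    · rintro _ ⟨g, hg, rfl⟩
      exact (le_sup_right : O'.H.map (precomp (Zl l) Prod.snd) ≤ H) ⟨_, O'.neg g hg, rfl⟩

end GalOrder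

end Fermat.Agent.FiniteFlat
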