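import Fermat.Agent.FiniteFlat.GenusDescent
import Fermat.Agent.FiniteFlat.PlaceReduction
import Fermat.Agent.RedTorsion.GenusLe
import Fermat.Agent.EichlerShimura.GlobalRed

/-!
# Good reduction of `X₀(N)` at primes not dividing `N`

The Gauss lattice of the model on `q`-expansions is a lattice with reduction; the genus equality
comes from the levels `4N`, `9N` by descent.
-/

set_option autoImplicit false

noncomputable section

open Polynomial IsLocalRing AlgebraicCurve ModularCurve IntermediateField
open Fermat.Agent.Arith Fermat.Agent.FF Fermat.Agent.RedTorsion Fermat.Agent.EichlerShimura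

attribute [local instance 2000] SubalgebraClass.toAlgebra HahnSeries.powerSeriesAlgebra

namespace Fermat.Agent.FiniteFlat

theorem redG_surjective {L : Type*} [Field L] {A : ValuationSubring L} :
    Function.Surjective (redG A) := fun f => by
  obtain ⟨p, hp⟩ := map_surjective _ residue_surjective f.num
  obtain ⟨q, hq⟩ := map_surjective _ residue_surjective f.denom
  have hq0 : polyBar A q ≠ 0 := by
    rw [polyBar, coe_mapRingHom, hq]
    exact f.denom_ne_zero
  have hqi : ratIncl A q ≠ 0 :=
    (map_ne_zero_iff _ ratIncl_injective).mpr fun h => hq0 (by rw [h, map_zero])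
  refine ⟨⟨ratIncl A p / ratIncl A q, p, q, hq0, div_mul_cancel₀ _ hqi⟩, ?_⟩
  rw [redG_eq _ hq0 (div_mul_cancel₀ _ hqi)]
  conv_rhs => rw [← RatFunc.num_div_denom f]
  simp only [ratBar, RingHom.coe_comp, Function.comp_apply, polyBar, coe_mapRingHom, hp, hq]

theorem algebraMap_ratIncl_mul_mem_span {A : ValuationSubring QBar} {ι : Type*} [Fintype ι]
    {E Eb : Type*} [Field E] [Algebra QBar E] [Algebra (RatFunc QBar) E]
    [IsScalarTower QBar (RatFunc QBar) E] [Field Eb] [Algebra (RatFunc (ResidueField A)) Eb]
    (M : Model A ι E Eb) (q : A[X]) (i : ι) (m : ℕ) (hq : q.natDegree < m) (s : Set E)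
    (hs : ∀ t : Fin m, algebraMap (RatFunc QBar) E (ratIncl A (X ^ (t : ℕ))) * M.b i ∈ s) :
    algebraMap (RatFunc QBar) E (ratIncl A q) * M.b i ∈ Submodule.span QBar s := by
  rw [q.as_sum_range' _ hq, map_sum, map_sum, Finset.sum_mul, Finset.sum_range]
  refine Submodule.sum_mem _ fun t _ => ?_
  have e2 : algebraMap (RatFunc QBar) E (ratIncl A (monomial (t : ℕ) (q.coeff t))) * M.b i =
      ((q.coeff t : A) : QBar) • (algebraMap (RatFunc QBar) E (ratIncl A (X ^ (t : ℕ))) *
          M.b i) := by
    rw [← C_mul_X_pow_eq_monomial, map_mul, ratIncl_C, map_mul, Algebra.smul_def,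
      IsScalarTower.algebraMap_apply QBar (RatFunc QBar) E, RatFunc.algebraMap_eq_C, mul_assoc]
  rw [e2]
  exact Submodule.smul_mem _ _ (Submodule.subset_span (hs t))

theorem exists_model_frame {A : ValuationSubring QBar} {ι : Type*} [Fintype ι] {E Eb : Type*}
    [Field E] [Algebra QBar E] [Algebra (RatFunc QBar) E] [IsScalarTower QBar (RatFunc QBar) E]
    [Field Eb] [Algebra (ResidueField A) Eb] [Algebra (RatFunc (ResidueField A)) Eb]
    [IsScalarTower (ResidueField A) (RatFunc (ResidueField A)) Eb] (M : Model A ι E Eb)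
    (W : Submodule QBar E) [FiniteDimensional QBar W] :
    ∃ (D : M.S) (m : ℕ) (v : Fin m → M.S), M.red D ≠ 0 ∧
      LinearIndependent (ResidueField A) (fun i => M.red (v i)) ∧
      ∀ w ∈ W, (D : E) * w ∈ Submodule.span QBar (Set.range fun i => (v i : E)) := by
  -- Clear the denominators of a basis of `W` by `D`; the frame is the `X ^ t * b i`, `t ≤ n`,
  -- whose reductions are independent.
  let bw := Module.finBasis QBar W
  have key : ∀ l, ∃ (c : QBar) (d : A[X]) (p : ι → A[X]),
      polyBar A d ≠ 0 ∧ ((bw l : W) : E) * algebraMap (RatFunc QBar) E (ratIncl A d) =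
        c • ∑ i, algebraMap (RatFunc QBar) E (ratIncl A (p i)) * M.b i := fun l => by
    obtain ⟨c, -, z, hfz, -⟩ := M.exists_scale' (y := ((bw l : W) : E))
      fun e => bw.ne_zero l (Subtype.ext e)
    obtain ⟨d, p, hd, hp⟩ := M.exists_common_den z
    refine ⟨c, d, p, hd, ?_⟩
    rw [hfz, mul_assoc, hp, Algebra.smul_def,
      IsScalarTower.algebraMap_apply QBar (RatFunc QBar) E, RatFunc.algebraMap_eq_C]
  choose c d p hd hp using key
  let P : Fin (Module.finrank QBar W) → ι → A[X] :=
    fun l i => p l i * ∏ l' ∈ Finset.univ.erase l, d l'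
  let n : ℕ := Finset.univ.sup fun l => Finset.univ.sup fun i => (P l i).natDegree
  let e := (Fintype.equivFin (Fin (n + 1) × ι)).symm
  have hbd : polyBar A (∏ l, d l) ≠ 0 := by
    rw [map_prod]
    exact Finset.prod_ne_zero_iff.mpr fun l _ => hd l
  have hOg : ∀ q : A[X], ratIncl A q ∈ Og A := fun q =>
    ⟨q, 1, (unitPolys A).one_mem, by rw [map_one, mul_one]⟩
  have hredG : ∀ q : A[X], redG A ⟨_, hOg q⟩ = ratBar A q := fun q => by
    rw [redG_eq (p := q) (q := 1) _ (by simp) (by rw [map_one, mul_one]), map_one, _root_.div_one]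
  let D : M.S := ⟨_, M.algebraMap_mem (hOg (∏ l, d l))⟩
  let v : Fin (Fintype.card (Fin (n + 1) × ι)) → M.S :=
    fun j => ⟨_, M.algebraMap_mem (hOg (X ^ ((e j).1 : ℕ)))⟩ * ⟨M.b (e j).2, M.basis_mem _⟩
  refine ⟨D, _, v, ?_, ?_, fun w hw => ?_⟩
  · rw [show M.red D = _ from M.red_algebraMap (hOg _), hredG]
    exact (_root_.map_ne_zero _).mpr fun h => hbd (ratBar_eq_zero_iff.mp h)
  · have h1 : LinearIndependent (ResidueField A)
        fun t : Fin (n + 1) => (RatFunc.X : RatFunc (ResidueField A)) ^ (t : ℕ) := by
      have h := ((Polynomial.basisMonomials (ResidueField A)).linearIndependent.map'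
        (Polynomial.aeval (RatFunc.X : RatFunc (ResidueField A))).toLinearMap
        (LinearMap.ker_eq_bot.mpr (transcendental_iff_injective.mp RatFunc.transcendental_X))).comp
        (Fin.val : Fin (n + 1) → ℕ) Fin.val_injective
      have e : (fun t : Fin (n + 1) => (RatFunc.X : RatFunc (ResidueField A)) ^ (t : ℕ)) =
          (⇑(Polynomial.aeval (RatFunc.X : RatFunc (ResidueField A))).toLinearMap ∘
            ⇑(Polynomial.basisMonomials (ResidueField A))) ∘ (Fin.val : Fin (n + 1) → ℕ) := by
        funext t
        simp [Polynomial.coe_basisMonomials, Polynomial.aeval_monomial]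
      rw [e]
      exact h
    have h2 := (_root_.linearIndependent_smul h1 M.bb.linearIndependent).comp _ e.injective
    have e2 : (fun j => M.red (v j)) =
        (fun p : Fin (n + 1) × ι => (RatFunc.X : RatFunc (ResidueField A)) ^ (p.1 : ℕ) • M.bb p.2) ∘
          e := by
      funext j
      simp only [v, Function.comp_apply]
      rw [map_mul, M.red_algebraMap (hOg _), M.red_basis, hredG, Algebra.smul_def]
      congr 2
      simp [ratBar, polyBar]
    rw [e2]
    exact h2
  · have he := congrArg Subtype.val (bw.sum_repr ⟨w, hw⟩)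
    change _ = w at he
    rw [← he, AddSubmonoidClass.coe_finsetSum, Finset.mul_sum]
    refine Submodule.sum_mem _ fun l _ => ?_
    rw [SetLike.val_smul, mul_smul_comm]
    refine Submodule.smul_mem _ _ ?_
    have e1 : (D : E) * ((bw l : W) : E) =
        c l • ∑ i, algebraMap (RatFunc QBar) E (ratIncl A (P l i)) * M.b i := by
      show algebraMap (RatFunc QBar) E (ratIncl A (∏ l, d l)) * _ = _
      rw [← Finset.mul_prod_erase _ _ (Finset.mem_univ l), map_mul, map_mul, mul_comm
        (algebraMap (RatFunc QBar) E (ratIncl A (d l))), mul_assoc, mul_comm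
        (algebraMap (RatFunc QBar) E (ratIncl A (d l))), hp l, mul_smul_comm, Finset.mul_sum]
      refine congrArg _ (Finset.sum_congr rfl fun i _ => ?_)
      simp only [P, map_mul]
      ring
    rw [e1]
    refine Submodule.smul_mem _ _ (Submodule.sum_mem _ fun i _ => ?_)
    refine algebraMap_ratIncl_mul_mem_span M (P l i) i (n + 1) (Nat.lt_succ_of_le ?_)
      _ fun t => ?_
    · exact le_trans (Finset.le_sup (f := fun i => (P l i).natDegree) (Finset.mem_univ i))
        (Finset.le_sup (f := fun l => Finset.univ.sup fun i => (P l i).natDegree)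
          (Finset.mem_univ l))
    · refine ⟨e.symm (t, i), ?_⟩
      simp only [v, Equiv.apply_symm_apply, MulMemClass.coe_mul]

section

variable {N : ℕ} [NeZero N] {A : ValuationSubring QBar}

local notation "Fb" => modularFunctionFieldBar N
local notation "Fk" => modularFunctionFieldFullC (ResidueField A) N

/-- The lattice of `X₀(N)` at `A`. -/
def lattice (hNA : (N : ResidueField A) ≠ 0) : RedLattice A Fb Fk :=
  haveI : IsAlgClosed (ResidueField A) := residueField_isAlgClosed A
  letI := ratAlgebra (transcendental_jF (F := Fb) hFb)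
  letI := ratAlgebra (transcendental_jF (K := ResidueField A) (N := N) (F := Fk) rfl)
  { S := (model hFb hNA).S
    rho := (model hFb hNA).red
    const_mem := fun a => by
      have := isScalarTower_ratAlgebra (transcendental_jF (F := Fb) hFb)
      rw [IsScalarTower.algebraMap_apply QBar (RatFunc QBar) Fb, RatFunc.algebraMap_eq_C]
      exact (model hFb hNA).algebraMap_mem (C_mem_Og a.2)
    rho_const := fun a => by
      have := isScalarTower_ratAlgebra (transcendental_jF (F := Fb) hFb)
      have := isScalarTower_ratAlgebra (transcendental_jF (K := ResidueField A) (N := N)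
        (F := Fk) rfl)
      conv_rhs => rw [IsScalarTower.algebraMap_apply (ResidueField A) (RatFunc (ResidueField A)) Fk,
        RatFunc.algebraMap_eq_C]
      refine Eq.trans (congrArg _ (Subtype.ext ?_))
        (((model hFb hNA).red_algebraMap (C_mem_Og a.2)).trans (congrArg _ (redG_C a.2)))
      show algebraMap QBar Fb (a : QBar) = algebraMap (RatFunc QBar) Fb (RatFunc.C (a : QBar))
      rw [IsScalarTower.algebraMap_apply QBar (RatFunc QBar) Fb, RatFunc.algebraMap_eq_C]
    surj := fun z => by
      choose c hc using fun i => redG_surjective (A := A) ((model hFb hNA).bb.repr z i)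
      obtain ⟨y, hy⟩ := (model hFb hNA).red_surjective_aux c
      refine ⟨y, hy.trans ?_⟩
      simp only [hc]
      exact (model hFb hNA).bb.sum_repr z
    scal := fun f hf => by
      have := isScalarTower_ratAlgebra (transcendental_jF (F := Fb) hFb)
      obtain ⟨c, hc, z, hfz, hz⟩ := (model hFb hNA).exists_scale' hf
      refine ⟨c, z, hc, hz, ?_⟩
      rw [hfz, Algebra.smul_def, IsScalarTower.algebraMap_apply QBar (RatFunc QBar) Fb,
        RatFunc.algebraMap_eq_C]
    frame := fun W hW => by
      have := isScalarTower_ratAlgebra (transcendental_jF (F := Fb) hFb)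
      have := isScalarTower_ratAlgebra (transcendental_jF (K := ResidueField A) (N := N)
        (F := Fk) rfl)
      exact exists_model_frame (model hFb hNA) W }

theorem serInt_mem_lattice (hNA : (N : ResidueField A) ≠ 0) (y : sint A Fb) :
    ∃ hm : (y : Fb) ∈ (lattice hNA).S,
      redF (lattice hNA) ⟨y, hm⟩ =
        (haveI : IsAlgClosed (ResidueField A) := residueField_isAlgClosed A
         RedTorsion.redF hFb hNA y) :=
  ⟨mem_model_S hFb hNA y, model_red hFb hNA y⟩

theorem seriesCompat_lattice (hNA : (N : ResidueField A) ≠ 0) (y : LaurentSeries A)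
    (hy : coeffMap A.subtype y ∈ Fb) :
    ∃ hm : (⟨_, hy⟩ : Fb) ∈ (lattice hNA).S,
      (redF (lattice hNA) ⟨_, hm⟩ : LaurentSeries (ResidueField A)) = coeffMap (residue A) y := by
  obtain ⟨hm, hr⟩ := serInt_mem_lattice hNA (⟨⟨_, hy⟩, ⟨y, rfl⟩⟩ : sint A Fb)
  refine ⟨hm, ?_⟩
  rw [hr, RedTorsion.coe_redF]
  exact serRed_coeffMap y ⟨y, rfl⟩

/-- Elements of the lattice are fractions of integral series with primitive denominator. -/
theorem exists_series_frac (hNA : (N : ResidueField A) ≠ 0) (z : (lattice hNA).S) :
    ∃ d p : serInt A, serRed A d ≠ 0 ∧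
      (((z : Fb) : LaurentSeries QBar)) * (d : LaurentSeries QBar) = p := by
  let := ratAlgebra (transcendental_jF (F := Fb) hFb)
  let := ratAlgebra (transcendental_jF (K := ResidueField A) (N := N) (F := Fk) rfl)
  obtain ⟨u, w, hw, hu, -⟩ := EichlerShimura.exists_sint_frac hNA z
  exact ⟨toSerInt (A := A) (F := Fb) w, toSerInt (A := A) (F := Fb) u,
    fun h => hw (Subtype.ext h), congrArg Subtype.val hu.symm⟩

/-- The reduction of a lattice element is the quotient of the reduced numerator and denominator. -/
theorem redF_mul_eq (hNA : (N : ResidueField A) ≠ 0) (z : (lattice hNA).S) {d p : serInt A}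
    (hd : serRed A d ≠ 0) (hz : ((z : Fb) : LaurentSeries QBar) * (d : LaurentSeries QBar) = p) :
    (redF (lattice hNA) z : LaurentSeries (ResidueField A)) * serRed A d = serRed A p := by
  obtain ⟨hm, hr⟩ := mem_model_S_of_mul_eq hFb hNA hd hz
  exact hr

/-- The degree of the reduced field over `k(j)` is the degree of the field over `ℚ̄(j)`. -/
theorem finrank_residue_j (hNA : (N : ResidueField A) ≠ 0) :
    Module.finrank (ResidueField A)⟮(jF (K := ResidueField A) (N := N) (F := Fk) rfl)⟯ Fk =
      Module.finrank QBar⟮jF (F := Fb) hFb⟯ Fb := by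
  rw [finrank_jF (F := Fb) hFb (Nat.cast_ne_zero.mpr (NeZero.ne N)),
    finrank_jF (K := ResidueField A) (N := N) (F := Fk) rfl hNA]

end

/-- Modular function fields increase with divisibility of the level. -/
theorem bar_le {N M : ℕ} [NeZero N] [NeZero M] (h : N ∣ M) :
    modularFunctionFieldBar N ≤ modularFunctionFieldBar M := by
  rw [hFb, hFb]
  exact full_degeneracyC_le _ h

/-- The genus does not change under reduction at primes not dividing the level. -/
theorem genusFF_residue_eq {N : ℕ} [NeZero N] {A : ValuationSubring QBar}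
    (hNA : (N : ResidueField A) ≠ 0) :
    genusFF (ResidueField A) (modularFunctionFieldFullC (ResidueField A) N) =
      genusFF QBar (modularFunctionFieldBar N) := by
  obtain ⟨M, hM, hMA⟩ : ∃ M : ℕ, (M = 4 ∨ M = 9) ∧ ((M : ℕ) : ResidueField A) ≠ 0 := by
    by_cases h2 : (2 : ResidueField A) = 0
    · refine ⟨9, Or.inr rfl, ?_⟩
      have h9 : ((9 : ℕ) : ResidueField A) = 1 + 2 * 4 := by norm_num
      rw [h9, h2, zero_mul, add_zero]
      exact one_ne_zero
    · refine ⟨4, Or.inl rfl, ?_⟩
      rw [show ((4 : ℕ) : ResidueField A) = 2 * 2 by norm_num]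
      exact mul_ne_zero h2 h2
  have : NeZero M := ⟨by rcases hM with rfl | rfl <;> norm_num⟩
  have hNMA : ((N * M : ℕ) : ResidueField A) ≠ 0 := by
    rw [Nat.cast_mul]; exact mul_ne_zero hNA hMA
  -- At level `N * M`, `M` being `4` or `9`, the genus is known not to drop; the degrees of the
  -- two extensions agree through `j`, so it cannot drop at level `N` either.
  let F := modularFunctionFieldBar N
  let F' := modularFunctionFieldBar (N * M)
  let K := modularFunctionFieldFullC (ResidueField A) N
  let K' := modularFunctionFieldFullC (ResidueField A) (N * M)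
  have : IsFunctionField (ResidueField A) K :=
    isFunctionField_full (F := modularFunctionFieldFullC (ResidueField A) N) rfl hNA
  have : IsFunctionField (ResidueField A) K' :=
    isFunctionField_full (F := modularFunctionFieldFullC (ResidueField A) (N * M)) rfl hNMA
  let φ : F →ₐ[QBar] F' := IntermediateField.inclusion (bar_le (dvd_mul_right N M))
  let ψ : K →ₐ[ResidueField A] K' :=
    IntermediateField.inclusion (full_degeneracyC_le _ (dvd_mul_right N M))
  let : Algebra F F' := φ.toRingHom.toAlgebra
  let : Algebra K K' := ψ.toRingHom.toAlgebra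
  let : Module F F' := Algebra.toModule
  let : Module K K' := Algebra.toModule
  have : FiniteDimensional F F' := finiteAlong φ
  have : FiniteDimensional K K' := finiteAlong ψ
  let h' : GoodRed A F' K' :=
    { toRedLattice := lattice hNMA
      genus_le := RedTorsion.genus_le hM (dvd_mul_left M N) hNMA }
  have hC : LatticeCompat (lattice hNA) h'.toRedLattice := fun f => by
    obtain ⟨d, p, hd, hfd⟩ := exists_series_frac hNA f
    obtain ⟨hm, hr⟩ := mem_model_S_of_mul_eq (F := F') hFb hNMA (y := φ (f : F)) hd hfd
    refine ⟨hm, Subtype.ext (mul_right_cancel₀ hd ?_)⟩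
    exact hr.trans (redF_mul_eq hNA f hd hfd).symm
  have hxj : jF (F := F') hFb = algebraMap F F' (jF (F := F) hFb) := Subtype.ext rfl
  have hkj : jF (K := ResidueField A) (N := N * M) (F := K') rfl =
      algebraMap K K' (jF (K := ResidueField A) (N := N) (F := K) rfl) := Subtype.ext rfl
  have hfr : Module.finrank F F' = Module.finrank K K' := by
    have e1 := (finite_and_finrank_adjoin_algebraMap (F' := F')
      (transcendental_jF (F := F) hFb)).2
    have e2 := (finite_and_finrank_adjoin_algebraMap (F' := K')
      (transcendental_jF (K := ResidueField A) (N := N) (F := K) rfl)).2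
    rw [← hxj, ← finrank_residue_j hNMA, hkj, e2, finrank_residue_j hNA] at e1
    have := finiteDimensional_jF (F := F) hFb (Nat.cast_ne_zero.mpr (NeZero.ne N))
    exact (mul_left_cancel₀ Module.finrank_pos.ne' e1).symm
  obtain ⟨hm, hr⟩ := serInt_mem_lattice hNA (evalS (F := F) hFb (X : A[X]))
  have hx : redF (lattice hNA) ⟨_, hm⟩ = jF (K := ResidueField A) (N := N) (F := K) rfl := by
    rw [hr]
    refine Subtype.ext ?_
    rw [RedTorsion.coe_redF, sred_evalS, coe_jF]
    simp [polyBar]
  refine genusFF_eq_of_tower hC hfr (x := ⟨_, hm⟩) ?_ ?_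
  · rw [hx]
    exact transcendental_jF rfl
  · rw [hx, show (((⟨_, hm⟩ : (lattice hNA).S) : F)) = jF (F := F) hFb by
      show ((evalS (F := F) hFb (X : A[X]) : sint A F) : F) = _
      rw [coe_evalS]
      simp [polyIncl]]
    exact finrank_residue_j hNA

/-- Good reduction of `X₀(N)` at `A` when `N` is invertible in the residue field. -/
def goodRed {N : ℕ} [NeZero N] {A : ValuationSubring QBar} (hNA : (N : ResidueField A) ≠ 0) :
    GoodRed A (modularFunctionFieldBar N) (modularFunctionFieldFullC (ResidueField A) N) :=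
  { toRedLattice := lattice hNA
    genus_le := (genusFF_residue_eq hNA).ge }

/-- The good reduction of `X₀(N)` reduces integral series coefficientwise. -/
theorem seriesCompat {N : ℕ} [NeZero N] {A : ValuationSubring QBar}
    (hNA : (N : ResidueField A) ≠ 0) : SeriesCompat (goodRed hNA) :=
  seriesCompat_lattice hNA

end Fermat.Agent.FiniteFlat
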