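import Fermat.Agent.FiniteFlat.SecSpan

/-!
# Regular families of Riemann–Roch spaces

A family of divisors with constant reduction is regular over `R` when every function in the
reduced space lifts to a section. Sums, multiplication by sections and quotients (colon spaces
with constant dimension) of regular families are regular.

The main theorems are `IsReg.mul`, `IsReg.scale` and `IsReg.colon`.
-/

set_option autoImplicit false

noncomputable section

open IsLocalRing AlgebraicCurve Matrix
open Fermat.Agent.Arith Fermat.Agent.FF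

namespace Fermat.Agent.FiniteFlat

/-! ### The matrix of a colon space -/

section Colon

variable {K E : Type*} [Field K] [IsAlgClosed K] [Field E] [Algebra K E] [IsFunctionField K E]
  {d ια ιβ ιu : Type*} [Fintype d] [Fintype ια] [Fintype ιβ] [Fintype ιu]
  [DecidableEq d] [DecidableEq ια]

/-- The matrix whose kernel is a colon space. -/
def colonMat {K : Type*} [CommRing K] (PA : Matrix d ια K) (PB : Matrix d (ιu × ιβ) K)
    (L : Matrix ια d K) : Matrix (d × ιβ) ιu K :=
  Matrix.of fun aj i => ((1 - PA * L) * PB : Matrix d (ιu × ιβ) K) aj.1 (i, aj.2)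

omit [Fintype ιβ] [DecidableEq ια] in
theorem colonMat_mulVec {K : Type*} [CommRing K] (PA : Matrix d ια K) (PB : Matrix d (ιu × ιβ) K)
    (L : Matrix ια d K) (c : ιu → K) (a : d) (j : ιβ) :
    (colonMat PA PB L *ᵥ c) (a, j) = ((1 - PA * L) *ᵥ fun b => ∑ i, PB b (i, j) * c i) a := by
  simp only [colonMat, Matrix.mulVec, dotProduct, Matrix.of_apply, Matrix.mul_apply,
    Finset.sum_mul, Finset.mul_sum]
  rw [Finset.sum_comm]
  exact Finset.sum_congr rfl fun b _ => Finset.sum_congr rfl fun i _ => mul_assoc _ _ _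

omit [Fintype ιβ] in
/-- The kernel of the colon matrix is the colon space. -/
theorem colonMat_mulVec_eq_zero_iff {c₀ : ℤ}
    (hc : ∀ D : Divisor K E, c₀ ≤ Divisor.degree D → ell K D = Divisor.degree D + 1 - genusFF K E)
    {G G' : Divisor K E} (hdeg : c₀ + 1 ≤ Divisor.degree G') {u : ιu → E} {a : ια → E} {b : ιβ → E}
    {v : d → E} (hv : LinearIndependent K v) (ha : Submodule.span K (Set.range a) =
      riemannRochSpace G)
    (hb : Submodule.span K (Set.range b) = riemannRochSpace G')
    {PA : Matrix d ια K} {PB : Matrix d (ιu × ιβ) K} {L : Matrix ια d K}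
    (hPA : ∀ x, a x = ∑ i, PA i x • v i) (hPB : ∀ i j, u i * b j = ∑ e, PB e (i, j) • v e)
    (hL : L * PA = 1) (c : ιu → K) :
    colonMat PA PB L *ᵥ c = 0 ↔ ∑ i, c i • u i ∈ riemannRochSpace (G - G') := by
  set f := ∑ i, c i • u i with hf
  have hfb : ∀ j, f * b j = ∑ e, (∑ i, PB e (i, j) * c i) • v e := fun j => by
    rw [hf, Finset.sum_mul]
    simp only [smul_mul_assoc, hPB, Finset.smul_sum, Finset.sum_smul, smul_smul]
    rw [Finset.sum_comm]
    exact Finset.sum_congr rfl fun e _ => Finset.sum_congr rfl fun i _ => by rw [mul_comm]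
  have hspan : ∀ y : ια → K, ∑ x, y x • a x = ∑ e, (PA *ᵥ y) e • v e := fun y => by
    simp only [hPA, Finset.smul_sum, smul_smul, Matrix.mulVec, dotProduct, Finset.sum_smul]
    rw [Finset.sum_comm]
    exact Finset.sum_congr rfl fun e _ => Finset.sum_congr rfl fun x _ => by rw [mul_comm]
  constructor
  · intro h0
    -- If the matrix kills `c`, all products `f * b` lie in `L(G)`, so `f` lies in `L(G - G')`.
    refine mem_of_forall_mul_mem hc hdeg fun g hg => ?_
    rw [sub_add_cancel]
    rw [← hb] at hg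
    induction hg using Submodule.span_induction with
    | mem g hg =>
      obtain ⟨j, rfl⟩ := hg
      set x : d → K := fun e => ∑ i, PB e (i, j) * c i with hx
      have h1 : (1 - PA * L) *ᵥ x = 0 := funext fun e => by
        rw [← colonMat_mulVec PA PB L c e j, h0]; rfl
      rw [Matrix.sub_mulVec, Matrix.one_mulVec, sub_eq_zero, ← Matrix.mulVec_mulVec] at h1
      rw [hfb j, ← ha, Submodule.mem_span_range_iff_exists_fun]
      exact ⟨L *ᵥ x, by rw [hspan, ← h1]⟩
    | zero => rw [mul_zero]; exact zero_mem _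
    | add g g' _ _ h1 h2 => rw [mul_add]; exact add_mem h1 h2
    | smul r g _ h1 => rw [mul_smul_comm]; exact Submodule.smul_mem _ r h1
  · intro hmem
    funext ej
    obtain ⟨e, j⟩ := ej
    rw [colonMat_mulVec]
    -- Conversely `f * b` has coordinates in the image of `PA`, which `1 - PA L` kills.
    set x : d → K := fun e => ∑ i, PB e (i, j) * c i with hx
    have h1 : f * b j ∈ Submodule.span K (Set.range a) := by
      rw [ha]
      have := mul_mem_riemannRochSpace hmem (hb ▸ Submodule.subset_span ⟨j, rfl⟩ :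
        b j ∈ riemannRochSpace G')
      rwa [sub_add_cancel] at this
    obtain ⟨y, hy⟩ := (Submodule.mem_span_range_iff_exists_fun K).mp h1
    have h2 : x = PA *ᵥ y := funext fun e => by
      have h3 : ∑ e, (x e - (PA *ᵥ y) e) • v e = 0 := by
        simp only [sub_smul, Finset.sum_sub_distrib]
        rw [sub_eq_zero, ← hspan, hy, hfb]
      exact sub_eq_zero.mp (Fintype.linearIndependent_iff.mp hv _ h3 e)
    rw [h2, Matrix.sub_mulVec, Matrix.one_mulVec, Matrix.mulVec_mulVec, Matrix.mul_assoc, hL,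
      Matrix.mul_one, sub_self]
    rfl

end Colon

/-! ### Regular families, sums and scaling -/

section Reg

variable {A : ValuationSubring QBar} {F : Type*} [Field F] [Algebra QBar F]
  {Fk : Type*} [Field Fk] [Algebra (ResidueField A) Fk]
  [IsFunctionField QBar F] [IsFunctionField (ResidueField A) Fk]
  (h : GoodRed A F Fk) {Ω : Type*} (R : Subalgebra A (Ω → QBar))

/-- Every element of the reduced space lifts to a section of the family of spaces. -/
def IsReg (G : Ω → Divisor QBar F) (Gb : Divisor (ResidueField A) Fk) : Prop :=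
  ∀ x ∈ riemannRochSpace Gb, ∃ φ ∈ secs h.toRedLattice R, ∀ ω, φ ω ∈ riemannRochSpace (G ω) ∧
    ∃ hm : φ ω ∈ h.S, redF h.toRedLattice ⟨_, hm⟩ = x

variable {h R}

theorem isReg_const {D : Divisor QBar F} (hD : bigDeg h ≤ Divisor.degree D) :
    IsReg h R (fun _ => D) (redDiv h D) := fun x hx => by
  rw [← redW_riemannRochSpace h hD] at hx
  obtain ⟨f, hf, rfl⟩ := hx
  exact ⟨fun _ => (f : F), const_mem_secs f, fun _ => ⟨hf, f.2, rfl⟩⟩

theorem IsReg.mul {G G' : Ω → Divisor QBar F} {Gb Gb' : Divisor (ResidueField A) Fk}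
    (hG : IsReg h R G Gb) (hG' : IsReg h R G' Gb') (hd : 3 * rrBound h + 2 ≤ Divisor.degree Gb)
    (hd' : 3 * rrBound h + 2 ≤ Divisor.degree Gb') :
    IsReg h R (fun ω => G ω + G' ω) (Gb + Gb') := by
  intro x hx
  rw [← riemannRochSpace_mul (one_le_rrBound h) (fun _ => ell_eq_of_rrBound_le' h) hd hd'] at hx
  induction hx using Submodule.mul_induction_on' with
  | mem_mul_mem a ha b hb =>
    obtain ⟨φ, hφ, hφ'⟩ := hG a ha
    obtain ⟨ψ, hψ, hψ'⟩ := hG' b hb
    refine ⟨φ * ψ, mul_mem_secs hφ hψ, fun ω => ?_⟩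
    obtain ⟨h1, h2, h3⟩ := hφ' ω
    obtain ⟨h4, h5, h6⟩ := hψ' ω
    refine ⟨mul_mem_riemannRochSpace h1 h4, mul_mem h2 h5, ?_⟩
    rw [← h3, ← h6, ← map_mul]
    rfl
  | add a _ b _ iha ihb =>
    obtain ⟨φ, hφ, hφ'⟩ := iha
    obtain ⟨ψ, hψ, hψ'⟩ := ihb
    refine ⟨φ + ψ, add_mem hφ hψ, fun ω => ?_⟩
    obtain ⟨h1, h2, h3⟩ := hφ' ω
    obtain ⟨h4, h5, h6⟩ := hψ' ω
    refine ⟨add_mem h1 h4, add_mem h2 h5, ?_⟩
    rw [← h3, ← h6, ← map_add]
    rfl

theorem IsReg.scale {G : Ω → Divisor QBar F} {Gb : Divisor (ResidueField A) Fk}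
    (hG : IsReg h R G Gb) {u : Ω → F} (hu : u ∈ secs h.toRedLattice R) {ub : Fk} (hub : ub ≠ 0)
    (hured : ∀ ω, ∃ hm : u ω ∈ h.S, redF h.toRedLattice ⟨_, hm⟩ = ub) :
    IsReg h R (fun ω => G ω - div QBar (u ω)) (Gb - div (ResidueField A) ub) := by
  intro x hx
  rw [← map_mulRight_riemannRochSpace hub] at hx
  obtain ⟨y, hy, rfl⟩ := hx
  obtain ⟨φ, hφ, hφ'⟩ := hG y hy
  refine ⟨φ * u, mul_mem_secs hφ hu, fun ω => ?_⟩
  obtain ⟨h1, h2, h3⟩ := hφ' ω
  obtain ⟨h4, h5⟩ := hured ω
  have hu0 : u ω ≠ 0 := fun e => hub (by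
    rw [← h5, show (⟨u ω, h4⟩ : h.S) = 0 from Subtype.ext e, map_zero])
  refine ⟨?_, mul_mem h2 h4, ?_⟩
  · show φ ω * u ω ∈ riemannRochSpace (G ω - div QBar (u ω))
    rw [← map_mulRight_riemannRochSpace hu0]
    exact ⟨φ ω, h1, rfl⟩
  · rw [LinearMap.mulRight_apply, ← h3, ← h5, ← map_mul]
    rfl

omit [IsFunctionField QBar F] [IsFunctionField (ResidueField ↥A) Fk] in
theorem redF_sum_smul {d : Type*} [Fintype d] (hR : HasIntValues R) (ω : Ω) (r : d → R)
    (v : d → h.S) :
    ∃ hm : (∑ a, (r a : Ω → QBar) ω • (v a : F)) ∈ h.S,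
      redF h.toRedLattice ⟨_, hm⟩ = ∑ a, resAt hR ω (r a) • redF h.toRedLattice (v a) := by
  refine ⟨sum_mem fun a _ => smul_mem_lattice h.toRedLattice (evalA' hR ω (r a)) (v a).2, ?_⟩
  have e : (⟨∑ a, (r a : Ω → QBar) ω • (v a : F),
      sum_mem fun a _ => smul_mem_lattice h.toRedLattice (evalA' hR ω (r a)) (v a).2⟩ : h.S) =
      ∑ a, ⟨_, smul_mem_lattice h.toRedLattice (evalA' hR ω (r a)) (v a).2⟩ :=
    Subtype.ext (AddSubmonoidClass.coe_finsetSum (fun a =>
      (⟨_, smul_mem_lattice h.toRedLattice (evalA' hR ω (r a)) (v a).2⟩ : h.S)) Finset.univ).symm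
  rw [e, map_sum]
  exact Finset.sum_congr rfl fun a _ => redF_smul h.toRedLattice _ _

/-! ### Colon families -/

/-- Lifts of a basis of a reduced space of large degree span the space upstairs. -/
private theorem span_lifts_eq_riemannRochSpace {D : Divisor QBar F}
    {Db : Divisor (ResidueField A) Fk} (hdeg : Divisor.degree D = Divisor.degree Db)
    (hbig : rrBound h ≤ Divisor.degree Db) {ι : Type*} [Fintype ι]
    (e : Module.Basis ι (ResidueField A) (riemannRochSpace Db)) {x : ι → F}
    (hxD : ∀ i, x i ∈ riemannRochSpace D) (hxS : ∀ i, x i ∈ h.S)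
    (hred : ∀ i, redF h.toRedLattice ⟨x i, hxS i⟩ = e i) :
    Submodule.span QBar (Set.range x) = riemannRochSpace D := by
  have hli := linearIndependent_of_redF h.toRedLattice (fun i => ⟨x i, hxS i⟩) (by
    rw [show (fun i => redF h.toRedLattice ⟨x i, hxS i⟩) = fun i => (e i : Fk) from funext hred]
    exact e.linearIndependent.map' (riemannRochSpace Db).subtype (Submodule.ker_subtype _))
  refine Submodule.eq_of_le_of_finrank_eq (Submodule.span_le.mpr ?_) ?_
  · rintro _ ⟨i, rfl⟩; exact hxD i
  · rw [finrank_span_eq_card hli, ← Module.finrank_eq_card_basis e]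
    have e1 := ell_eq_of_rrBound_le' h hbig
    have e2 := ell_eq_of_rrBound_le h (D := D) (by rw [hdeg]; exact hbig)
    rw [genusFF_eq_of_goodRed h] at e1
    rw [hdeg] at e2
    unfold ell at e1 e2
    zify
    linarith

/-- A kernel is identified with a space by the combinations of an independent spanning family. -/
private theorem finrank_ker_eq_finrank {K V m n : Type*} [Field K] [AddCommGroup V] [Module K V]
    [Fintype n] {M : Matrix m n K} {u : n → V} (hu : LinearIndependent K u) {W : Submodule K V}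
    (hker : ∀ c, M *ᵥ c = 0 ↔ ∑ i, c i • u i ∈ W)
    (hW : W ≤ Submodule.span K (Set.range u)) :
    Module.finrank K (LinearMap.ker M.mulVecLin) = Module.finrank K W := by
  let comb := Fintype.linearCombination K u
  have he : (LinearMap.ker M.mulVecLin).map comb = W := by
    ext y
    constructor
    · rintro ⟨c, hc, rfl⟩
      rw [Fintype.linearCombination_apply]
      exact (hker c).mp hc
    · intro hy
      obtain ⟨c, hc⟩ := (Submodule.mem_span_range_iff_exists_fun K).mp (hW hy)
      exact ⟨c, (hker c).mpr (hc.symm ▸ hy), by rw [Fintype.linearCombination_apply, hc]⟩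
  rw [← he]
  exact (Submodule.equivMapOfInjective comb hu.fintypeLinearCombination_injective _).finrank_eq

/-- If the kernels have at least the dimension of the constant reduced one, reduced kernel vectors
lift to the kernels. -/
private theorem exists_lift_mem_ker [Finite Ω] (hR : HasIntValues R) {m n : Type*} [Fintype m]
    [Fintype n] [DecidableEq m] [DecidableEq n] {Km : Matrix m n R}
    {Kb : Matrix m n (ResidueField A)} (hKc : ∀ ω, Km.map (resAt hR ω) = Kb)
    (hdim : ∀ ω, Module.finrank (ResidueField A) (LinearMap.ker Kb.mulVecLin) ≤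
      Module.finrank QBar (LinearMap.ker (Km.map (evalQ R ω)).mulVecLin))
    {cb : n → ResidueField A} (hKcb : Kb *ᵥ cb = 0) :
    ∃ c : n → R, ∀ ω, (Km.map (evalQ R ω)) *ᵥ (fun i => (c i : Ω → QBar) ω) = 0 ∧
      resAt hR ω ∘ c = cb := by
  classical
  -- Compress `Km` to a square matrix with reduction one, hence invertible.
  obtain ⟨r, Pb, Qb, hPQ, hr⟩ := exists_compression Kb
  set Pm : Matrix (Fin r) _ R := constMat Pb with hPm
  set Qm : Matrix _ (Fin r) R := constMat Qb with hQm
  have hM1 : ∀ ω, (Pm * Km * Qm).map (resAt hR ω) = 1 := fun ω => by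
    rw [Matrix.map_mul, Matrix.map_mul, resAt_constMat, resAt_constMat, hKc, hPQ]
  have hM := isUnit_matrix hR (Pm * Km * Qm) hM1
  -- By the dimension hypothesis the kernel of `Km` is that of the compression at every point.
  have hker : ∀ ω (c : _ → QBar), ((Pm * Km).map (evalQ R ω)) *ᵥ c = 0 →
      (Km.map (evalQ R ω)) *ᵥ c = 0 := by
    intro ω
    set T := ((Pm * Km).map (evalQ R ω)).mulVecLin with hT
    have hsurj : LinearMap.range T = ⊤ := by
      refine LinearMap.range_eq_top.mpr fun y => ?_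
      refine ⟨(Qm.map (evalQ R ω)) *ᵥ (((Pm * Km * Qm)⁻¹.map (evalQ R ω)) *ᵥ y), ?_⟩
      rw [hT, Matrix.mulVecLin_apply, Matrix.mulVec_mulVec, Matrix.mulVec_mulVec, ← Matrix.map_mul,
        ← Matrix.map_mul, Matrix.mul_nonsing_inv _ ((Matrix.isUnit_iff_isUnit_det _).mp hM),
        Matrix.map_one _ (map_zero _) (map_one _), Matrix.one_mulVec]
    have h1 := T.finrank_range_add_finrank_ker
    rw [hsurj, finrank_top, Module.finrank_fintype_fun_eq_card,
      Module.finrank_fintype_fun_eq_card, Fintype.card_fin] at h1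
    have hle : LinearMap.ker (Km.map (evalQ R ω)).mulVecLin ≤ LinearMap.ker T := fun c hc => by
      rw [LinearMap.mem_ker, Matrix.mulVecLin_apply] at hc
      rw [LinearMap.mem_ker, hT, Matrix.mulVecLin_apply, Matrix.map_mul, ← Matrix.mulVec_mulVec,
        hc, Matrix.mulVec_zero]
    have h3 := hdim ω
    have heq := Submodule.eq_of_le_of_finrank_le hle (by linarith)
    intro c hc
    have : c ∈ LinearMap.ker T := hc
    rw [← heq] at this
    exact this
  -- Lift `cb` by constants and project to that kernel; this keeps the reduction.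
  set c0 : n → R := fun i => algebraMap A R (liftRes A (cb i)) with hc0
  set c : n → R := c0 - Qm *ᵥ ((Pm * Km * Qm)⁻¹ *ᵥ ((Pm * Km) *ᵥ c0)) with hcdef
  have hPK : (Pm * Km) *ᵥ c = 0 := by
    rw [hcdef, Matrix.mulVec_sub, Matrix.mulVec_mulVec (M := Pm * Km) (N := Qm),
      Matrix.mulVec_mulVec, Matrix.mul_nonsing_inv _ ((Matrix.isUnit_iff_isUnit_det _).mp hM),
      Matrix.one_mulVec, sub_self]
  refine ⟨c, fun ω => ⟨hker ω _ ?_, ?_⟩⟩
  · funext e
    have := congrArg (evalQ R ω) (congrFun hPK e)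
    rw [RingHom.map_mulVec, Pi.zero_apply, map_zero] at this
    exact this
  · have hc0' : resAt hR ω ∘ c0 = cb := funext fun i => by
      simp [hc0, resAt_algebraMap, residue_liftRes]
    have hcc : resAt hR ω ∘ c = cb := funext fun i => by
      rw [Function.comp_apply, hcdef, Pi.sub_apply, map_sub, RingHom.map_mulVec,
        show resAt hR ω (c0 i) = cb i from congrFun hc0' i, sub_eq_self]
      have : resAt hR ω ∘ ((Pm * Km * Qm)⁻¹ *ᵥ ((Pm * Km) *ᵥ c0)) = 0 := funext fun e => by
        rw [Function.comp_apply, RingHom.map_mulVec]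
        have : resAt hR ω ∘ ((Pm * Km) *ᵥ c0) = 0 := funext fun e => by
          rw [Function.comp_apply, RingHom.map_mulVec, Matrix.map_mul, hKc, hc0',
            ← Matrix.mulVec_mulVec, hKcb, Matrix.mulVec_zero]
        rw [this, Matrix.mulVec_zero]
      rw [this, Matrix.mulVec_zero, Pi.zero_apply]
    exact hcc

/-- The matrix of the coordinates of independent vectors has trivial kernel. -/
theorem injective_mulVec_of_coords {K E m n : Type*} [Field K] [AddCommGroup E] [Module K E]
    [Fintype m] [Fintype n] {ξ : m → E} (hξ : LinearIndependent K ξ) {v : n → E}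
    {M : Matrix n m K} (h : ∀ i, ξ i = ∑ e, M e i • v e) : Function.Injective M.mulVec := by
  intro x y hxy
  refine hξ.fintypeLinearCombination_injective ?_
  have key : ∀ z, Fintype.linearCombination K ξ z = ∑ e, (M *ᵥ z) e • v e := fun z => by
    rw [Fintype.linearCombination_apply]
    simp only [h, Finset.smul_sum, smul_smul, Matrix.mulVec, dotProduct, Finset.sum_smul]
    rw [Finset.sum_comm]
    exact Finset.sum_congr rfl fun e _ => Finset.sum_congr rfl fun x _ => by rw [mul_comm]
  rw [key, key]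
  exact congrArg (fun w : n → K => ∑ e, w e • v e) hxy

omit [IsFunctionField QBar F] [IsFunctionField (ResidueField ↥A) Fk] in
/-- The base change of a colon matrix. -/
private theorem map_colonMat {S S' : Type*} [CommRing S] [CommRing S'] (f : S →+* S')
    {d ια ιβ ιu : Type*} [Fintype d] [Fintype ια] [DecidableEq d]
    (PA : Matrix d ια S) (PB : Matrix d (ιu × ιβ) S) (L : Matrix ια d S) :
    (colonMat PA PB L).map f = colonMat (PA.map f) (PB.map f) (L.map f) :=
  Matrix.ext fun ej i => by
    simp only [colonMat, Matrix.map_apply, Matrix.of_apply]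
    rw [← Matrix.map_apply (M := (1 - PA * L) * PB) (f := f), Matrix.map_mul,
      Matrix.map_sub _ (map_sub f), Matrix.map_mul, Matrix.map_one _ (map_zero f) (map_one f)]

omit [IsFunctionField QBar F] [IsFunctionField (ResidueField ↥A) Fk] in
/-- The reduction of a section given by coordinates in a frame. -/
theorem redF_eq_sum_coords (hR : HasIntValues R) {d : Type*} [Fintype d] {v : d → h.S}
    {r : d → R} {ω : Ω} {f : F} (hf : f = ∑ a, (r a : Ω → QBar) ω • (v a : F)) (hm : f ∈ h.S) :
    redF h.toRedLattice ⟨f, hm⟩ = ∑ a, resAt hR ω (r a) • redF h.toRedLattice (v a) := by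
  obtain ⟨hm', hr⟩ := redF_sum_smul (h := h) hR ω r v
  rw [← hr]
  exact congrArg _ (Subtype.ext hf)

omit [IsFunctionField QBar F] [IsFunctionField (ResidueField ↥A) Fk] in
/-- In a frame with independent reductions the coordinates of constant reductions are constant. -/
theorem map_resAt_eq (hR : HasIntValues R) {d m : Type*} [Fintype d] {v : d → h.S}
    (hv : LinearIndependent (ResidueField A) fun a => redF h.toRedLattice (v a))
    {P : Matrix d m R} {x : m → Fk}
    (hP : ∀ ω i, x i = ∑ a, resAt hR ω (P a i) • redF h.toRedLattice (v a)) (ω ω' : Ω) :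
    P.map (resAt hR ω) = P.map (resAt hR ω') := by
  refine Matrix.ext fun a i => congrFun (hv.fintypeLinearCombination_injective
    (a₁ := fun a => resAt hR ω (P a i)) (a₂ := fun a => resAt hR ω' (P a i)) ?_) a
  simp only [Fintype.linearCombination_apply]
  exact (hP ω i).symm.trans (hP ω' i)

/-- A matrix with constant injective reduction has a left inverse with constant reduction. -/
theorem exists_left_inverse_lift [Finite Ω] (hR : HasIntValues R) {d m : Type*}
    [Fintype d] [Fintype m] [DecidableEq d] [DecidableEq m] (P : Matrix d m R)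
    {Pb : Matrix d m (ResidueField A)} (hPc : ∀ ω, P.map (resAt hR ω) = Pb)
    (hinj : Function.Injective Pb.mulVec) :
    ∃ (L : Matrix m d R) (Lb : Matrix m d (ResidueField A)),
      L * P = 1 ∧ Lb * Pb = 1 ∧ ∀ ω, L.map (resAt hR ω) = Lb := by
  obtain ⟨Lb, hLb⟩ := exists_left_inverse hinj
  set L0 : Matrix m d R := constMat Lb with hL0
  have hN1 : ∀ ω, (L0 * P).map (resAt hR ω) = 1 := fun ω => by
    rw [Matrix.map_mul, resAt_constMat, hPc, hLb]
  have hN := isUnit_matrix hR (L0 * P) hN1
  refine ⟨(L0 * P)⁻¹ * L0, Lb, ?_, hLb, fun ω => ?_⟩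
  · rw [Matrix.mul_assoc, Matrix.nonsing_inv_mul _ ((Matrix.isUnit_iff_isUnit_det _).mp hN)]
  · rw [Matrix.map_mul, map_inv_eq_one (resAt hR ω) hN (hN1 ω), resAt_constMat, Matrix.one_mul]

theorem IsReg.colon [Finite Ω] [Nonempty Ω] (hR : HasIntValues R)
    {G G' : Ω → Divisor QBar F} {Gb Gb' : Divisor (ResidueField A) Fk}
    (hG : IsReg h R G Gb) (hG' : IsReg h R G' Gb')
    (hd : ∀ ω, Divisor.degree (G ω) = Divisor.degree Gb)
    (hd' : ∀ ω, Divisor.degree (G' ω) = Divisor.degree Gb')
    (hbig : rrBound h ≤ Divisor.degree Gb) (hbig' : rrBound h + 1 ≤ Divisor.degree Gb')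
    {E0 : Divisor QBar F} (hE0 : bigDeg h ≤ Divisor.degree E0) (hsub : ∀ ω, G ω - G' ω ≤ E0)
    (hsub' : Gb - Gb' ≤ redDiv h E0)
    (hell : ∀ ω, ell (ResidueField A) (Gb - Gb') ≤ ell QBar (G ω - G' ω)) :
    IsReg h R (fun ω => G ω - G' ω) (Gb - Gb') := by
  classical
  set k := ResidueField A
  -- sections spanning the two families, and lifts of a basis of the ambient space
  let ξ := Module.finBasis k (riemannRochSpace Gb)
  let η := Module.finBasis k (riemannRochSpace Gb')
  choose a ha ha' using fun i => hG (ξ i) (ξ i).2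
  choose b hb hb' using fun i => hG' (η i) (η i).2
  choose haG haS hared using ha'
  choose hbG hbS hbred using hb'
  obtain ⟨n, u, -, huli, huspan', huspan⟩ :=
    exists_basis_lifts h.toRedLattice (riemannRochSpace E0)
  rw [redW_riemannRochSpace h hE0] at huspan'
  -- a common frame
  let φ : Fin (Module.finrank k (riemannRochSpace Gb)) ⊕
      (Fin n × Fin (Module.finrank k (riemannRochSpace Gb'))) → Ω → F :=
    Sum.elim a fun ij => (fun _ => (u ij.1 : F)) * b ij.2
  obtain ⟨d, v, P, hv, hP⟩ := exists_frame_secs φ (fun t => by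
    rcases t with t | t
    · exact ha t
    · exact mul_mem_secs (const_mem_secs _) (hb _))
  set PA : Matrix (Fin d) _ R := Matrix.of fun e x => P e (Sum.inl x) with hPAdef
  set PB : Matrix (Fin d) _ R := Matrix.of fun e ij => P e (Sum.inr ij) with hPBdef
  have redPA : ∀ ω x, (ξ x : Fk) = ∑ e, resAt hR ω (PA e x) • redF h.toRedLattice (v e) :=
    fun ω x => (hared x ω).symm.trans (redF_eq_sum_coords hR (hP (Sum.inl x) ω) (haS x ω))
  have redPB : ∀ ω (ij : Fin n × Fin _), redF h.toRedLattice (u ij.1) * (η ij.2 : Fk) =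
      ∑ e, resAt hR ω (PB e ij) • redF h.toRedLattice (v e) := fun ω ij => by
    rw [← hbred ij.2 ω, ← map_mul]
    exact redF_eq_sum_coords hR (hP (Sum.inr ij) ω) (mul_mem (u ij.1).2 (hbS ij.2 ω))
  obtain ⟨ω₀⟩ := ‹Nonempty Ω›
  have hPAc : ∀ ω, PA.map (resAt hR ω) = PA.map (resAt hR ω₀) := fun ω =>
    map_resAt_eq hR hv redPA ω ω₀
  have hPBc : ∀ ω, PB.map (resAt hR ω) = PB.map (resAt hR ω₀) := fun ω =>
    map_resAt_eq hR hv redPB ω ω₀
  obtain ⟨L, Lb, hLPA, hLb, hLc⟩ := exists_left_inverse_lift hR PA hPAc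
    (injective_mulVec_of_coords
      (ξ.linearIndependent.map' (riemannRochSpace Gb).subtype (Submodule.ker_subtype _))
      fun x => redPA ω₀ x)
  set Km := colonMat PA PB L with hKm
  set Kb := colonMat (PA.map (resAt hR ω₀)) (PB.map (resAt hR ω₀)) Lb with hKb
  have hKc : ∀ ω, Km.map (resAt hR ω) = Kb := fun ω => by
    rw [hKm, map_colonMat, hPAc, hPBc, hLc]
  -- kernels
  have hspanA : ∀ ω, Submodule.span QBar (Set.range fun i => a i ω) = riemannRochSpace (G ω) :=
    fun ω => span_lifts_eq_riemannRochSpace (hd ω) hbig ξ (fun i => haG i ω) (fun i => haS i ω)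
      fun i => hared i ω
  have hspanB : ∀ ω, Submodule.span QBar (Set.range fun i => b i ω) = riemannRochSpace (G' ω) :=
    fun ω => span_lifts_eq_riemannRochSpace (hd' ω) (by omega) η (fun i => hbG i ω)
      (fun i => hbS i ω) fun i => hbred i ω
  have kerQ : ∀ ω (c : _ → QBar), (Km.map (evalQ R ω)) *ᵥ c = 0 ↔
      ∑ i, c i • (u i : F) ∈ riemannRochSpace (G ω - G' ω) := fun ω c => by
    rw [hKm, map_colonMat]
    refine colonMat_mulVec_eq_zero_iff (fun _ => ell_eq_of_rrBound_le h) (by rw [hd']; exact hbig')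
      (linearIndependent_of_redF h.toRedLattice v hv) (hspanA ω) (hspanB ω)
      (PA := PA.map (evalQ R ω)) (PB := PB.map (evalQ R ω))
      (fun x => hP (Sum.inl x) ω) (fun i j => hP (Sum.inr (i, j)) ω) ?_ c
    rw [← Matrix.map_mul, hLPA, Matrix.map_one _ (map_zero _) (map_one _)]
  have kerK : ∀ c : _ → k, Kb *ᵥ c = 0 ↔
      ∑ i, c i • redF h.toRedLattice (u i) ∈ riemannRochSpace (Gb - Gb') := fun c =>
    colonMat_mulVec_eq_zero_iff (fun _ => ell_eq_of_rrBound_le' h) hbig' hv
      (span_range_basis_coe ξ) (span_range_basis_coe η)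
      (fun x => redPA ω₀ x) (fun i j => redPB ω₀ (i, j)) hLb c
  have dimK := finrank_ker_eq_finrank huli kerK
    (huspan'.symm ▸ riemannRochSpace_mono hsub')
  have dimQ := fun ω => finrank_ker_eq_finrank (linearIndependent_of_redF h.toRedLattice u huli)
    (kerQ ω) (huspan.symm ▸ riemannRochSpace_mono (hsub ω))
  intro x hx
  obtain ⟨cb, hcb⟩ := (Submodule.mem_span_range_iff_exists_fun k).mp
    (huspan'.symm ▸ riemannRochSpace_mono hsub' hx)
  obtain ⟨c, hc⟩ := exists_lift_mem_ker hR hKc (fun ω => by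
    have h2 := hell ω
    unfold ell at h2
    rw [dimK, dimQ ω]
    exact_mod_cast h2) (cb := cb) ((kerK cb).mpr (hcb.symm ▸ hx))
  refine ⟨fun ω => ∑ i, (c i : Ω → QBar) ω • (u i : F), sum_mem_secs _ _ _, fun ω => ⟨?_, ?_⟩⟩
  · exact (kerQ ω _).mp (hc ω).1
  · obtain ⟨hm, hred⟩ := redF_sum_smul (h := h) hR ω c u
    refine ⟨hm, hred.trans ?_⟩
    rw [← hcb]
    exact Finset.sum_congr rfl fun i _ => by rw [← (hc ω).2]; rfl

end Reg

end Fermat.Agent.FiniteFlat
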