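import Fermat.Agent.FiniteFlat.Operation

/-!
# Normalised coordinates of families of effective divisors

In an ambient space `L(E)` with a basis of lifts, the subspace `L(E - D)` is described by the
coordinates of its normalised elements at the index sets on which the reduced subspace projects
bijectively. A family is regular exactly when these coordinates lie in the ring of functions.

The two directions are `isReg_of_coord_mem` and `coord_mem_of_isReg`.
-/

set_option autoImplicit false

noncomputable section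

open IsLocalRing AlgebraicCurve Matrix
open Fermat.Agent.Arith Fermat.Agent.FF

namespace Fermat.Agent.FiniteFlat

variable {A : ValuationSubring QBar} {F : Type*} [Field F] [Algebra QBar F]
  {Fk : Type*} [Field Fk] [Algebra (ResidueField A) Fk]
  [IsFunctionField QBar F] [IsFunctionField (ResidueField A) Fk]

/-! ### Ambient spaces -/

/-- An ambient space of large degree with lifts of a basis of its reduction. -/
structure Ambient (h : GoodRed A F Fk) where
  /-- The divisor whose Riemann–Roch space is the ambient space. -/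
  E : Divisor QBar F
  nonneg : 0 ≤ E
  big : bigDeg h + 4 * genusFF QBar F ≤ Divisor.degree E
  /-- The dimension. -/
  n : ℕ
  /-- Lattice elements reducing to a basis of the reduced space. -/
  fb : Fin n → h.S
  mem : ∀ i, (fb i : F) ∈ riemannRochSpace E
  indep : LinearIndependent (ResidueField A) fun i => redF h.toRedLattice (fb i)
  span : Submodule.span (ResidueField A) (Set.range fun i => redF h.toRedLattice (fb i)) =
    riemannRochSpace (redDiv h E)

namespace Ambient

variable {h : GoodRed A F Fk} (Φ : Ambient h)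

/-- The element with given coordinates. -/
def vec : (Fin Φ.n → QBar) →ₗ[QBar] F := Fintype.linearCombination QBar fun i => (Φ.fb i : F)

theorem vec_apply (c : Fin Φ.n → QBar) : Φ.vec c = ∑ i, c i • (Φ.fb i : F) :=
  Fintype.linearCombination_apply _ _ _

/-- The reduced element with given coordinates. -/
def vecb : (Fin Φ.n → ResidueField A) →ₗ[ResidueField A] Fk :=
  Fintype.linearCombination (ResidueField A) fun i => redF h.toRedLattice (Φ.fb i)

theorem vecb_apply (c : Fin Φ.n → ResidueField A) :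
    Φ.vecb c = ∑ i, c i • redF h.toRedLattice (Φ.fb i) :=
  Fintype.linearCombination_apply _ _ _

theorem vecb_injective : Function.Injective Φ.vecb := by
  rw [injective_iff_map_eq_zero]
  intro c hc
  rw [Φ.vecb_apply] at hc
  exact funext fun i => Fintype.linearIndependent_iff.mp Φ.indep c hc i

/-- The ambient basis has as many elements as the dimension of the Riemann–Roch space of `E`. -/
theorem card_eq : Φ.n = Module.finrank QBar (riemannRochSpace Φ.E) := by
  have h1 : bigDeg h ≤ Divisor.degree Φ.E := by have := Φ.big; omega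
  rw [← (finrank_redW h.toRedLattice (riemannRochSpace Φ.E)).2, redW_riemannRochSpace h h1,
    ← Φ.span, finrank_span_eq_card Φ.indep, Fintype.card_fin]

theorem exists_vec_eq {f : F} (hf : f ∈ riemannRochSpace Φ.E) :
    ∃ c, Φ.vec c = f ∧ (f ∈ h.S → ∀ i, c i ∈ A) := by
  obtain ⟨c, hc, hcA⟩ := exists_coords h.toRedLattice Φ.fb Φ.mem Φ.indep
    (by rw [Fintype.card_fin, Φ.card_eq]) hf
  exact ⟨c, by rw [Φ.vec_apply, hc], hcA⟩

theorem exists_vecb_eq {x : Fk} (hx : x ∈ riemannRochSpace (redDiv h Φ.E)) :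
    ∃ c, Φ.vecb c = x := by
  rw [← Φ.span, Submodule.mem_span_range_iff_exists_fun] at hx
  obtain ⟨c, hc⟩ := hx
  exact ⟨c, by rw [Φ.vecb_apply, hc]⟩

theorem redF_vec (a : Fin Φ.n → A) :
    ∃ hm : Φ.vec (fun i => (a i : QBar)) ∈ h.S,
      redF h.toRedLattice ⟨_, hm⟩ = Φ.vecb fun i => residue A (a i) := by
  have e : Φ.vec (fun i => (a i : QBar)) =
      ((∑ i, intConst h.toRedLattice (a i) * Φ.fb i : h.S) : F) := by
    simp only [Φ.vec_apply, AddSubmonoidClass.coe_finsetSum, MulMemClass.coe_mul, coe_intConst,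
      ← Algebra.smul_def]
  refine ⟨e ▸ SetLike.coe_mem _, ?_⟩
  rw [show (⟨_, e ▸ SetLike.coe_mem _⟩ : h.S) = ∑ i, intConst h.toRedLattice (a i) * Φ.fb i from
    Subtype.ext e, map_sum, Φ.vecb_apply]
  simp only [map_mul, redF_intConst, ← Algebra.smul_def]

/-! ### Normalised elements -/

/-- The effective divisors of degree the genus, whose spaces the ambient space describes. -/
def Small (_Φ : Ambient h) (D : Divisor QBar F) : Prop :=
  0 ≤ D ∧ Divisor.degree D = genusFF QBar F

variable {Φ} {D D' : Divisor QBar F}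

theorem sub_le_E (hD : Φ.Small D) : riemannRochSpace (Φ.E - D) ≤ riemannRochSpace Φ.E :=
  riemannRochSpace_mono (sub_le_self _ hD.1)

theorem redW_sub (hD : Φ.Small D) :
    redW h.toRedLattice (riemannRochSpace (Φ.E - D)) =
      riemannRochSpace (redDiv h Φ.E - redDiv h D) := by
  rw [redW_riemannRochSpace h (by
    rw [map_sub, hD.2]
    have := Φ.big
    omega), map_sub]

theorem vecb_mem_of_vec_mem (hD : Φ.Small D) {a : Fin Φ.n → A}
    (ha : Φ.vec (fun i => (a i : QBar)) ∈ riemannRochSpace (Φ.E - D)) :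
    Φ.vecb (fun i => residue A (a i)) ∈ riemannRochSpace (redDiv h Φ.E - redDiv h D) := by
  obtain ⟨hm, hr⟩ := Φ.redF_vec a
  rw [← redW_sub hD, ← hr]
  exact redF_mem_redW h.toRedLattice ⟨_, hm⟩ ha

theorem exists_vec_lift (hD : Φ.Small D) {cb : Fin Φ.n → ResidueField A}
    (hc : Φ.vecb cb ∈ riemannRochSpace (redDiv h Φ.E - redDiv h D)) :
    ∃ a : Fin Φ.n → A, Φ.vec (fun i => (a i : QBar)) ∈ riemannRochSpace (Φ.E - D) ∧
      ∀ i, residue A (a i) = cb i := by
  rw [← redW_sub hD] at hc
  obtain ⟨f, hf, hfr⟩ := hc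
  obtain ⟨c, hc', hcA⟩ := Φ.exists_vec_eq (sub_le_E hD hf)
  let a : Fin Φ.n → A := fun i => ⟨c i, hcA f.2 i⟩
  have hv : Φ.vec (fun i => (a i : QBar)) = f := hc'
  obtain ⟨hm, hr⟩ := Φ.redF_vec a
  refine ⟨a, hv ▸ hf, fun i =>
    congrFun (Φ.vecb_injective (a₁ := fun i => residue A (a i)) (a₂ := cb) ?_) i⟩
  rw [← hr, ← hfr]
  exact congrArg _ (Subtype.ext hv)

variable (Φ)

/-- A normalised element at an index set. -/
def IsSol (D : Divisor QBar F) (J : Finset (Fin Φ.n)) (j : Fin Φ.n) (c : Fin Φ.n → QBar) : Prop :=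
  Φ.vec c ∈ riemannRochSpace (Φ.E - D) ∧ ∀ i ∈ J, c i = if i = j then 1 else 0

/-- The space is the graph of integral normalised coordinates at the index set. -/
def Valid (D : Divisor QBar F) (J : Finset (Fin Φ.n)) : Prop :=
  (∀ j ∈ J, ∃ c, Φ.IsSol D J j c ∧ ∀ i, c i ∈ A) ∧
    ∀ c, Φ.vec c ∈ riemannRochSpace (Φ.E - D) → (∀ i ∈ J, c i = 0) → c = 0

/-- The same condition on the reduced space. -/
def ResValid (Db : Divisor (ResidueField A) Fk) (J : Finset (Fin Φ.n)) : Prop :=
  (∀ j ∈ J, ∃ c, Φ.vecb c ∈ riemannRochSpace (redDiv h Φ.E - Db) ∧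
      ∀ i ∈ J, c i = if i = j then 1 else 0) ∧
    ∀ c, Φ.vecb c ∈ riemannRochSpace (redDiv h Φ.E - Db) → (∀ i ∈ J, c i = 0) → c = 0

variable {Φ} {J : Finset (Fin Φ.n)}

theorem eq_sum_of_valid (hv : Φ.Valid D J) {s : Fin Φ.n → Fin Φ.n → QBar}
    (hs : ∀ j ∈ J, Φ.IsSol D J j (s j)) {c : Fin Φ.n → QBar}
    (hc : Φ.vec c ∈ riemannRochSpace (Φ.E - D)) : c = ∑ j ∈ J, c j • s j := by
  classical
  refine sub_eq_zero.mp (hv.2 _ ?_ fun i hi => ?_)
  · rw [map_sub, map_sum]
    refine sub_mem hc (sum_mem fun j hj => ?_)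
    rw [map_smul]
    exact Submodule.smul_mem _ _ (hs j hj).1
  · simp only [Pi.sub_apply, Finset.sum_apply, Pi.smul_apply, smul_eq_mul]
    rw [Finset.sum_congr rfl fun j hj => by rw [(hs j hj).2 i hi]]
    simp [hi]

/-- An integral solution reduces to the unit vector at the index set. -/
theorem residue_eq_of_isSol {j i : Fin Φ.n} {c : Fin Φ.n → QBar} (hc : Φ.IsSol D J j c)
    (hi : i ∈ J) (hA : c i ∈ A) : residue A ⟨c i, hA⟩ = if i = j then 1 else 0 := by
  simp only [hc.2 i hi]
  split_ifs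
  exacts [map_one _, map_zero _]

theorem valid_iff (hD : Φ.Small D) : Φ.Valid D J ↔ Φ.ResValid (redDiv h D) J := by
  classical
  constructor
  · intro hv
    choose! s hs hsA using hv.1
    -- The solutions reduce to reduced solutions and span the integral vectors.
    refine ⟨fun j hj => ?_, fun cb hcb h0 => ?_⟩
    · exact ⟨fun i => residue A ⟨s j i, hsA j hj i⟩, vecb_mem_of_vec_mem hD (hs j hj).1,
        fun i hi => residue_eq_of_isSol (hs j hj) hi _⟩
    · obtain ⟨a, ha, har⟩ := exists_vec_lift hD hcb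
      have e := eq_sum_of_valid hv hs ha
      funext i
      have e' : a i = ∑ j ∈ J.attach, a j.1 * ⟨s j i, hsA j.1 j.2 i⟩ := Subtype.ext (by
        rw [congrFun e i, AddSubmonoidClass.coe_finsetSum, Finset.sum_apply,
          ← Finset.sum_attach]
        rfl)
      rw [← har i, e', map_sum, Pi.zero_apply]
      exact Finset.sum_eq_zero fun j _ => by rw [map_mul, har, h0 j.1 j.2, zero_mul]
  · intro hv
    refine ⟨fun j hj => ?_, fun c hc h0 => ?_⟩
    -- Conversely lift the reduced solutions; their matrix at `J` is one modulo the maximal ideal.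
    · choose cb hcb hcbJ using fun j : J => hv.1 j.1 j.2
      choose a ha har using fun j : J => exists_vec_lift hD (hcb j)
      let M : Matrix J J A := Matrix.of fun p q => a p q.1
      have hM : IsUnit M.det := by
        rw [← residue_ne_zero_iff_isUnit, RingHom.map_det, RingHom.mapMatrix_apply]
        have e : M.map (residue A) = 1 := Matrix.ext fun p q => by
          simp only [M, Matrix.map_apply, Matrix.of_apply, har, hcbJ p q.1 q.2, Matrix.one_apply,
            Subtype.val_inj, eq_comm]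
        rw [e, Matrix.det_one]
        exact one_ne_zero
      let b : Fin Φ.n → A := fun i => ∑ p, M⁻¹ ⟨j, hj⟩ p * a p i
      refine ⟨fun i => (b i : QBar), ⟨?_, fun i hi => ?_⟩, fun i => (b i).2⟩
      · have e : (fun i => (b i : QBar)) =
            ∑ p, (M⁻¹ ⟨j, hj⟩ p : QBar) • fun i => (a p i : QBar) := by
          funext i
          simp [b]
        rw [e, map_sum]
        exact sum_mem fun p _ => by rw [map_smul]; exact Submodule.smul_mem _ _ (ha p)
      · have h1 := congrArg (fun X : Matrix J J A => ((X ⟨j, hj⟩ ⟨i, hi⟩ : A) : QBar))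
          (Matrix.nonsing_inv_mul M hM)
        simp only [Matrix.mul_apply, Matrix.one_apply, M, Matrix.of_apply] at h1
        show ((b i : A) : QBar) = _
        refine h1.trans ?_
        rw [apply_ite (fun x : A => (x : QBar))]
        simp [Subtype.ext_iff, eq_comm]
    -- A vector vanishing at `J`, normalised, would reduce to a nonzero one vanishing at `J`.
    · by_contra hne
      obtain ⟨i₀, h0i, hA⟩ := exists_normalize (A := A) (c := c)
        (Function.ne_iff.mp hne)
      have hz : Φ.vec (fun i => ((⟨_, hA i⟩ : A) : QBar)) ∈ riemannRochSpace (Φ.E - D) := by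
        have e : (fun i => ((⟨_, hA i⟩ : A) : QBar)) = (c i₀)⁻¹ • c :=
          funext fun i => div_eq_inv_mul _ _
        rw [e, map_smul]
        exact Submodule.smul_mem _ _ hc
      have h1 := congrFun (hv.2 _ (vecb_mem_of_vec_mem hD hz) fun i hi => by
        rw [show (⟨_, hA i⟩ : A) = 0 from Subtype.ext (by
          show c i / c i₀ = 0
          rw [h0 i hi, zero_div]), map_zero]) i₀
      rw [show (⟨_, hA i₀⟩ : A) = 1 from Subtype.ext (div_self h0i), map_one] at h1
      exact one_ne_zero h1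

variable (Φ)

theorem exists_resValid (Db : Divisor (ResidueField A) Fk) : ∃ J, Φ.ResValid Db J := by
  classical
  let W := (riemannRochSpace (redDiv h Φ.E - Db)).comap Φ.vecb
  obtain ⟨J, hJ, hmin⟩ := exists_minimal_of_wellFoundedLT
    (fun J : Finset (Fin Φ.n) => ∀ c ∈ W, (∀ i ∈ J, c i = 0) → c = 0)
    ⟨Finset.univ, fun c _ h0 => funext fun i => h0 i (Finset.mem_univ i)⟩
  refine ⟨J, fun j hj => ?_, hJ⟩
  by_contra! hcon
  have hne : ¬ J ≤ J.erase j := fun hle => Finset.notMem_erase j J (hle hj)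
  refine hne (hmin (fun c hc h0 => ?_) (Finset.erase_subset j J))
  rcases eq_or_ne (c j) 0 with hcj | hcj
  · exact hJ c hc fun i hi => by
      rcases eq_or_ne i j with rfl | hij
      exacts [hcj, h0 i (Finset.mem_erase.mpr ⟨hij, hi⟩)]
  · obtain ⟨i, hi, hne'⟩ := hcon ((c j)⁻¹ • c) (W.smul_mem _ hc)
    exfalso
    rcases eq_or_ne i j with rfl | hij
    · exact hne' (by simp [inv_mul_cancel₀ hcj])
    · exact hne' (by simp [hij, h0 i (Finset.mem_erase.mpr ⟨hij, hi⟩)])

/-! ### Coordinates -/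

open Classical in
/-- The normalised coordinates. -/
def coord (D : Divisor QBar F) (J : Finset (Fin Φ.n)) (j i : Fin Φ.n) : QBar :=
  if hv : Φ.Valid D J ∧ j ∈ J then (hv.1.1 j hv.2).choose i else 0

variable {Φ}

theorem coord_eq_zero {j i : Fin Φ.n} (hv : ¬ (Φ.Valid D J ∧ j ∈ J)) : Φ.coord D J j i = 0 :=
  dif_neg hv

theorem isSol_coord (hv : Φ.Valid D J) {j : Fin Φ.n} (hj : j ∈ J) :
    Φ.IsSol D J j (Φ.coord D J j) := by
  have e : Φ.coord D J j = (hv.1 j hj).choose := funext fun i => dif_pos ⟨hv, hj⟩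
  exact e ▸ (hv.1 j hj).choose_spec.1

/-- The normalised coordinates are integral. -/
theorem coord_mem (D : Divisor QBar F) (J : Finset (Fin Φ.n)) (j i : Fin Φ.n) :
    Φ.coord D J j i ∈ A := by
  unfold coord
  split_ifs with hv
  · exact (hv.1.1 j hv.2).choose_spec.2 i
  · exact zero_mem _

/-- The normalised coordinates are the only solution. -/
theorem coord_unique (hv : Φ.Valid D J) {j : Fin Φ.n} (hj : j ∈ J) {c : Fin Φ.n → QBar}
    (hc : Φ.IsSol D J j c) : c = Φ.coord D J j := by
  refine sub_eq_zero.mp (hv.2 _ ?_ fun i hi => ?_)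
  · rw [map_sub]
    exact sub_mem hc.1 (isSol_coord hv hj).1
  · rw [Pi.sub_apply, hc.2 i hi, (isSol_coord hv hj).2 i hi, sub_self]

theorem residue_coord_eq (hD : Φ.Small D) (hD' : Φ.Small D') (hred : redDiv h D = redDiv h D')
    (j i : Fin Φ.n) :
    residue A ⟨_, coord_mem D J j i⟩ = residue A ⟨_, coord_mem D' J j i⟩ := by
  classical
  have hiff : Φ.Valid D J ↔ Φ.Valid D' J := by rw [valid_iff hD, valid_iff hD', hred]
  by_cases hv : Φ.Valid D J ∧ j ∈ J
  · obtain ⟨hv, hj⟩ := hv
    have key : ∀ {D₁ : Divisor QBar F}, Φ.Small D₁ → (hv₁ : Φ.Valid D₁ J) →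
        Φ.vecb (fun i => residue A ⟨_, coord_mem D₁ J j i⟩) ∈
            riemannRochSpace (redDiv h Φ.E - redDiv h D₁) ∧
          ∀ i ∈ J, residue A ⟨_, coord_mem D₁ J j i⟩ = if i = j then 1 else 0 := by
      intro D₁ h₁ hv₁
      exact ⟨vecb_mem_of_vec_mem h₁ (isSol_coord hv₁ hj).1,
        fun i hi => residue_eq_of_isSol (isSol_coord hv₁ hj) hi _⟩
    obtain ⟨k1, k2⟩ := key hD hv
    obtain ⟨k3, k4⟩ := key hD' (hiff.mp hv)
    rw [← hred] at k3
    refine congrFun (sub_eq_zero.mp (((valid_iff hD).mp hv).2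
      ((fun i => residue A ⟨_, coord_mem D J j i⟩) - fun i => residue A ⟨_, coord_mem D' J j i⟩)
      ?_ fun i hi => ?_)) i
    · rw [map_sub]; exact sub_mem k1 k3
    · rw [Pi.sub_apply, k2 i hi, k4 i hi, sub_self]
  · congr 1
    exact Subtype.ext ((coord_eq_zero hv).trans
      (coord_eq_zero fun hc => hv ⟨hiff.mpr hc.1, hc.2⟩).symm)

/-- Small divisors with the same reduction and the same coordinates are equal. -/
theorem eq_of_coord_eq (hD : Φ.Small D) (hD' : Φ.Small D') (hred : redDiv h D = redDiv h D')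
    (hc : ∀ J j i, Φ.coord D J j i = Φ.coord D' J j i) : D = D' := by
  classical
  obtain ⟨J, hJ⟩ := Φ.exists_resValid (redDiv h D)
  have hv := (valid_iff hD).mpr hJ
  have hv' := (valid_iff hD').mpr (hred ▸ hJ)
  have hle : riemannRochSpace (Φ.E - D) ≤ riemannRochSpace (Φ.E - D') := fun f hf => by
    obtain ⟨c, rfl, -⟩ := Φ.exists_vec_eq (sub_le_E hD hf)
    rw [eq_sum_of_valid hv (fun j hj => isSol_coord hv hj) hf, map_sum]
    refine sum_mem fun j hj => ?_
    rw [map_smul, show Φ.coord D J j = Φ.coord D' J j from funext (hc J j)]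
    exact Submodule.smul_mem _ _ (isSol_coord hv' hj).1
  have hbd := three_le_bigDeg h
  have hbig := Φ.big
  have hrr := one_le_rrBound h
  have h1 : Φ.E - D ≤ Φ.E - D' :=
    le_of_riemannRochSpace_le (fun _ => ell_eq_of_rrBound_le h)
      (by rw [map_sub, hD.2]; omega) hle
  exact (eq_of_le_of_degree_le (sub_le_sub_iff_left _ |>.mp h1)
    (by rw [hD.2, hD'.2])).symm

/-! ### Families -/

section Family

variable {Ω : Type*} [Finite Ω] {R : Subalgebra A (Ω → QBar)} {G : Ω → Divisor QBar F}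
  {Gb : Divisor (ResidueField A) Fk}

omit [Finite Ω] in
theorem isReg_of_coord_mem (hG : ∀ ω, Φ.Small (G ω)) (hGb : ∀ ω, redDiv h (G ω) = Gb)
    (hc : ∀ J j i, (fun ω => Φ.coord (G ω) J j i) ∈ R) :
    IsReg h R (fun ω => Φ.E - G ω) (redDiv h Φ.E - Gb) := by
  classical
  intro x hx
  -- Choose indices valid for the reduction; combine the coordinate solutions with lifted values.
  obtain ⟨J, hJ⟩ := Φ.exists_resValid Gb
  rcases isEmpty_or_nonempty Ω with hΩ | ⟨⟨ω₀⟩⟩
  · refine ⟨0, zero_mem _, fun ω => (hΩ.false ω).elim⟩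
  have hx' : x ∈ riemannRochSpace (redDiv h Φ.E) :=
    riemannRochSpace_mono (sub_le_self _ (hGb ω₀ ▸ redDiv_nonneg h (hG ω₀).1)) hx
  obtain ⟨cb, hcb⟩ := Φ.exists_vecb_eq hx'
  let r : Fin Φ.n → R := fun i =>
    ∑ j ∈ J, algebraMap A R (liftRes A (cb j)) * ⟨_, hc J j i⟩
  refine ⟨fun ω => ∑ i, (r i : Ω → QBar) ω • (Φ.fb i : F), sum_mem_secs _ _ _, fun ω => ?_⟩
  have hv := (valid_iff (hG ω)).mpr (by rw [hGb ω]; exact hJ)
  have hr : ∀ i, (r i : Ω → QBar) ω =
      ∑ j ∈ J, (liftRes A (cb j) : QBar) * Φ.coord (G ω) J j i := fun i => by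
    simp only [r, AddSubmonoidClass.coe_finsetSum, Finset.sum_apply, MulMemClass.coe_mul,
      Pi.mul_apply]
    rfl
  have e : Φ.vec (fun i => (r i : Ω → QBar) ω) = ∑ i, (r i : Ω → QBar) ω • (Φ.fb i : F) :=
    Φ.vec_apply _
  -- At every point the section lies in the space.
  have hmem : Φ.vec (fun i => (r i : Ω → QBar) ω) ∈ riemannRochSpace (Φ.E - G ω) := by
    have e2 : (fun i => (r i : Ω → QBar) ω) =
        ∑ j ∈ J, (liftRes A (cb j) : QBar) • Φ.coord (G ω) J j := funext fun i => by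
      simp [hr i, Finset.sum_apply]
    rw [e2, map_sum]
    exact sum_mem fun j hj => by
      rw [map_smul]; exact Submodule.smul_mem _ _ (isSol_coord hv hj).1
  let a : Fin Φ.n → A := fun i => ∑ j ∈ J, liftRes A (cb j) * ⟨_, coord_mem (G ω) J j i⟩
  have ha : (fun i => (a i : QBar)) = fun i => (r i : Ω → QBar) ω := funext fun i => by
    simp [a, hr i]
  obtain ⟨hm, hred⟩ := Φ.redF_vec a
  refine ⟨show (∑ i, (r i : Ω → QBar) ω • (Φ.fb i : F)) ∈ _ from e ▸ hmem,
    show (∑ i, (r i : Ω → QBar) ω • (Φ.fb i : F)) ∈ h.S by rw [← e, ← ha]; exact hm, ?_⟩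
  rw [← hcb]
  refine Eq.trans (congrArg _ (Subtype.ext (e.symm.trans (congrArg Φ.vec ha).symm)))
    (hred.trans (congrArg Φ.vecb ?_))
  -- Its reduction agrees with `x` at the indices of `J`, hence everywhere.
  have hin : Φ.vecb (fun i => residue A (a i)) ∈
      riemannRochSpace (redDiv h Φ.E - redDiv h (G ω)) :=
    vecb_mem_of_vec_mem (hG ω) (by rw [ha]; exact hmem)
  rw [hGb ω] at hin
  refine sub_eq_zero.mp (hJ.2 _ ?_ fun i hi => ?_)
  · rw [map_sub, hcb]; exact sub_mem hin hx
  · rw [Pi.sub_apply, sub_eq_zero]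
    simp only [a, map_sum, map_mul, residue_liftRes]
    rw [Finset.sum_congr rfl fun j hj => by rw [residue_eq_of_isSol (isSol_coord hv hj) hi _]]
    simp [hi]

theorem coord_mem_of_isReg (hR : HasIntValues R) (hG : ∀ ω, Φ.Small (G ω))
    (hGb : ∀ ω, redDiv h (G ω) = Gb) (hreg : IsReg h R (fun ω => Φ.E - G ω) (redDiv h Φ.E - Gb))
    (J : Finset (Fin Φ.n)) (j i : Fin Φ.n) : (fun ω => Φ.coord (G ω) J j i) ∈ R := by
  classical
  by_cases hJ : Φ.ResValid Gb J ∧ j ∈ J
  swap
  · have e : (fun ω => Φ.coord (G ω) J j i) = 0 := funext fun ω =>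
      coord_eq_zero fun hv => hJ ⟨hGb ω ▸ (valid_iff (hG ω)).mp hv.1, hv.2⟩
    exact e ▸ zero_mem R
  obtain ⟨hJ, hj⟩ := hJ
  choose cb hcb hcbJ using fun p : J => hJ.1 p.1 p.2
  choose ψ hψ hψ' using fun p : J => hreg _ (hcb p)
  choose hψG hψS hψr using hψ'
  obtain ⟨d, v, P, hvli, hP⟩ := exists_frame_secs
    (Sum.elim ψ fun b : Fin Φ.n => fun _ => (Φ.fb b : F))
    (by rintro (p | b); exacts [hψ p, const_mem_secs _])
  let U : Matrix (Fin d) (Fin Φ.n) R := P.submatrix id Sum.inr
  let Q : Matrix (Fin d) J R := P.submatrix id Sum.inl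
  rcases isEmpty_or_nonempty Ω with hΩ | ⟨⟨ω₀⟩⟩
  · have e : (fun ω => Φ.coord (G ω) J j i) = 0 := funext fun ω => (hΩ.false ω).elim
    exact e ▸ zero_mem R
  have hUv : ∀ (ω : Ω) (b : Fin Φ.n), redF h.toRedLattice (Φ.fb b) =
      ∑ a, resAt hR ω (U a b) • redF h.toRedLattice (v a) := fun ω b =>
    redF_eq_sum_coords hR (hP (Sum.inr b) ω) (Φ.fb b).2
  obtain ⟨L, -, hLU, -, -⟩ := exists_left_inverse_lift hR U
    (fun ω => map_resAt_eq hR hvli hUv ω ω₀) (injective_mulVec_of_coords Φ.indep (hUv ω₀))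
  let C : Matrix (Fin Φ.n) J R := L * Q
  -- the coordinates of the sections
  have hC : ∀ (p : J) (ω : Ω), Φ.vec (fun b => evalQ R ω (C b p)) = ψ p ω := by
    intro p ω
    obtain ⟨c, hc, -⟩ := Φ.exists_vec_eq (sub_le_E (hG ω) (hψG p ω))
    rw [← hc]
    congr 1
    have hUc : (U.map (evalQ R ω)).mulVec c = fun a => evalQ R ω (Q a p) := by
      have h1 := hc
      rw [Φ.vec_apply, show ψ p ω = ∑ a, (P a (Sum.inl p) : Ω → QBar) ω • (v a : F) from
        hP (Sum.inl p) ω] at h1
      simp only [show ∀ b, (Φ.fb b : F) = ∑ a, (U a b : Ω → QBar) ω • (v a : F) from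
        fun b => hP (Sum.inr b) ω, Finset.smul_sum, smul_smul] at h1
      rw [Finset.sum_comm] at h1
      simp only [← Finset.sum_smul] at h1
      funext a
      have h2 := Fintype.linearIndependent_iff.mp
        (linearIndependent_of_redF h.toRedLattice v hvli)
        (fun a => ∑ b, c b * (U a b : Ω → QBar) ω - (P a (Sum.inl p) : Ω → QBar) ω)
        (by simp only [sub_smul, Finset.sum_sub_distrib, h1, sub_self]) a
      simp only [Matrix.mulVec, dotProduct, Matrix.map_apply, evalQ_apply, Q,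
        Matrix.submatrix_apply, id]
      rw [← sub_eq_zero, ← h2]
      congr 1
      exact Finset.sum_congr rfl fun b _ => mul_comm _ _
    have hone : L.map (evalQ R ω) * U.map (evalQ R ω) = 1 := by
      rw [← Matrix.map_mul, hLU, Matrix.map_one _ (map_zero _) (map_one _)]
    have h3 := congrArg (L.map (evalQ R ω)).mulVec hUc
    rw [Matrix.mulVec_mulVec, hone, Matrix.one_mulVec] at h3
    rw [h3]
    funext b
    simp only [C, Matrix.mul_apply (N := Q), map_sum, map_mul, Matrix.mulVec, dotProduct,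
      Matrix.map_apply]
  have hCres : ∀ (p : J) (ω : Ω) (b : Fin Φ.n), resAt hR ω (C b p) = cb p b := by
    intro p ω
    refine fun b => congrFun
      (Φ.vecb_injective (a₁ := fun b => resAt hR ω (C b p)) (a₂ := cb p) ?_) b
    obtain ⟨hm, hr⟩ := Φ.redF_vec fun b => evalA' hR ω (C b p)
    rw [show Φ.vecb (cb p) = _ from (hψr p ω).symm]
    refine Eq.trans hr.symm (congrArg _ (Subtype.ext ?_))
    exact hC p ω
  -- normalisation
  let N : Matrix J J R := Matrix.of fun q p => C q.1 p
  have hNu : IsUnit N := isUnit_matrix hR _ fun ω => Matrix.ext fun q p => by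
    simp only [N, Matrix.map_apply, Matrix.of_apply, hCres, hcbJ p q.1 q.2, Matrix.one_apply,
      Subtype.val_inj]
  let G' : Fin Φ.n → R := fun b => ∑ p, C b p * N⁻¹ p ⟨j, hj⟩
  suffices e : (fun ω => Φ.coord (G ω) J j i) = (G' i : Ω → QBar) from e ▸ (G' i).2
  funext ω
  have hv := (valid_iff (hG ω)).mpr (by rw [hGb ω]; exact hJ)
  refine (congrFun (coord_unique hv hj (c := fun b => evalQ R ω (G' b)) ⟨?_, fun b hb => ?_⟩)
    i).symm
  · have e : (fun b => evalQ R ω (G' b)) =
        ∑ p, evalQ R ω (N⁻¹ p ⟨j, hj⟩) • fun b => evalQ R ω (C b p) := funext fun b => by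
      simp [G', Finset.sum_apply, mul_comm]
    rw [e, map_sum]
    exact sum_mem fun p _ => by rw [map_smul, hC]; exact Submodule.smul_mem _ _ (hψG p ω)
  · have h1 := congrArg (fun X : Matrix J J R => evalQ R ω (X ⟨b, hb⟩ ⟨j, hj⟩))
      (Matrix.mul_nonsing_inv N ((Matrix.isUnit_iff_isUnit_det _).mp hNu))
    simp only [Matrix.mul_apply, Matrix.one_apply, apply_ite (evalQ R ω), map_one, map_zero,
      Subtype.mk.injEq] at h1
    exact h1

end Family

end Ambient

end Fermat.Agent.FiniteFlat
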