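import Fermat.Agent.FF.RiemannRoch
import Mathlib.Algebra.Module.Submodule.Union
import Mathlib.Algebra.Algebra.Operations

/-!
# Riemann–Roch spaces of large degree over an algebraically closed constant field

Generic elements, freeness from base points, multiplication, and generic effective divisors of
degree the genus.

The main theorems are `riemannRochSpace_mul` and `exists_generic`.
-/

set_option autoImplicit false

noncomputable section

open AlgebraicCurve
open Fermat.Agent.FF

namespace Fermat.Agent.FiniteFlat

variable {K F : Type*} [Field K] [Field F] [Algebra K F] [IsFunctionField K F] [IsAlgClosed K]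

/-! ### Places and thresholds -/

/-- A function field over an algebraically closed field has infinitely many places. -/
theorem infinite_place : Infinite (Place K F) := by
  obtain ⟨x, hx, -⟩ := ‹IsFunctionField K F›.exists_finite
  have hz : ∀ a : K, ∃ v : Place K F, 0 < v.ord (x - algebraMap K F a) := fun a => by
    have ht : Transcendental K (x - algebraMap K F a)⁻¹ := fun h => hx (by
      have := (IsAlgebraic.inv_iff.mp h).add (isAlgebraic_algebraMap a)
      simpa using this)
    obtain ⟨v, hv⟩ := exists_ord_neg_of_transcendental ht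
    rw [v.ord_inv] at hv
    exact ⟨v, by omega⟩
  choose v hv using hz
  refine Infinite.of_injective v fun a b hab => ?_
  by_contra hne
  have ha := mem_ordGe_of_le (v a) (show (1 : ℤ) ≤ _ from hv a)
  have hb := mem_ordGe_of_le (v a) (show (1 : ℤ) ≤ (v a).ord (x - algebraMap K F b) from hab ▸ hv b)
  have hd := sub_mem hb ha
  rw [sub_sub_sub_cancel_left, ← map_sub] at hd
  have h1 := le_ord_of_mem_ordGe (v a)
    ((map_ne_zero _).mpr (sub_ne_zero.mpr hne)) hd
  rw [ord_algebraMap] at h1
  omega

/-- A threshold for the Riemann–Roch formula without correction term. -/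
theorem exists_threshold : ∃ c : ℤ, 1 ≤ c ∧ ∀ D : Divisor K F, c ≤ Divisor.degree D →
    ell K D = Divisor.degree D + 1 - genusFF K F := by
  obtain ⟨c, hc⟩ := exists_ell_eq (K := K) (F := F)
  exact ⟨max c 1, le_max_right _ _, fun D hD => hc D ((le_max_left _ _).trans hD)⟩

theorem ell_le_degree_add_one {D : Divisor K F} (hD : 0 ≤ D) :
    ell K D ≤ Divisor.degree D + 1 := by
  have := ell_le_of_le hD
  rw [ell_zero, map_zero] at this
  omega

/-- A divisor of degree zero has Riemann–Roch dimension at most one. -/
theorem ell_le_one_of_degree_eq_zero {D : Divisor K F} (hD : Divisor.degree D = 0) :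
    ell K D ≤ 1 := by
  obtain ⟨v⟩ := exists_place (K := K) (F := F)
  have h : D - Finsupp.single v 1 ≤ D := sub_le_self _ (Finsupp.le_def.mpr fun w => by
    rcases eq_or_ne w v with rfl | hw <;> simp [*])
  have h1 := ell_le_of_le h
  rw [map_sub, FF.degree_single_one, hD,
    ell_eq_zero_of_degree_neg (D := D - Finsupp.single v 1)
      (by rw [map_sub, FF.degree_single_one, hD]; norm_num)] at h1
  omega

/-! ### Base points -/

omit [IsFunctionField K F] in
/-- If a subspace has, at each of finitely many places, an element of order below a given bound, one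
of its elements does so at all of them. -/
theorem exists_exact (W : Submodule K F) (S : Finset (Place K F)) (n : Place K F → ℤ)
    (h : ∀ v ∈ S, ∃ f ∈ W, f ∉ ordGe v (n v)) : ∃ f ∈ W, ∀ v ∈ S, f ∉ ordGe v (n v) := by
  let p : S → Submodule K W := fun v => (ordGe v.1 (n v.1)).comap W.subtype
  have hp : ∀ v, p v ≠ ⊤ := fun v htop => by
    obtain ⟨f, hf, hfn⟩ := h v.1 v.2
    exact hfn (show (⟨f, hf⟩ : W) ∈ p v from htop ▸ Submodule.mem_top)
  obtain ⟨f, hf⟩ := Submodule.exists_forall_notMem_of_forall_ne_top p hp
  exact ⟨f, f.2, fun v hv => hf ⟨v, hv⟩⟩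

/-- Beyond the threshold, Riemann–Roch spaces have no base points. -/
theorem exists_notMem_ordGe {c : ℤ}
    (hc : ∀ D : Divisor K F, c ≤ Divisor.degree D → ell K D = Divisor.degree D + 1 - genusFF K F)
    {D : Divisor K F} (hD : c + 1 ≤ Divisor.degree D) (v : Place K F) :
    ∃ f ∈ riemannRochSpace D, f ∉ ordGe v (-D v + 1) := by
  by_contra! hcon
  have hle : riemannRochSpace D ≤ riemannRochSpace (D - Finsupp.single v 1) := fun f hf => by
    rw [mem_riemannRochSpace']
    intro w
    rcases eq_or_ne w v with rfl | hw
    · simpa [neg_add_eq_sub] using hcon f hf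
    · simpa [Finsupp.single_eq_of_ne hw] using mem_riemannRochSpace'.mp hf w
  have h1 : ell K D ≤ ell K (D - Finsupp.single v 1) := by
    simpa [ell] using Submodule.finrank_mono hle
  have hd : Divisor.degree (D - Finsupp.single v 1) = Divisor.degree D - 1 := by
    rw [map_sub, FF.degree_single_one]
  rw [hc D (by omega), hc _ (by omega), hd] at h1
  omega

/-- Beyond the threshold, the space determines the divisor. -/
theorem le_of_riemannRochSpace_le {c : ℤ}
    (hc : ∀ D : Divisor K F, c ≤ Divisor.degree D → ell K D = Divisor.degree D + 1 - genusFF K F)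
    {A B : Divisor K F} (hA : c + 1 ≤ Divisor.degree A)
    (h : riemannRochSpace A ≤ riemannRochSpace B) : A ≤ B := by
  refine Finsupp.le_def.mpr fun v => ?_
  obtain ⟨f, hf, hfn⟩ := exists_notMem_ordGe hc hA v
  by_contra! hlt
  exact hfn (ordGe_anti v (by omega) (mem_riemannRochSpace'.mp (h hf) v))

/-- Division by a space without base points. -/
theorem mem_of_forall_mul_mem {c : ℤ}
    (hc : ∀ D : Divisor K F, c ≤ Divisor.degree D → ell K D = Divisor.degree D + 1 - genusFF K F)
    {G H : Divisor K F} (hH : c + 1 ≤ Divisor.degree H) {h : F}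
    (hh : ∀ f ∈ riemannRochSpace H, h * f ∈ riemannRochSpace (G + H)) :
    h ∈ riemannRochSpace G := by
  rw [mem_riemannRochSpace']
  intro v
  rcases eq_or_ne h 0 with rfl | h0
  · exact zero_mem _
  obtain ⟨f, hf, hfn⟩ := exists_notMem_ordGe hc hH v
  have hf0 : f ≠ 0 := fun e => hfn (e ▸ zero_mem _)
  have h1 := le_ord_of_mem_ordGe v (mul_ne_zero h0 hf0) (mem_riemannRochSpace'.mp (hh f hf) v)
  rw [v.ord_mul h0 hf0, Finsupp.add_apply] at h1
  have h2 : v.ord f < -H v + 1 := not_le.mp fun e => hfn (mem_ordGe_of_le v e)
  exact mem_ordGe_of_le v (by omega)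

/-! ### Multiplication -/

/-- The pencil trick. -/
theorem riemannRochSpace_mul_of_add_le {c : ℤ} (hc1 : 1 ≤ c)
    (hc : ∀ D : Divisor K F, c ≤ Divisor.degree D → ell K D = Divisor.degree D + 1 - genusFF K F)
    {A B : Divisor K F} (hA : c + 1 ≤ Divisor.degree A)
    (hAB : Divisor.degree A + c ≤ Divisor.degree B) :
    riemannRochSpace A * riemannRochSpace B = riemannRochSpace (A + B) := by
  classical
  -- Two functions `a`, `b` of `L(A)` with no common zero relative to `A`.
  obtain ⟨a, ha, ha0⟩ : ∃ a ∈ riemannRochSpace A, a ≠ 0 := by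
    obtain ⟨v⟩ := exists_place (K := K) (F := F)
    obtain ⟨f, hf, hfn⟩ := exists_notMem_ordGe hc hA v
    exact ⟨f, hf, fun e => hfn (e ▸ zero_mem _)⟩
  obtain ⟨b, hb, hbn⟩ := exists_exact (riemannRochSpace A) (A + div K a).support
    (fun v => -A v + 1) fun v _ => exists_notMem_ordGe hc hA v
  let φ : (riemannRochSpace B × riemannRochSpace B) →ₗ[K] F :=
    LinearMap.coprod ((LinearMap.mulLeft K a).comp (riemannRochSpace B).subtype)
      ((LinearMap.mulLeft K b).comp (riemannRochSpace B).subtype)
  have hrange : LinearMap.range φ ≤ riemannRochSpace A * riemannRochSpace B := by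
    rintro _ ⟨⟨x, y⟩, rfl⟩
    exact add_mem (Submodule.mul_mem_mul ha x.2) (Submodule.mul_mem_mul hb y.2)
  -- A relation `a x + b y = 0` forces `y / a ∈ L(B - A)`.
  have hker : ∀ p : LinearMap.ker φ, (p.1.2 : F) / a ∈ riemannRochSpace (B - A) := by
    rintro ⟨⟨x, y⟩, hp⟩
    have hp' : a * (x : F) + b * (y : F) = 0 := hp
    rw [mem_riemannRochSpace']
    intro v
    rcases eq_or_ne (y : F) 0 with hy | hy
    · simp [hy]
    have h1 := le_ord_of_mem_ordGe v hy (mem_riemannRochSpace'.mp y.2 v)
    by_cases hv : v ∈ (A + div K a).support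
    · have hb0 : b ≠ 0 := fun e => hbn v hv (e ▸ zero_mem _)
      have hbo : v.ord b < -A v + 1 := not_le.mp fun e => hbn v hv (mem_ordGe_of_le v e)
      have hx : (x : F) ≠ 0 := fun e => by
        rw [e, mul_zero, zero_add] at hp'
        exact mul_ne_zero hb0 hy hp'
      have h2 := le_ord_of_mem_ordGe v hx (mem_riemannRochSpace'.mp x.2 v)
      have h3 : v.ord a + v.ord (x : F) = v.ord b + v.ord (y : F) := by
        rw [← v.ord_mul ha0 hx, ← v.ord_mul hb0 hy, ← ord_neg v (b * y),
          eq_neg_of_add_eq_zero_left hp']
      refine mem_ordGe_of_le v ?_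
      rw [ord_div v hy ha0, Finsupp.sub_apply]
      omega
    · simp only [Finsupp.mem_support_iff, Finsupp.add_apply, div_apply, not_not] at hv
      refine mem_ordGe_of_le v ?_
      rw [ord_div v hy ha0, Finsupp.sub_apply]
      omega
  let ψ : LinearMap.ker φ →ₗ[K] riemannRochSpace (B - A) :=
    { toFun := fun p => ⟨(p.1.2 : F) / a, hker p⟩
      map_add' := fun p q => Subtype.ext (add_div (p.1.2 : F) q.1.2 a)
      map_smul' := fun r p => Subtype.ext (smul_div_assoc r (p.1.2 : F) a) }
  have hψ : Function.Injective ψ := fun p q hpq => by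
    have h1 : (p.1.2 : F) = q.1.2 := (div_left_inj' ha0).mp (congrArg Subtype.val hpq)
    have h2 : a * (p.1.1 : F) + b * (p.1.2 : F) = 0 := p.2
    have h2' : a * (q.1.1 : F) + b * (q.1.2 : F) = 0 := q.2
    refine Subtype.ext (Prod.ext (Subtype.ext (mul_left_cancel₀ ha0 ?_)) (Subtype.ext h1))
    rw [h1] at h2
    exact add_right_cancel (h2.trans h2'.symm)
  -- Hence `a L(B) + b L(B)` has the dimension of `L(A + B)`.
  have h1 := LinearMap.finrank_range_add_finrank_ker φ
  have h2 := ψ.finrank_le_finrank_of_injective hψ
  rw [Module.finrank_prod] at h1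
  have h3 : ell K (A + B) ≤ Module.finrank K (LinearMap.range φ) := by
    have e1 := hc B (by omega)
    have e2 := hc (B - A) (by rw [map_sub]; omega)
    have e3 := hc (A + B) (by rw [map_add]; omega)
    simp only [map_sub, map_add] at e2 e3
    unfold ell at e1 e2 e3 ⊢
    omega
  refine le_antisymm (riemannRochSpace_mul_le A B) (le_trans ?_ hrange)
  refine (Submodule.eq_of_le_of_finrank_le (hrange.trans (riemannRochSpace_mul_le A B)) ?_).ge
  unfold ell at h3
  exact_mod_cast h3

/-- Multiplication of Riemann–Roch spaces of large degree is surjective. -/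
theorem riemannRochSpace_mul {c : ℤ} (hc1 : 1 ≤ c)
    (hc : ∀ D : Divisor K F, c ≤ Divisor.degree D → ell K D = Divisor.degree D + 1 - genusFF K F)
    {A B : Divisor K F} (hA : 3 * c + 2 ≤ Divisor.degree A) (hB : 3 * c + 2 ≤ Divisor.degree B) :
    riemannRochSpace A * riemannRochSpace B = riemannRochSpace (A + B) := by
  rcases le_or_gt (Divisor.degree A + c) (Divisor.degree B) with h | h
  · exact riemannRochSpace_mul_of_add_le hc1 hc (by omega) h
  rcases le_or_gt (Divisor.degree B + c) (Divisor.degree A) with h' | h'
  · rw [mul_comm, add_comm]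
    exact riemannRochSpace_mul_of_add_le hc1 hc (by omega) h'
  obtain ⟨v⟩ := exists_place (K := K) (F := F)
  set C := Finsupp.single v (c + 1) with hC
  have hCd : Divisor.degree C = c + 1 := FF.degree_single_one v _
  refine le_antisymm (riemannRochSpace_mul_le A B) ?_
  have e1 : riemannRochSpace C * riemannRochSpace (B - C) = riemannRochSpace B := by
    rw [riemannRochSpace_mul_of_add_le hc1 hc (by omega) (by rw [map_sub]; omega),
      add_sub_cancel]
  have e2 : riemannRochSpace A * riemannRochSpace C = riemannRochSpace (A + C) := by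
    rw [mul_comm, add_comm]
    exact riemannRochSpace_mul_of_add_le hc1 hc (by omega) (by omega)
  have e3 : riemannRochSpace (B - C) * riemannRochSpace (A + C) = riemannRochSpace (A + B) := by
    rw [riemannRochSpace_mul_of_add_le hc1 hc (by rw [map_sub]; omega)
      (by rw [map_sub, map_add]; omega)]
    congr 1
    abel
  rw [← e1, ← mul_assoc, e2, mul_comm, e3]

/-! ### Generic divisors -/

omit [IsAlgClosed K] in
/-- An effective divisor with one-dimensional space is alone in its class. -/
theorem eq_of_ell_eq_one {D E : Divisor K F} (hD : 0 ≤ D) (hE : 0 ≤ E) (h1 : ell K D = 1)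
    {f : F} (h : E = D + div K f) : E = D := by
  have hfm : f ∈ riemannRochSpace D := mem_riemannRochSpace'.mpr fun v => mem_ordGe_of_le v (by
    have := Finsupp.le_def.mp hE v
    rw [h] at this
    simp only [Finsupp.coe_zero, Pi.zero_apply, Finsupp.add_apply, div_apply] at this
    omega)
  have h1' : Module.finrank K (riemannRochSpace D) = 1 := by unfold ell at h1; omega
  obtain ⟨a, ha⟩ := (finrank_eq_one_iff_of_nonzero'
    (⟨algebraMap K F 1, algebraMap_mem_riemannRochSpace hD 1⟩ : riemannRochSpace D)
    fun e => by simpa using congrArg Subtype.val e).mp h1' ⟨f, hfm⟩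
  have ha' : f = algebraMap K F a := by
    have := congrArg Subtype.val ha
    simpa [Algebra.smul_def] using this.symm
  rw [h, ha']
  ext v
  simp [ord_algebraMap]

/-- While `h¹ > 0`, only finitely many places enlarge the space. -/
theorem finite_jump {D : Divisor K F} (hD : 0 < h1 K D) :
    {v : Place K F | ell K D < ell K (D + Finsupp.single v 1)}.Finite := by
  classical
  by_contra hinf
  -- Take so many jumping places that `h¹` must vanish after adding them.
  obtain ⟨c, hc⟩ := exists_h1_eq_zero (K := K) (F := F)
  obtain ⟨S, hSs, hS⟩ := Set.Infinite.exists_subset_card_eq hinf (c - Divisor.degree D).toNat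
  -- Adding distinct jumping places raises `ell` by one each.
  have key : ∀ T ⊆ S, ell K D + T.card ≤ ell K (D + ∑ v ∈ T, Finsupp.single v 1) := by
    intro T hT
    induction T using Finset.induction_on with
    | empty => simp
    | insert v T hv ih =>
      set E := D + ∑ w ∈ T, Finsupp.single w 1 with hE
      have h1 := ih ((Finset.subset_insert v T).trans hT)
      have hlt : ell K E < ell K (E + Finsupp.single v 1) := by
        have hEv : (E : Divisor K F) v = D v := by
          simp only [hE, Finsupp.add_apply, Finsupp.finsetSum_apply, add_eq_left]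
          exact Finset.sum_eq_zero fun w hw => Finsupp.single_eq_of_ne fun e => hv (e ▸ hw)
        have hv' : ell K D < ell K (D + Finsupp.single v 1) :=
          hSs (hT (Finset.mem_insert_self v T))
        obtain ⟨f, hf, hfn⟩ := SetLike.exists_of_lt (lt_of_le_of_ne
          (riemannRochSpace_mono (le_add_single D v))
          fun e => hv'.ne (by unfold ell; rw [e]))
        have hle : D + Finsupp.single v 1 ≤ E + Finsupp.single v 1 := by
          refine add_le_add_left (le_add_of_nonneg_right (Finset.sum_nonneg fun w _ => ?_)) _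
          exact Finsupp.le_def.mpr fun u => by rcases eq_or_ne u w with rfl | hu <;> simp [*]
        have hfE : f ∉ riemannRochSpace E := fun hfE => hfn (mem_riemannRochSpace'.mpr fun w => by
          rcases eq_or_ne w v with rfl | hw
          · exact hEv ▸ mem_riemannRochSpace'.mp hfE w
          · simpa [Finsupp.single_eq_of_ne hw] using mem_riemannRochSpace'.mp hf w)
        have hlt' : riemannRochSpace E < riemannRochSpace (E + Finsupp.single v 1) :=
          lt_of_le_of_ne (riemannRochSpace_mono (le_add_single E v))
            fun e => hfE (e ▸ riemannRochSpace_mono hle hf)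
        simpa [ell] using Submodule.finrank_lt_finrank_of_lt hlt'
      rw [Finset.sum_insert hv, Finset.card_insert_of_notMem hv,
        show D + (Finsupp.single v 1 + ∑ w ∈ T, Finsupp.single w 1) = E + Finsupp.single v 1 by
          rw [hE]; abel]
      push_cast
      omega
  have h2 := key S subset_rfl
  -- Riemann–Roch then contradicts `h¹(D) > 0`.
  set E := D + ∑ v ∈ S, Finsupp.single v 1 with hE
  have hdeg : Divisor.degree E = Divisor.degree D + S.card := by
    rw [hE, map_add, map_sum]
    simp only [FF.degree_single_one, Finset.sum_const, nsmul_eq_mul, mul_one]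
  have h3 := riemann_roch_isAlgClosed E
  have h4 := riemann_roch_isAlgClosed D
  rw [hc E (by omega)] at h3
  omega

/-- A generic effective divisor of degree the genus. -/
theorem exists_generic {ι : Type*} [Finite ι] (C : ι → Divisor K F)
    (hC : ∀ i, Divisor.degree (C i) = 0) {S : Set (Place K F)} (hS : S.Finite) :
    ∃ B : Divisor K F, 0 ≤ B ∧ Divisor.degree B = genusFF K F ∧
      (∀ v, B v ≠ 0 → v ∉ S) ∧ ∀ i, ell K (C i + B) = 1 := by
  classical
  set g : ℤ := ((genusFF K F : ℕ) : ℤ) with hg
  -- Add one place at a time, lowering each positive `h¹`.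
  suffices ∀ n : ℕ, (n : ℤ) ≤ g → ∃ B : Divisor K F, 0 ≤ B ∧ Divisor.degree B = n ∧
      (∀ v, B v ≠ 0 → v ∉ S) ∧ ∀ i, h1 K (C i + B) ≤ g - n by
    obtain ⟨B, hB, hd, hBS, hh⟩ := this (genusFF K F) le_rfl
    refine ⟨B, hB, hd, hBS, fun i => ?_⟩
    have := riemann_roch_isAlgClosed (C i + B)
    have h0 : 0 ≤ h1 K (C i + B) := by unfold h1; exact Int.natCast_nonneg _
    rw [map_add, hC i, hd] at this
    have := hh i
    omega
  intro n
  induction n with
  | zero =>
    refine fun _ => ⟨0, le_rfl, map_zero _, fun v hv => absurd rfl hv, fun i => ?_⟩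
    have := riemann_roch_isAlgClosed (C i + 0)
    rw [add_zero, hC i] at this
    rw [add_zero]
    have := ell_le_one_of_degree_eq_zero (hC i)
    omega
  | succ n ih =>
    intro hn
    obtain ⟨B, hB, hd, hBS, hh⟩ := ih (by omega)
    -- A new place outside `S` and outside the finitely many places where some `ell` jumps.
    let bad : Set (Place K F) := S ∪ ⋃ i ∈ {i | 0 < h1 K (C i + B)},
      {v | ell K (C i + B) < ell K (C i + B + Finsupp.single v 1)}
    have hbad : bad.Finite := hS.union ((Set.toFinite _).biUnion fun i hi => finite_jump hi)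
    have := infinite_place (K := K) (F := F)
    obtain ⟨v, hv⟩ := hbad.exists_notMem
    refine ⟨B + Finsupp.single v 1, le_trans hB (le_add_single B v), ?_, fun w hw => ?_,
      fun i => ?_⟩
    · rw [map_add, hd, FF.degree_single_one]
      push_cast
      rfl
    · rcases eq_or_ne w v with rfl | hwv
      · exact fun h => hv (Or.inl h)
      · exact hBS w (by simpa [Finsupp.single_eq_of_ne hwv] using hw)
    · rw [← add_assoc]
      have h5 := riemann_roch_isAlgClosed (C i + B)
      have h6 := riemann_roch_isAlgClosed (C i + B + Finsupp.single v 1)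
      have h7 := ell_le_of_le (le_add_single (C i + B) v)
      rw [map_add _ (C i + B), FF.degree_single_one] at h6 h7
      have := hh i
      push_cast
      rcases le_or_gt (h1 K (C i + B)) 0 with h0 | h0
      · omega
      · have : ell K (C i + B + Finsupp.single v 1) ≤ ell K (C i + B) :=
          not_lt.mp fun h => hv (Or.inr (Set.mem_biUnion (x := i) h0 h))
        omega

end Fermat.Agent.FiniteFlat
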