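import Fermat.Agent.Arith.InertiaLift
import Mathlib.Algebra.Polynomial.GroupRingAction
import Mathlib.RingTheory.AdjoinRoot

/-!
# Descent of lattices of functions on a finite Galois module

An `A`-lattice of functions that is stable under the decomposition group and generated by
functions fixed by open subgroups containing the inertia group is spanned by equivariant functions.

The main theorem is `mem_span_equivariant`.
-/

set_option autoImplicit false

noncomputable section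

open Polynomial
open scoped Pointwise
open Fermat.Agent.Arith

namespace Fermat.Agent.FiniteFlat

variable {l : ℕ} {A : ValuationSubring QBar}

/-! ### Integrality and separation -/

/-- Every algebraic number becomes `A`-integral after multiplication by a power of `l`. -/
theorem exists_natCast_pow_mul_mem (hA : A.LiesOverPrime l) (hl : l.Prime) (y : QBar) :
    ∃ s : ℕ, (l : QBar) ^ s * y ∈ A := by
  obtain ⟨n, hn, hny⟩ := ((IsFractionRing.isAlgebraic_iff ℤ ℚ QBar).mpr
    (Algebra.IsAlgebraic.isAlgebraic (R := ℚ) y)).exists_integral_multiple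
  obtain ⟨s, n', hn', hns⟩ :=
    Nat.exists_eq_pow_mul_and_not_dvd (Int.natAbs_ne_zero.mpr hn) l hl.ne_one
  refine ⟨s, ?_⟩
  have hu : (n' : QBar) ∉ A.nonunits := mt (natCast_mem_nonunits_iff hA hl n').mp hn'
  obtain ⟨hu0, huinv⟩ := notMem_nonunits_iff.mp hu
  have hmem : (n.natAbs : QBar) * y ∈ A := by
    have h1 := mem_of_isIntegral A hny
    rw [zsmul_eq_mul] at h1
    rcases Int.natAbs_eq n with h | h <;> rw [h] at h1
    · simpa using h1
    · simpa using neg_mem h1
  have h2 := mul_mem hmem huinv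
  have h3 : (n.natAbs : QBar) * y * (n' : QBar)⁻¹ = (l : QBar) ^ s * y := by
    rw [hns, Nat.cast_mul, Nat.cast_pow]
    field_simp
  exact h3 ▸ h2

/-- A power of an integral element of the maximal ideal makes any given element integral. -/
theorem exists_pow_mul_mem (hA : A.LiesOverPrime l) (hl : l.Prime) {x : QBar}
    (hx : IsIntegral ℤ x) (hm : x ∈ A.nonunits) (y : QBar) : ∃ N, x ^ N * y ∈ A := by
  have : Fact l.Prime := ⟨hl⟩
  -- It suffices to clear `l⁻¹`.
  suffices ∃ N, x ^ N * (l : QBar)⁻¹ ∈ A by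
    obtain ⟨N, hN⟩ := this
    obtain ⟨s, hs⟩ := exists_natCast_pow_mul_mem hA hl y
    refine ⟨N * s, ?_⟩
    have h : x ^ (N * s) * y = (x ^ N * (l : QBar)⁻¹) ^ s * ((l : QBar) ^ s * y) := by
      rw [mul_pow, ← pow_mul, inv_pow]
      field_simp [hl.ne_zero]
    exact h ▸ mul_mem (pow_mem hN s) hs
  obtain ⟨f, hf, hfx⟩ := hx
  set φ := Int.castRingHom (ZMod l)
  have := (hf.map φ).finite_adjoinRoot
  have : Finite (AdjoinRoot (f.map φ)) := Module.finite_of_finite (ZMod l)
  -- Two powers of `X` agree modulo `(f, l)`.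
  obtain ⟨a, b, hab, hne⟩ : ∃ a b : ℕ,
      AdjoinRoot.mk (f.map φ) (X ^ a) = AdjoinRoot.mk (f.map φ) (X ^ b) ∧ a < b := by
    obtain ⟨a, b, hne, hab⟩ := Finite.exists_ne_map_eq_of_infinite
      fun n : ℕ => AdjoinRoot.mk (f.map φ) (X ^ n)
    rcases lt_or_gt_of_ne hne with h | h
    exacts [⟨a, b, hab, h⟩, ⟨b, a, hab.symm, h⟩]
  obtain ⟨g, hg⟩ := AdjoinRoot.mk_eq_mk.mp hab
  obtain ⟨g', rfl⟩ := Polynomial.map_surjective φ (ZMod.ringHom_surjective φ) g
  have hd : C (l : ℤ) ∣ (X ^ a - X ^ b - f * g' : ℤ[X]) := by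
    refine (C_dvd_iff_dvd_coeff _ _).mpr fun i => (ZMod.intCast_zmod_eq_zero_iff_dvd _ l).mp ?_
    rw [← eq_intCast φ, ← Polynomial.coeff_map]
    simp [Polynomial.map_sub, Polynomial.map_mul, ← hg]
  obtain ⟨h, hh⟩ := hd
  -- So `x ^ a (1 - x ^ (b - a)) = l h(x)`, and the second factor is a unit.
  have h1 : x ^ a * (1 - x ^ (b - a)) = (l : QBar) * aeval x h := by
    have := congrArg (aeval x) hh
    simp only [map_sub, map_mul, map_pow, aeval_X, eq_intCast] at this
    rw [show aeval x f = 0 from hfx, zero_mul, sub_zero] at this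
    rw [mul_sub, mul_one, ← pow_add, Nat.add_sub_cancel' hne.le, this]
    simp
  have hu : (1 - x ^ (b - a)) ∉ A.nonunits := fun hmem => by
    have := nonunits_add hmem (show x ^ (b - a) ∈ A.nonunits by
      obtain ⟨k, hk⟩ := Nat.exists_eq_add_of_lt hne
      rw [show b - a = k + 1 by omega, pow_succ]
      exact nonunits_mul_left (pow_mem (mem_of_mem_nonunits hm) _) hm)
    simp at this
    exact one_notMem_nonunits this
  obtain ⟨hu0, huinv⟩ :=
    notMem_nonunits_iff.mp hu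
  refine ⟨a, ?_⟩
  have h2 : x ^ a * (l : QBar)⁻¹ = aeval x h * (1 - x ^ (b - a))⁻¹ := by
    have hl0 : (l : QBar) ≠ 0 := Nat.cast_ne_zero.mpr hl.ne_zero
    field_simp
    linear_combination h1
  rw [h2]
  refine mul_mem ?_ huinv
  rw [aeval_eq_sum_range]
  exact sum_mem fun i _ => by
    rw [zsmul_eq_mul]
    exact mul_mem (intCast_mem A _) (pow_mem (mem_of_mem_nonunits hm) _)

/-- If two ring maps into a domain agree on the coefficients of `∏ (T - Y q)`, then the image
of each root under one is the image of some root under the other. -/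
theorem exists_map_eq_map_of_prod {B K ι : Type} [CommRing B] [CommRing K] [IsDomain K]
    (r r' : B →+* K) (s : Finset ι) (Y : ι → B[X]) {q₁ : ι} (hq₁ : q₁ ∈ s)
    (h : ∀ i j, r' (((∏ q ∈ s, (X - C (Y q))).coeff i).coeff j) =
      r (((∏ q ∈ s, (X - C (Y q))).coeff i).coeff j)) :
    ∃ q ∈ s, (Y q₁).map r' = (Y q).map r := by
  have h1 : (∏ q ∈ s, (X - C (Y q))).map (mapRingHom r') =
      (∏ q ∈ s, (X - C (Y q))).map (mapRingHom r) :=
    Polynomial.ext fun i => Polynomial.ext fun j => by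
      simpa only [coeff_map, coe_mapRingHom] using h i j
  have h2 := congrArg (Polynomial.eval ((Y q₁).map r')) h1
  simp only [Polynomial.map_prod, eval_prod, Polynomial.map_sub, map_X, map_C, eval_sub, eval_X,
    eval_C, coe_mapRingHom] at h2
  rw [Finset.prod_eq_zero hq₁ (sub_self _), eq_comm, Finset.prod_eq_zero_iff] at h2
  obtain ⟨q, hq, hqe⟩ := h2
  exact ⟨q, hq, sub_eq_zero.mp hqe⟩

/-- An element outside an open subgroup containing inertia moves some fixed integer modulo `A`. -/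
theorem exists_separating_of_notMem (hA : A.LiesOverPrime l) (hl : l.Prime) {U : Subgroup GQ}
    (hU : IsOpen (U : Set GQ)) (hI : A.inertiaSubgroupIn ℚ ≤ U) {τ : GQ} (hτ : τ ∉ U) :
    ∃ θ : QBar, IsIntegral ℤ θ ∧ (∀ u ∈ U, u θ = θ) ∧ τ θ - θ ∉ A.nonunits := by
  classical
  by_contra! hcon
  have : Finite (GQ ⧸ U) := U.quotient_finite_of_isOpen hU
  have : U.FiniteIndex := Subgroup.finiteIndex_of_finite_quotient
  set H := U.normalCore
  have hHU : H ≤ U := U.normalCore_le
  have : Fintype (GQ ⧸ H) := Subgroup.fintypeQuotientOfFiniteIndex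
  -- some element of `U` agrees with `τ` modulo `A` on the integers fixed by `H`
  obtain ⟨u, hu, hτu⟩ : ∃ u ∈ U, ∀ x : QBar, IsIntegral ℤ x → (∀ h ∈ H, h x = x) →
      τ x - u x ∈ A.nonunits := by
    by_contra! hbad
    have hex : ∀ q : GQ ⧸ H, ∃ x : ZBar, (∀ h ∈ H, h • x = x) ∧
        (q.out ∈ U → τ (x : QBar) - q.out (x : QBar) ∉ A.nonunits) := by
      intro q
      by_cases hq : q.out ∈ U
      · obtain ⟨x, hx, hxf, hxn⟩ := hbad _ hq
        exact ⟨⟨x, hx⟩, fun h hh => Subtype.ext (hxf h hh), fun _ => hxn⟩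
      · exact ⟨0, fun h _ => smul_zero h, fun h => absurd h hq⟩
    choose x hxf hxn using hex
    let e := Fintype.equivFin (GQ ⧸ H)
    let Y : ZBar[X] := ∑ q, C (x q) * X ^ (e q : ℕ)
    have hY : ∀ q, Y.coeff (e q : ℕ) = x q := fun q => by
      simp [Y, finsetSum_coeff, coeff_X_pow, Fin.val_inj]
    have hYf : ∀ h ∈ H, h • Y = Y := fun h hh => by
      simp only [Y, Finset.smul_sum, smul_mul', smul_pow', smul_C, smul_X, hxf _ h hh]
    let s : Finset (GQ ⧸ H) := Finset.univ.filter fun q => q.out ∈ U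
    let Φ : (ZBar[X])[X] := ∏ q ∈ s, (X - C (q.out • Y))
    have hout : ∀ g : GQ, ∃ h ∈ H, (QuotientGroup.mk g : GQ ⧸ H).out = g * h := fun g => by
      obtain ⟨h, hh⟩ := QuotientGroup.mk_out_eq_mul H g
      exact ⟨h, h.2, hh⟩
    have houtY : ∀ g : GQ, (QuotientGroup.mk g : GQ ⧸ H).out • Y = g • Y := fun g => by
      obtain ⟨h, hh, he⟩ := hout g
      rw [he, mul_smul, hYf h hh]
    have hs : ∀ g : GQ, (QuotientGroup.mk g : GQ ⧸ H) ∈ s ↔ g ∈ U := fun g => by
      obtain ⟨h, hh, he⟩ := hout g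
      simp [s, he, Subgroup.mul_mem_cancel_right _ (hHU hh)]
    have hΦf : ∀ v ∈ U, v • Φ = Φ := by
      intro v hv
      simp only [Φ, Finset.smul_prod']
      refine Finset.prod_nbij' (fun q => v • q) (fun q => v⁻¹ • q) ?_ ?_
        (fun q _ => inv_smul_smul v q) (fun q _ => smul_inv_smul v q) ?_
      · intro q hq
        rw [← QuotientGroup.out_eq' q] at hq ⊢
        exact (hs _).mpr (mul_mem hv ((hs _).mp hq))
      · intro q hq
        rw [← QuotientGroup.out_eq' q] at hq ⊢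
        exact (hs _).mpr (mul_mem (inv_mem hv) ((hs _).mp hq))
      · intro q _
        conv_rhs => rw [← QuotientGroup.out_eq' q, MulAction.Quotient.smul_mk, houtY]
        refine (smul_sub v (X : (ZBar[X])[X]) _).trans ?_
        rw [Polynomial.smul_X, Polynomial.smul_C, smul_smul, smul_eq_mul]
    -- reduce modulo `A`, with and without `τ`
    let r : ZBar →+* ZBar ⧸ centre A := Ideal.Quotient.mk (centre A)
    let rτ : ZBar →+* ZBar ⧸ centre A := r.comp (MulSemiringAction.toRingHom GQ ZBar τ)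
    have hrr : ∀ y : ZBar, (∀ v ∈ U, v • y = y) → rτ y = r y := fun y hy => by
      show r (τ • y) = r y
      rw [Ideal.Quotient.eq, mem_centre]
      exact hcon _ y.2 fun v hv => congrArg Subtype.val (hy v hv)
    have hΦc : ∀ i j, rτ ((Φ.coeff i).coeff j) = r ((Φ.coeff i).coeff j) := fun i j => by
      refine hrr _ fun v hv => ?_
      conv_rhs => rw [← hΦf v hv]
      rw [Polynomial.coeff_smul, Polynomial.coeff_smul]
    obtain ⟨q, hq, hqe⟩ := exists_map_eq_map_of_prod r rτ s (fun q => q.out • Y)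
      ((hs 1).mpr U.one_mem) hΦc
    refine hxn q (Finset.mem_filter.mp hq).2 ?_
    have h1 := congrArg (fun p => Polynomial.coeff p (e q : ℕ)) hqe
    simp only [houtY, one_smul, coeff_map, Polynomial.coeff_smul, hY] at h1
    exact mem_centre A |>.mp ((Ideal.Quotient.eq).mp h1)
  have hHc : IsClosed (H : Set GQ) := by
    have : (H : Set GQ) = ⋂ b : GQ, (fun a => b * a * b⁻¹) ⁻¹' (U : Set GQ) := by
      ext a; simp only [Set.mem_iInter, Set.mem_preimage]; rfl
    rw [this]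
    exact isClosed_iInter fun b => (U.isClosed_of_isOpen hU).preimage (by fun_prop)
  obtain ⟨h, hh, hI'⟩ := exists_inertia_lift hA hl H hHc (τ * u⁻¹) fun x hx hxf => by
    have := hτu (u⁻¹ x) (hx.map (u⁻¹ : GQ).toAlgHom.toIntAlgHom) fun k hk => by
      have h1 := hxf _ (U.normalCore_normal.conj_mem k hk u)
      simp only [← AlgEquiv.smul_def, mul_smul] at h1 ⊢
      conv_rhs => rw [← h1]
      rw [inv_smul_smul]
    simpa [← AlgEquiv.smul_def, mul_smul] using this
  exact hτ (by simpa using mul_mem ((Subgroup.mul_mem_cancel_left U (hHU hh)).mp (hI hI')) hu)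

/-- An element outside `D · U` sends some fixed unit at `A` into the maximal ideal. -/
theorem exists_vanishing_of_notMem (hA : A.LiesOverPrime l) (hl : l.Prime) {U : Subgroup GQ}
    (hU : IsOpen (U : Set GQ)) {τ : GQ}
    (hτ : ¬ ∃ d : GQ, d • A = A ∧ (QuotientGroup.mk d : GQ ⧸ U) = QuotientGroup.mk τ) :
    ∃ θ : QBar, IsIntegral ℤ θ ∧ (∀ u ∈ U, u θ = θ) ∧ τ θ ∈ A.nonunits ∧ θ ∉ A.nonunits := by
  by_contra! hcon
  have : CompactSpace U := isCompact_iff_compactSpace.mp (U.isClosed_of_isOpen hU).isCompact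
  let R := FixedPoints.subalgebra ℤ ZBar U
  have : SMulCommClass U R ZBar := ⟨fun h r x => by
    show h • ((r : ZBar) * x) = (r : ZBar) * h • x
    rw [smul_mul', show h • (r : ZBar) = r from r.2 h]⟩
  have : Algebra.IsInvariant R ZBar U := ⟨fun x hx => ⟨⟨x, hx⟩, rfl⟩⟩
  have : Algebra.IsIntegral R ZBar := Algebra.IsInvariant.isIntegral_of_profinite (G := U)
  have hmax' : (centre (τ⁻¹ • A)).IsMaximal := centre_isMaximal (liesOverPrime_smul_iff.mpr hA) hl
  have hmax : ((centre (τ⁻¹ • A)).under R).IsMaximal :=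
    Ideal.isMaximal_comap_of_isIntegral_of_isMaximal _
  have heq : (centre (τ⁻¹ • A)).under R = (centre A).under R := by
    refine hmax.eq_of_le (Ideal.IsPrime.ne_top inferInstance) fun x hx => ?_
    show (x : ZBar) ∈ centre A
    rw [mem_centre]
    refine hcon _ (x : ZBar).2 (fun u hu => congrArg Subtype.val (x.2 ⟨u, hu⟩)) ?_
    have h1 : ((x : ZBar) : QBar) ∈ (τ⁻¹ • A).nonunits := (mem_centre _).mp hx
    have h2 := (smul_mem_nonunits_smul_iff (g := τ)).mpr h1
    rwa [smul_inv_smul] at h2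
  obtain ⟨u, hu⟩ := Algebra.IsInvariant.exists_smul_of_under_eq_of_profinite (A := R) (G := U)
    (centre (τ⁻¹ • A)) (centre A) heq
  refine hτ ⟨τ * (u : GQ)⁻¹, ?_, ?_⟩
  · have h1 : ((u : GQ) * τ⁻¹) • A = A := by
      refine (eq_of_centre_eq hA (liesOverPrime_smul_iff.mpr hA) hl ?_).symm
      rw [mul_smul, centre_smul]
      exact hu
    conv_lhs => arg 2; rw [← h1]
    rw [smul_smul]
    simp
  · rw [QuotientGroup.eq]
    simp

/-! ### The semilinear action and averages -/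

/-- The semilinear action on functions. -/
def galAct {M : Type} [MulAction GQ M] (σ : GQ) (f : M → QBar) : M → QBar :=
  fun m => σ (f (σ⁻¹ • m))

theorem galAct_mul {M : Type} [MulAction GQ M] (σ τ : GQ) (f : M → QBar) :
    galAct (σ * τ) f = galAct σ (galAct τ f) := by
  funext m
  simp [galAct, mul_smul, mul_inv_rev]

theorem valuationSubring_smul_def (a : A) (x : QBar) : a • x = (a : QBar) * x := rfl

/-- The complement of the maximal ideal in `A` is closed under products. -/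
theorem mul_notMem_nonunits {x y : QBar} (hx : x ∈ A) (hy : y ∈ A) (hxn : x ∉ A.nonunits)
    (hyn : y ∉ A.nonunits) : x * y ∈ A ∧ x * y ∉ A.nonunits :=
  ⟨mul_mem hx hy, fun h => by
    obtain ⟨h0, hinv⟩ := notMem_nonunits_iff.mp hyn
    have := nonunits_mul_right h hinv
    rw [mul_inv_cancel_right₀ h0] at this
    exact hxn this⟩

/-- For `θ` and `f` fixed by `U` the function `g θ • g f` only depends on the coset of `g`. -/
theorem smul_galAct_out {M : Type} [MulAction GQ M] {U : Subgroup GQ} {f : M → QBar}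
    (hfix : ∀ u ∈ U, galAct u f = f) {θ : QBar} (hθ : ∀ u ∈ U, u θ = θ) (g : GQ) :
    (QuotientGroup.mk g : GQ ⧸ U).out θ • galAct (QuotientGroup.mk g : GQ ⧸ U).out f =
      g θ • galAct g f := by
  obtain ⟨u, hu⟩ := QuotientGroup.mk_out_eq_mul U g
  simp only [hu, galAct_mul, hfix _ u.2, AlgEquiv.mul_apply, hθ _ u.2]

/-- The sum of `g θ • g f` over the cosets of `U` is equivariant. -/
theorem sum_smul_galAct_equivariant {M : Type} [MulAction GQ M] {U : Subgroup GQ}
    [Fintype (GQ ⧸ U)] {f : M → QBar} (hfix : ∀ u ∈ U, galAct u f = f) {θ : QBar}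
    (hθ : ∀ u ∈ U, u θ = θ) (σ : GQ) (m : M) :
    (∑ c : GQ ⧸ U, c.out θ • galAct c.out f) (σ • m) =
      σ ((∑ c : GQ ⧸ U, c.out θ • galAct c.out f) m) := by
  simp only [Finset.sum_apply, map_sum]
  refine (Fintype.sum_equiv (MulAction.toPerm σ) _ _ fun c => ?_).symm
  rw [MulAction.toPerm_apply]
  conv_rhs => rw [← QuotientGroup.out_eq' c, MulAction.Quotient.smul_mk,
    smul_galAct_out hfix hθ, smul_eq_mul]
  simp [galAct, mul_smul]

/-- A product of units at `A` is a unit at `A`. -/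
private theorem prod_mem_and_notMem_nonunits {ι : Type*} (s : Finset ι) {x : ι → QBar}
    (h : ∀ i ∈ s, x i ∈ A ∧ x i ∉ A.nonunits) :
    (∏ i ∈ s, x i) ∈ A ∧ (∏ i ∈ s, x i) ∉ A.nonunits :=
  Finset.prod_induction x (fun y => y ∈ A ∧ y ∉ A.nonunits)
    (fun _ _ hy hz => mul_notMem_nonunits hy.1 hz.1 hy.2 hz.2)
    ⟨A.one_mem, one_notMem_nonunits⟩ h

/-- At `g` outside `D · U` some fixed unit at `A`, and all its integral multiples, carry `g f` into
the lattice. -/
private theorem exists_unit_smul_galAct_mem {M : Type} [MulAction GQ M] (hA : A.LiesOverPrime l)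
    (hl : l.Prime) (R : Submodule A (M → QBar)) (hfull : ∀ f, ∃ s : ℕ, (l : QBar) ^ s • f ∈ R)
    (f : M → QBar) {U : Subgroup GQ} (hU : IsOpen (U : Set GQ)) {g : GQ}
    (hg : ¬ ∃ d : GQ, d • A = A ∧ (QuotientGroup.mk d : GQ ⧸ U) = QuotientGroup.mk g) :
    ∃ θ : QBar, IsIntegral ℤ θ ∧ (∀ u ∈ U, u θ = θ) ∧ θ ∉ A.nonunits ∧
      ∀ θ', IsIntegral ℤ θ' → g (θ * θ') • galAct g f ∈ R := by
  obtain ⟨θ, hθi, hθf, hθc, hθ1⟩ := exists_vanishing_of_notMem hA hl hU hg
  obtain ⟨s, hs⟩ := hfull (galAct g f)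
  obtain ⟨N, hN⟩ := exists_pow_mul_mem hA hl (hθi.map g.toAlgHom.toIntAlgHom) hθc
    ((l : QBar) ^ s)⁻¹
  refine ⟨θ ^ N, hθi.pow N, fun u hu => by rw [map_pow, hθf u hu], ?_, fun θ' hθ' => ?_⟩
  · rw [← Finset.card_range N, ← Finset.prod_const]
    exact (prod_mem_and_notMem_nonunits _ fun _ _ => ⟨mem_of_isIntegral A hθi, hθ1⟩).2
  · have ha : (g θ ^ N * ((l : QBar) ^ s)⁻¹) * g θ' ∈ A :=
      mul_mem hN (mem_of_isIntegral A (hθ'.map g.toAlgHom.toIntAlgHom))
    have h : g (θ ^ N * θ') • galAct g f = (⟨_, ha⟩ : A) • (l : QBar) ^ s • galAct g f := by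
      have hl0 : ((l : QBar) ^ s) ≠ 0 := pow_ne_zero _ (Nat.cast_ne_zero.mpr hl.ne_zero)
      funext m
      simp only [Pi.smul_apply, valuationSubring_smul_def, smul_eq_mul, map_mul, map_pow]
      field_simp
    exact h ▸ R.smul_mem ⟨_, ha⟩ hs

/-- Some fixed unit at `A` carries every sum of `g θ • g f` over the cosets of `U` into the
lattice. -/
private theorem exists_unit_sum_galAct_mem {M : Type} [MulAction GQ M] (hA : A.LiesOverPrime l)
    (hl : l.Prime) (R : Submodule A (M → QBar)) (hfull : ∀ f, ∃ s : ℕ, (l : QBar) ^ s • f ∈ R)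
    (hD : ∀ d : GQ, d • A = A → ∀ f ∈ R, galAct d f ∈ R) {f : M → QBar} (hf : f ∈ R)
    {U : Subgroup GQ} [Fintype (GQ ⧸ U)] (hU : IsOpen (U : Set GQ))
    (hfix : ∀ u ∈ U, galAct u f = f) :
    ∃ θ₀ : QBar, IsIntegral ℤ θ₀ ∧ (∀ u ∈ U, u θ₀ = θ₀) ∧ θ₀ ∉ A.nonunits ∧
      ∀ θ, IsIntegral ℤ θ → (∀ u ∈ U, u θ = θ) →
        ∑ c : GQ ⧸ U, c.out (θ₀ * θ) • galAct c.out f ∈ R := by
  classical
  let out : Finset (GQ ⧸ U) := Finset.univ.filter fun c =>
    ¬ ∃ d : GQ, d • A = A ∧ (QuotientGroup.mk d : GQ ⧸ U) = QuotientGroup.mk c.out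
  choose! θv hvi hvf hv1 hvR using fun c (hc : c ∈ out) =>
    exists_unit_smul_galAct_mem hA hl R hfull f hU (Finset.mem_filter.mp hc).2
  have hi : IsIntegral ℤ (∏ c ∈ out, θv c) := IsIntegral.prod _ hvi
  have hu : ∀ u ∈ U, u (∏ c ∈ out, θv c) = ∏ c ∈ out, θv c := fun u hu => by
    rw [map_prod]
    exact Finset.prod_congr rfl fun c hc => hvf c hc u hu
  refine ⟨_, hi, hu, (prod_mem_and_notMem_nonunits _ fun c hc =>
    ⟨mem_of_isIntegral A (hvi c hc), hv1 c hc⟩).2, fun θ hθi hθf => sum_mem fun c _ => ?_⟩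
  by_cases hc : c ∈ out
  · rw [← Finset.mul_prod_erase _ _ hc, mul_assoc]
    exact hvR c hc _ ((IsIntegral.prod _ fun d hd => hvi d (Finset.mem_of_mem_erase hd)).mul hθi)
  · simp only [out, Finset.mem_filter, Finset.mem_univ, true_and, not_not] at hc
    obtain ⟨d, hd, hdc⟩ := hc
    rw [← QuotientGroup.out_eq' c, ← hdc,
      smul_galAct_out hfix fun u hu' => by rw [map_mul, hu u hu', hθf u hu']]
    exact R.smul_mem ⟨_, mem_of_isIntegral A ((hi.mul hθi).map d.toAlgHom.toIntAlgHom)⟩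
      (hD d hd f hf)

/-- Expanding `∏ c (g (θs c) - c (θs c))` over the nontrivial cosets kills every coset `g` but
the trivial one. -/
private theorem sum_prod_smul_galAct {M : Type} [MulAction GQ M] {U : Subgroup GQ}
    [Fintype (GQ ⧸ U)] [DecidableEq (GQ ⧸ U)] {f : M → QBar} (hfix : ∀ u ∈ U, galAct u f = f)
    {θ₀ : QBar} (hθ₀ : ∀ u ∈ U, u θ₀ = θ₀) (θs : GQ ⧸ U → QBar)
    (hθs : ∀ c ∈ Finset.univ.erase (QuotientGroup.mk 1), ∀ u ∈ U, u (θs c) = θs c) :
    ∑ T ∈ (Finset.univ.erase (QuotientGroup.mk 1 : GQ ⧸ U)).powerset,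
      (∏ c ∈ Finset.univ.erase (QuotientGroup.mk 1) \ T, -(c.out (θs c))) •
        ∑ c : GQ ⧸ U, c.out (θ₀ * ∏ d ∈ T, θs d) • galAct c.out f =
      (θ₀ * ∏ c ∈ Finset.univ.erase (QuotientGroup.mk 1), (θs c - c.out (θs c))) • f := by
  set S := Finset.univ.erase (QuotientGroup.mk 1 : GQ ⧸ U)
  simp only [Finset.smul_sum, smul_smul, map_mul, map_prod]
  rw [Finset.sum_comm]
  have hc : ∀ c : GQ ⧸ U, ∑ T ∈ S.powerset,
      ((∏ d ∈ S \ T, -(d.out (θs d))) * (c.out θ₀ * ∏ d ∈ T, c.out (θs d))) • galAct c.out f =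
      (c.out θ₀ * ∏ d ∈ S, (c.out (θs d) - d.out (θs d))) • galAct c.out f := by
    intro c
    rw [← Finset.sum_smul]
    congr 1
    simp only [sub_eq_add_neg, Finset.prod_add, Finset.mul_sum]
    exact Finset.sum_congr rfl fun T _ => by ring
  rw [Finset.sum_congr rfl fun c _ => hc c,
    Finset.sum_eq_single_of_mem (QuotientGroup.mk 1) (Finset.mem_univ _) fun c _ hc1 => by
      rw [Finset.prod_eq_zero (i := c) (Finset.mem_erase.mpr ⟨hc1, Finset.mem_univ c⟩)
        (sub_self _), mul_zero, zero_smul]]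
  obtain ⟨u, hu⟩ := QuotientGroup.mk_out_eq_mul U 1
  rw [one_mul] at hu
  rw [hu, hfix _ u.2, hθ₀ _ u.2]
  exact congrArg (fun x => (θ₀ * x) • f)
    (Finset.prod_congr rfl fun c hc => by rw [hθs c hc _ u.2])

/-! ### The descent -/

/-- An element of a stable full lattice fixed by an open subgroup containing inertia lies in the
span of the equivariant elements of the lattice. -/
theorem mem_span_equivariant {M : Type} [MulAction GQ M] (hA : A.LiesOverPrime l) (hl : l.Prime)
    (R : Submodule A (M → QBar)) (hfull : ∀ f, ∃ s : ℕ, (l : QBar) ^ s • f ∈ R)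
    (hD : ∀ d : GQ, d • A = A → ∀ f ∈ R, galAct d f ∈ R)
    {f : M → QBar} (hf : f ∈ R) {U : Subgroup GQ} (hU : IsOpen (U : Set GQ))
    (hI : A.inertiaSubgroupIn ℚ ≤ U) (hfix : ∀ u ∈ U, galAct u f = f) :
    f ∈ Submodule.span A {g | g ∈ R ∧ ∀ (σ : GQ) m, g (σ • m) = σ (g m)} := by
  classical
  have : Finite (GQ ⧸ U) := U.quotient_finite_of_isOpen hU
  have := Fintype.ofFinite (GQ ⧸ U)
  obtain ⟨θ₀, h0i, h0f, h0n, h0R⟩ := exists_unit_sum_galAct_mem hA hl R hfull hD hf hU hfix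
  -- the separating elements at the nontrivial cosets
  let S : Finset (GQ ⧸ U) := Finset.univ.erase (QuotientGroup.mk 1)
  have hsep : ∀ c ∈ S, ∃ θ : QBar,
      IsIntegral ℤ θ ∧ (∀ u ∈ U, u θ = θ) ∧ c.out θ - θ ∉ A.nonunits := by
    intro c hc
    refine exists_separating_of_notMem hA hl hU hI fun hmem => (Finset.mem_erase.mp hc).1 ?_
    rw [← QuotientGroup.out_eq' c, QuotientGroup.eq]
    simpa using inv_mem hmem
  choose! θs hsi hsf hsn using hsep
  have hci : ∀ c ∈ S, c.out (θs c) ∈ A := fun c hc =>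
    mem_of_isIntegral A ((hsi c hc).map c.out.toAlgHom.toIntAlgHom)
  obtain ⟨hpA, hpn⟩ := prod_mem_and_notMem_nonunits S (x := fun c => θs c - c.out (θs c))
    fun c hc => ⟨sub_mem (mem_of_isIntegral A (hsi c hc)) (hci c hc),
      fun h => hsn c hc (by simpa using nonunits_neg h)⟩
  obtain ⟨hA₀, hn₀⟩ := mul_notMem_nonunits (mem_of_isIntegral A h0i) hpA h0n hpn
  obtain ⟨hne, hinv⟩ := notMem_nonunits_iff.mp hn₀
  -- `f` is the expanded product divided by a unit
  rw [show f = (θ₀ * ∏ c ∈ S, (θs c - c.out (θs c)))⁻¹ •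
      (θ₀ * ∏ c ∈ S, (θs c - c.out (θs c))) • f from (inv_smul_smul₀ hne f).symm,
    ← sum_prod_smul_galAct hfix h0f θs hsf]
  refine Submodule.smul_mem _ (⟨_, hinv⟩ : A) (sum_mem fun T hT => Submodule.smul_mem _
    (⟨_, prod_mem fun c hc => neg_mem (hci c (Finset.mem_sdiff.mp hc).1)⟩ : A) ?_)
  have hTi : IsIntegral ℤ (∏ c ∈ T, θs c) :=
    IsIntegral.prod _ fun c hc => hsi c (Finset.mem_powerset.mp hT hc)
  have hTf : ∀ u ∈ U, u (∏ c ∈ T, θs c) = ∏ c ∈ T, θs c := fun u hu => by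
    rw [map_prod]
    exact Finset.prod_congr rfl fun c hc => hsf c (Finset.mem_powerset.mp hT hc) u hu
  exact Submodule.subset_span ⟨h0R _ hTi hTf, sum_smul_galAct_equivariant hfix
    fun u hu => by rw [map_mul, h0f u hu, hTf u hu]⟩

end Fermat.Agent.FiniteFlat
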