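import Fermat.Agent.FiniteFlat.Fixed
import Fermat.Agent.FiniteFlat.Coords
import Fermat.Agent.GaloisReps.HeckeGalois
import Fermat.Agent.CurveTorsion.Classes

/-!
# The Galois action on reductions of divisors

Reduction of divisors intertwines a decomposition element with the automorphism of the reduced
field it induces; divisors of degree the genus have open stabilisers; generic effective divisors
have lifts whose conjugates are fixed by inertia.
-/

set_option autoImplicit false

noncomputable section

open IsLocalRing ModularCurve AlgebraicCurve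
open Fermat.Agent.Arith Fermat.Agent.FF Fermat.Agent.RedTorsion Fermat.Agent.EichlerShimura
open scoped Pointwise

namespace Fermat.Agent.FiniteFlat

-- elaboration speed only: these candidates make instance search on the reduced field very slow
attribute [-instance] IsLocalRing.ResidueField.algebraOfIsIntegral RingHom.Finite.instFinite
  IsScalarTower.of_algHom
  SetLike.GradeZero.instSemiring SetLike.GradeZero.instCommSemiring SetLike.GradeZero.instCommRing
  SetLike.GradeZero.instRing SetLike.GradeZero.instMonoid
  SetLike.GradeZero.instAlgebraSubtypeMemOfNat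
attribute [local instance 10000] SubalgebraClass.toAlgebra IntermediateField.instSMulMemClass

section Semilinear

variable {K E : Type*} [Field K] [Field E] [Algebra K E]

theorem divisor_smul_nonneg (g : SemilinearAut K E) {D : Divisor K E} (hD : 0 ≤ D) :
    0 ≤ g • D := Finsupp.le_def.mpr fun w => by
  rw [SemilinearAut.divisor_smul_apply]
  exact Finsupp.le_def.mp hD _

variable {K' E' : Type*} [Field K'] [Field E'] [Algebra K' E']

/-- The failure of a homomorphism of divisors to commute with given automorphisms. -/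
private def commDefect (r : Divisor K E →+ Divisor K' E') (σ : SemilinearAut K E)
    (g : SemilinearAut K' E') : Divisor K E →+ Divisor K' E' :=
  r.comp (DistribSMul.toAddMonoidHom (Divisor K E) σ) -
    (DistribSMul.toAddMonoidHom (Divisor K' E') g).comp r

private theorem commDefect_apply (r : Divisor K E →+ Divisor K' E') (σ : SemilinearAut K E)
    (g : SemilinearAut K' E') (D : Divisor K E) :
    commDefect r σ g D = r (σ • D) - g • r D := rfl

private theorem commDefect_div [IsFunctionField K E] [IsFunctionField K' E']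
    {r : Divisor K E →+ Divisor K' E'} {σ : SemilinearAut K E} {g : SemilinearAut K' E'}
    {f : E} {f' : E'} (h1 : r (div K f) = div K' f')
    (h2 : r (div K (σ • f)) = div K' (g • f')) : commDefect r σ g (div K f) = 0 := by
  rw [commDefect_apply, EichlerShimura.smul_div, h1, h2, EichlerShimura.smul_div, sub_self]

private theorem commDefect_of_fixed {r : Divisor K E →+ Divisor K' E'} {σ : SemilinearAut K E}
    {g : SemilinearAut K' E'} {D : Divisor K E} (hσ : σ • D = D) (hg : g • r D = r D) :
    commDefect r σ g D = 0 := by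
  rw [commDefect_apply, hσ, hg, sub_self]

end Semilinear

section Translate

variable {A : ValuationSubring QBar} {F : Type*} [Field F] [Algebra QBar F] {Fk : Type*}
  [Field Fk] [Algebra (ResidueField A) Fk] [IsFunctionField QBar F]
  [IsFunctionField (ResidueField A) Fk]

/-- Translated reduced classes of conjugate divisors. -/
private theorem ell_redDiv_add_smul (h : GoodRed A F Fk) (g : SemilinearAut (ResidueField A) Fk)
    (σ : SemilinearAut QBar F) {C C' T : Divisor QBar F} {f : F} (hf : f ≠ 0)
    (hC : σ • C' = C + div QBar f) (heq : ∀ D, redDiv h (σ • D) = g • redDiv h D) :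
    ell (ResidueField A) (redDiv h (C + σ • T)) =
      ell (ResidueField A) (redDiv h C' + redDiv h T) := by
  have e : C + σ • T = σ • (C' + T) - div QBar f := by rw [smul_add, hC]; abel
  obtain ⟨c, u, hc, hu, hfu⟩ := exists_primitive h.toRedLattice hf
  have hu0 : (u : F) ≠ 0 := fun e => hu (by rw [show u = 0 from Subtype.ext e, map_zero])
  rw [e, map_sub, heq, hfu, FiniteFlat.div_smul hc hu0, redDiv_div h u hu, sub_eq_add_neg,
    ← FF.div_inv, ell_add_div (inv_ne_zero hu), CurveTorsion.ell_smul, map_add]

end Translate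

private theorem smul_smul_eq_of_conj {M X : Type*} [Group M] [MulAction M X] {a b : M} {x : X}
    (h : (b⁻¹ * a * b) • x = x) : a • b • x = b • x := by
  rwa [mul_smul, mul_smul, inv_smul_eq_iff] at h

variable {A : ValuationSubring QBar} {l : ℕ} {N : ℕ} [NeZero N]

local notation "Fb" => modularFunctionFieldBar N
local notation "Fk" => modularFunctionFieldFullC (ResidueField A) N

/-- The automorphism of the residue field induced by a decomposition element. -/
def resAut {σ : GQ} (h : σ • A = A) : ResidueField A ≃+* ResidueField A :=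
  MulSemiringAction.toRingEquiv _ _ (⟨σ, mem_decomposition_iff.mpr h⟩ : A.decompositionSubgroup ℚ)

theorem resAut_residue {σ : GQ} (h : σ • A = A) (x : A) :
    resAut h (residue A x) = residue A ⟨σ x, map_mem_of_mem_decomposition h x.2⟩ :=
  residue_smul (mem_decomposition_iff.mpr h) x

theorem inertia_conj_mem {σ d : GQ} (hd : d • A = A) (hσ : σ ∈ A.inertiaSubgroupIn ℚ) :
    d⁻¹ * σ * d ∈ A.inertiaSubgroupIn ℚ := by
  have h1 := (mem_inertia_smul_iff (g := d⁻¹) (σ := σ) (A := A)).mpr hσ
  rwa [inv_inv, show d⁻¹ • A = A from inv_smul_eq_iff.mpr hd.symm] at h1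

omit [NeZero N] in
theorem galF_one : galF N 1 = 1 := map_one _

omit [NeZero N] in
theorem galF_mul (σ τ : GQ) : galF N (σ * τ) = galF N σ * galF N τ := map_mul _ _ _

omit [NeZero N] in
theorem galF_inv (σ : GQ) : galF N σ⁻¹ = (galF N σ)⁻¹ := map_inv _ _

section Level

variable [IsFunctionField QBar (modularFunctionFieldBar N)]
  [IsFunctionField (ResidueField A) (modularFunctionFieldFullC (ResidueField A) N)]
  (hA : A.LiesOverPrime l) (hl : l.Prime) (hNA : (N : ResidueField A) ≠ 0)

/-- Reduction of divisors is equivariant under the decomposition group. -/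
theorem redDiv_galF_decomposition {σ : GQ} (hd : σ • A = A) (D : Divisor QBar Fb) :
    redDiv (goodRed (A := A) (N := N) hNA) (galF N σ • D) =
      coeffAut N (resAut hd) • redDiv (goodRed (A := A) (N := N) hNA) D := by
  have : IsAlgClosed (ResidueField A) := residueField_isAlgClosed A
  let g := coeffAut N (resAut hd)
  let σA : A →+* A :=
    (((σ : QBar →+* QBar).comp A.subtype).codRestrict A.toSubring
      fun a => Arith.map_mem_of_mem_decomposition hd a.2)
  let δ : Divisor QBar Fb →+ Divisor (ResidueField A) Fk :=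
    commDefect (redDiv (goodRed (A := A) (N := N) hNA)) (galF N σ) g
  have hδ : ∀ E ∈ integralPrincipalDivisors A (residue A) N, δ E = 0 := by
    intro E hE
    obtain ⟨y, hy, hyk, hne, rfl⟩ := EichlerShimura.exists_eq_div hE
    have hne' : (⟨_, hyk⟩ : Fk) ≠ 0 := fun h => hne (congrArg Subtype.val h)
    refine commDefect_div
      (redDiv_div_series hNA (y := y) (f := (⟨_, hy⟩ : Fb)) (g := (⟨_, hyk⟩ : Fk)) rfl rfl hne')
      (redDiv_div_series hNA (y := coeffMap σA y) (g := g • (⟨_, hyk⟩ : Fk))
        (coeffMap_galF (σA := σA) σ (fun a => rfl) (f := (⟨_, hy⟩ : Fb)) rfl) ?_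
        ((smul_ne_zero_iff_ne g).mpr hne'))
    rw [coe_coeffAut_smul, coeffMap_coeffMap, coeffMap_coeffMap]
    exact coeffMap_congr (RingHom.ext fun a => (resAut_residue hd a).symm) y
  have hj : g • jF (K := ResidueField A) (N := N) (F := Fk) rfl =
      jF (K := ResidueField A) (N := N) (F := Fk) rfl :=
    Subtype.ext (by rw [coe_coeffAut_smul, coe_jF, coeffMap_jqModC])
  have h2 : δ (poleDiv N) = 0 :=
    commDefect_of_fixed (galF_smul_poleDiv σ)
      ((redDiv_poleDiv hNA).symm ▸ smul_poles_of_fixed g hj)
  exact sub_eq_zero.mp (eq_zero_of_degZero_of_one δ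
    (fun E hE => eq_zero_of_degree_zero hNA δ hδ E hE) h2 one_le_degree_poleDiv D)

include hA hl in
/-- An ambient space spanned by functions with rational expansions. -/
theorem exists_ambient : ∃ Φ : Ambient (goodRed (A := A) (N := N) hNA),
    (∀ σ : GQ, galF N σ • Φ.E = Φ.E) ∧ (∀ (σ : GQ) i, galF N σ • (Φ.fb i : Fb) = Φ.fb i) := by
  classical
  let h := goodRed (A := A) (N := N) hNA
  have hd1 := one_le_degree_poleDiv (N := N)
  have hb : 0 ≤ bigDeg h := by have := three_le_bigDeg h; have := one_le_rrBound h; omega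
  set m : ℤ := bigDeg h + 4 * genusFF QBar Fb with hm
  have hE : 0 ≤ m • poleDiv N := Finsupp.le_def.mpr fun v => by
    rw [Finsupp.smul_apply, smul_eq_mul]
    exact mul_nonneg (by omega) (Finsupp.le_def.mp (poles_nonneg _) v)
  have hdeg : m ≤ Divisor.degree (m • poleDiv N) := by
    rw [map_zsmul, smul_eq_mul]
    exact le_mul_of_one_le_right (by omega) hd1
  obtain ⟨n, fb, hfbW, hfix, hspan⟩ := exists_rat_basis hA hl hNA m
  rw [redW_riemannRochSpace h (by omega)] at hspan
  let W : Submodule (ResidueField A) Fk := riemannRochSpace (redDiv h (m • poleDiv N))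
  have hmem : ∀ b, redF h.toRedLattice (fb b) ∈ W := fun b =>
    redW_le_redDiv _ (redF_mem_redW h.toRedLattice (fb b) (hfbW b))
  obtain ⟨t, ht, htspan, htind⟩ := exists_linearIndependent (ResidueField A)
    (Set.range fun b => redF h.toRedLattice (fb b))
  have : Finite t := ((Set.finite_range _).subset ht).to_subtype
  have := Fintype.ofFinite t
  let e := (Fintype.equivFin t).symm
  choose ib hib using fun a : t => ht a.2
  have hr : (fun a => redF h.toRedLattice (fb (ib (e a)))) = fun a => (e a : Fk) :=
    funext fun a => hib (e a)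
  refine ⟨⟨m • poleDiv N, hE, by omega, _, fun a => fb (ib (e a)), fun a => hfbW _, ?_, ?_⟩,
    fun σ => galF_smul_mul_poleDiv σ m, fun σ a => hfix σ _⟩
  · rw [hr]
    exact htind.comp e e.injective
  · rw [hr, show Set.range (fun a => ((e a : t) : Fk)) = t from by
      rw [show (fun a => ((e a : t) : Fk)) = Subtype.val ∘ e from rfl,
        e.surjective.range_comp, Subtype.range_coe], htspan]
    refine le_antisymm (Submodule.span_le.mpr ?_) hspan
    rintro _ ⟨b, rfl⟩
    exact hmem b

variable {hNA} (Φ : Ambient (goodRed (A := A) (N := N) hNA))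
  (hΦE : ∀ σ : GQ, galF N σ • Φ.E = Φ.E)

theorem small_galF {D : Divisor QBar Fb} (hD : Φ.Small D) (σ : GQ) :
    Φ.Small (galF N σ • D) :=
  ⟨divisor_smul_nonneg _ hD.1, by rw [SemilinearAut.degree_smul]; exact hD.2⟩

include hΦE in
/-- Divisors of degree the genus have open stabilisers. -/
theorem isOpen_stabilizer {D : Divisor QBar Fb} (hD : Φ.Small D) :
    ∃ L : IntermediateField ℚ QBar, FiniteDimensional ℚ L ∧
      ∀ σ ∈ L.fixingSubgroup, galF N σ • D = D := by
  classical
  have := FF.finiteDimensional_riemannRochSpace (K := QBar) (Φ.E - D)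
  have : Module.Free QBar (riemannRochSpace (Φ.E - D)) := Module.Free.of_divisionRing _ _
  let b := Module.finBasis QBar (riemannRochSpace (Φ.E - D))
  choose L hL hfix using fun i => GaloisReps.exists_fixing_element (modularFunctionFieldFull N)
    ((b i : riemannRochSpace (Φ.E - D)) : Fb).2
  have := hL
  refine ⟨⨆ i, L i, IntermediateField.finiteDimensional_iSup_of_finite, fun σ hσ => ?_⟩
  have hfixb : ∀ i, galF N σ • ((b i : riemannRochSpace (Φ.E - D)) : Fb) = (b i : Fb) :=
    fun i => Subtype.ext (hfix i σ fun z hz =>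
      (IntermediateField.mem_fixingSubgroup_iff _ σ).mp hσ z (le_iSup L i hz))
  have hle : riemannRochSpace (Φ.E - D) ≤ riemannRochSpace (Φ.E - galF N σ • D) := by
    intro f hf
    have hs := congrArg Subtype.val (b.sum_repr ⟨f, hf⟩)
    simp only [AddSubmonoidClass.coe_finsetSum, SetLike.val_smul] at hs
    rw [← hs]
    refine sum_mem fun i _ => Submodule.smul_mem _ _ ?_
    have h1 := smul_mem_riemannRochSpace (galF N σ) (b i).2
    rwa [hfixb, smul_sub, hΦE] at h1
  have hbd := three_le_bigDeg (goodRed (A := A) (N := N) hNA)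
  have hrr := one_le_rrBound (goodRed (A := A) (N := N) hNA)
  have hbig := Φ.big
  have h1 : Φ.E - D ≤ Φ.E - galF N σ • D :=
    le_of_riemannRochSpace_le (fun _ => ell_eq_of_rrBound_le (goodRed (A := A) (N := N) hNA))
      (by rw [map_sub, hD.2]; omega) hle
  exact eq_of_le_of_degree_le ((sub_le_sub_iff_left _).mp h1)
    (by rw [SemilinearAut.degree_smul])

include hΦE hA hl in
/-- Base divisors: a finite stable set of divisors fixed by inertia with non-special classes. -/
theorem exists_bases {ι : Type*} [Finite ι] (C : ι → Divisor QBar Fb)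
    (hC : ∀ i, Divisor.degree (C i) = 0)
    (hperm : ∀ d : GQ, d • A = A → ∀ i, ∃ i' f, f ≠ 0 ∧
      galF N d • C i' = C i + div QBar (f : Fb) ) :
    ∃ Ts : Set (Divisor QBar Fb), Ts.Finite ∧ Ts.Nonempty ∧
      (∀ T ∈ Ts, Φ.Small T ∧ (∀ σ ∈ A.inertiaSubgroupIn ℚ, galF N σ • T = T) ∧
        ∀ i, ell (ResidueField A) (redDiv (goodRed (A := A) (N := N) hNA) (C i + T)) = 1) ∧
      ∀ d : GQ, d • A = A → ∀ T ∈ Ts, galF N d • T ∈ Ts := by
  classical
  let h := goodRed (A := A) (N := N) hNA
  -- A reduced generic divisor away from the cusps, lifted to places fixed by inertia.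
  obtain ⟨Bb, hB0, hBd, hBS, hBl⟩ := exists_generic (fun i => redDiv h (C i))
    (fun i => by rw [degree_redDiv, hC i])
    (S := ((redDiv h (poleDiv N)).support : Set (Place (ResidueField A) Fk)))
      (Finset.finite_toSet _)
  choose lift hlift hliftI using fun v : {v // v ∈ Bb.support} =>
    exists_fixed_place hA hl hNA (Q := v.1)
      (by
        by_contra hne
        exact hBS v.1 (Finsupp.mem_support_iff.mp v.2)
          (Finset.mem_coe.mpr (Finsupp.mem_support_iff.mpr hne)))
  set T₀ : Divisor QBar Fb := ∑ v : {v // v ∈ Bb.support}, Finsupp.single (lift v) (Bb v.1) with hT₀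
  have hT0 : 0 ≤ T₀ := Finset.sum_nonneg fun v _ => Finsupp.le_def.mpr fun w => by
    rcases eq_or_ne w (lift v) with rfl | hw
    · simpa using Finsupp.le_def.mp hB0 v.1
    · simp [hw]
  -- It is small and reduces to the generic divisor.
  have hred : redDiv h T₀ = Bb := by
    rw [hT₀, map_sum]
    refine Eq.trans (Finset.sum_congr rfl fun v _ => by rw [redDiv_single, hlift v]) ?_
    rw [Finset.univ_eq_attach, Finset.sum_attach _ fun v => Finsupp.single v (Bb v)]
    exact Finsupp.sum_single Bb
  have hsm : Φ.Small T₀ := ⟨hT0, by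
    rw [← degree_redDiv h, hred, hBd, genusFF_eq_of_goodRed h]⟩
  -- Its orbit under the decomposition group is finite; conjugation permutes the classes.
  obtain ⟨L, hL, hfix⟩ := isOpen_stabilizer Φ hΦE hsm
  have := hL
  have : Finite (GQ ⧸ L.fixingSubgroup) :=
    L.fixingSubgroup.quotient_finite_of_isOpen (IntermediateField.fixingSubgroup_isOpen L)
  refine ⟨{T | ∃ d : GQ, d • A = A ∧ galF N d • T₀ = T}, ?_, ⟨T₀, 1, one_smul _ _, by
    rw [galF_one, one_smul]⟩, ?_, ?_⟩
  · refine ((Set.finite_range fun q : GQ ⧸ L.fixingSubgroup => galF N q.out • T₀)).subset ?_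
    rintro T ⟨d, -, rfl⟩
    refine ⟨QuotientGroup.mk d, ?_⟩
    obtain ⟨u, hu⟩ := QuotientGroup.mk_out_eq_mul L.fixingSubgroup d
    simp only [hu, galF_mul, mul_smul, hfix _ u.2]
  · rintro T ⟨d, hd, rfl⟩
    refine ⟨small_galF Φ hsm d, fun σ hσ => ?_, fun i => ?_⟩
    · have h2 : galF N (d⁻¹ * σ * d) • T₀ = T₀ := by
        rw [hT₀, Finset.smul_sum]
        refine Finset.sum_congr rfl fun v _ => ?_
        rw [SemilinearAut.smul_single, hliftI v _ (inertia_conj_mem hd hσ)]
      refine smul_smul_eq_of_conj ?_
      rw [← galF_inv, ← galF_mul, ← galF_mul]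
      exact h2
    · obtain ⟨i', f, hf, hi'⟩ := hperm d hd i
      rw [ell_redDiv_add_smul h _ _ hf hi' (redDiv_galF_decomposition hNA hd), hred]
      exact hBl i'
  · rintro d hd T ⟨d', hd', rfl⟩
    exact ⟨d * d', by rw [mul_smul, hd', hd], by rw [galF_mul, mul_smul]⟩

end Level

end Fermat.Agent.FiniteFlat
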