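import Fermat.Agent.FiniteFlat.Calculus

/-!
# The group operation on regular families

If `L(E - X)`, `L(E - Y)`, `L(E - T)` are regular and the reduced class `X̄ + Ȳ - T̄` contains a
unique effective divisor, the family of effective divisors `D ∼ X + Y - T` is regular.
-/

set_option autoImplicit false

noncomputable section

open IsLocalRing AlgebraicCurve
open Fermat.Agent.Arith Fermat.Agent.FF

namespace Fermat.Agent.FiniteFlat

section Curve

variable {K E : Type*} [Field K] [IsAlgClosed K] [Field E] [Algebra K E] [IsFunctionField K E]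

theorem one_le_ell_of_degree_eq_genus {D : Divisor K E}
    (hD : Divisor.degree D = genusFF K E) : 1 ≤ ell K D := by
  have := riemann_roch_isAlgClosed D
  have h0 : 0 ≤ h1 K D := by unfold h1; exact Int.natCast_nonneg _
  omega

omit [IsAlgClosed K] in
theorem neg_div_le_of_mem {D : Divisor K E} {f : E} (hf : f ∈ riemannRochSpace D) (hf0 : f ≠ 0) :
    -div K f ≤ D := by
  refine Finsupp.le_def.mpr fun v => ?_
  have := le_ord_of_mem_ordGe v hf0 (mem_riemannRochSpace'.mp hf v)
  rw [Finsupp.neg_apply, div_apply]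
  omega

end Curve

variable {A : ValuationSubring QBar} {F : Type*} [Field F] [Algebra QBar F]
  {Fk : Type*} [Field Fk] [Algebra (ResidueField A) Fk]
  [IsFunctionField QBar F] [IsFunctionField (ResidueField A) Fk]
  {h : GoodRed A F Fk}

/-- The reduced space contains the reduction of the space. -/
theorem redW_le_redDiv (D : Divisor QBar F) :
    redW h.toRedLattice (riemannRochSpace D) ≤ riemannRochSpace (redDiv h D) := by
  rintro _ ⟨f, hf, rfl⟩
  rcases eq_or_ne (redF h.toRedLattice f) 0 with h0 | h0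
  · rw [h0]; exact zero_mem _
  have hf0 : (f : F) ≠ 0 := fun e => h0 (by rw [show f = 0 from Subtype.ext e, map_zero])
  have h1 : 0 ≤ D + div QBar (f : F) := by
    have := neg_div_le_of_mem hf hf0
    exact neg_le_iff_add_nonneg.mp this
  have h2 := redDiv_nonneg h h1
  rw [map_add, redDiv_div h f h0] at h2
  rw [mem_riemannRochSpace']
  intro v
  refine mem_ordGe_of_le v ?_
  have := Finsupp.le_def.mp h2 v
  simp only [Finsupp.coe_zero, Pi.zero_apply, Finsupp.add_apply, div_apply] at this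
  omega

theorem ell_le_ell_redDiv (h : GoodRed A F Fk) (D : Divisor QBar F) :
    ell QBar D ≤ ell (ResidueField A) (redDiv h D) := by
  rw [ell_eq_finrank_redW h D]
  exact Int.ofNat_le.mpr (Submodule.finrank_mono (redW_le_redDiv D))

theorem redDiv_mono {D D' : Divisor QBar F} (hle : D ≤ D') : redDiv h D ≤ redDiv h D' := by
  have := redDiv_nonneg h (sub_nonneg.mpr hle)
  rwa [map_sub, sub_nonneg] at this

variable {Ω : Type*} [Finite Ω] [Nonempty Ω] {R : Subalgebra A (Ω → QBar)}

omit [Finite Ω] [Nonempty Ω] in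
/-- A nonzero function with bounded poles lifts to a section of a regular family: it is nowhere
zero, its divisor reduces to that of the function and has the poles bounded by the family. -/
private theorem exists_section_of_isReg {G : Ω → Divisor QBar F}
    {Gb : Divisor (ResidueField A) Fk} (hG : IsReg h R G Gb) {ub : Fk}
    (hubm : ub ∈ riemannRochSpace Gb) (hub : ub ≠ 0) :
    ∃ u ∈ secs h.toRedLattice R, (∀ ω, ∃ hm : u ω ∈ h.S, redF h.toRedLattice ⟨_, hm⟩ = ub) ∧
      (∀ ω, u ω ≠ 0) ∧ (∀ ω, redDiv h (div QBar (u ω)) = div (ResidueField A) ub) ∧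
        ∀ ω, -div QBar (u ω) ≤ G ω := by
  obtain ⟨u, hu, hu'⟩ := hG ub hubm
  have h0 : ∀ ω, u ω ≠ 0 := fun ω e => by
    obtain ⟨-, hm, hr⟩ := hu' ω
    exact hub (by rw [← hr, show (⟨u ω, hm⟩ : h.S) = 0 from Subtype.ext e, map_zero])
  refine ⟨u, hu, fun ω => (hu' ω).2, h0, fun ω => ?_, fun ω =>
    neg_div_le_of_mem (hu' ω).1 (h0 ω)⟩
  obtain ⟨-, hm, hr⟩ := hu' ω
  rw [← hr]
  exact redDiv_div h ⟨_, hm⟩ (by rw [hr]; exact hub)

/-- A divisor with positive `ell` has a nonzero function with poles bounded by it. -/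
private theorem exists_mem_ne_zero {D : Divisor (ResidueField A) Fk}
    (hD : 0 < ell (ResidueField A) D) : ∃ f ∈ riemannRochSpace D, f ≠ 0 := by
  obtain ⟨f, hf, hf'⟩ := exists_ne_zero_of_ell_pos (D := D) hD
  refine ⟨f, mem_riemannRochSpace'.mpr fun v => mem_ordGe_of_le v ?_, hf⟩
  have := Finsupp.le_def.mp hf' v
  simp only [Finsupp.coe_zero, Pi.zero_apply, Finsupp.add_apply, div_apply] at this
  omega

/-- For divisors of the same large degree on the two fibres, the one on the special fibre has no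
larger `ell`. -/
private theorem ell_le_ell_of_degree_eq (h : GoodRed A F Fk) {D : Divisor QBar F}
    {Db : Divisor (ResidueField A) Fk}
    (hd : Divisor.degree D = Divisor.degree Db) (hbig : rrBound h ≤ Divisor.degree Db) :
    ell (ResidueField A) Db ≤ ell QBar D := by
  rw [ell_eq_of_rrBound_le h (hd ▸ hbig), ell_eq_of_rrBound_le' h hbig, hd,
    genusFF_eq_of_goodRed h]

/-- Twisting a class with a unique effective divisor `Db` keeps `ell = 1`, and a nonzero function
with bounded poles moves the twist to `Db`. -/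
private theorem ell_eq_one_and_add_div_eq {W Db : Divisor (ResidueField A) Fk} (hDb0 : 0 ≤ Db)
    (hDbl : ell (ResidueField A) Db = 1)
    (hDbe : ∃ f : Fk, f ≠ 0 ∧ Db = W + div (ResidueField A) f) {ub : Fk} (hub : ub ≠ 0) :
    ell (ResidueField A) (W - div (ResidueField A) ub) = 1 ∧
      ∀ vb ∈ riemannRochSpace (W - div (ResidueField A) ub), vb ≠ 0 →
        W - div (ResidueField A) ub + div (ResidueField A) vb = Db := by
  obtain ⟨f, hf, hf'⟩ := hDbe
  refine ⟨?_, fun vb hvbm hvb => ?_⟩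
  · rw [← hDbl, hf', ell_add_div hf, ← ell_add_div hub (W - div (ResidueField A) ub),
      sub_add_cancel]
  · have e : W - div (ResidueField A) ub + div (ResidueField A) vb =
        Db + div (ResidueField A) (f⁻¹ * (ub⁻¹ * vb)) := by
      rw [hf', FF.div_mul (inv_ne_zero hf) (mul_ne_zero (inv_ne_zero hub) hvb),
        FF.div_mul (inv_ne_zero hub) hvb, FF.div_inv, FF.div_inv]
      abel
    exact eq_of_ell_eq_one hDb0 (neg_le_iff_add_nonneg.mp (neg_div_le_of_mem hvbm hvb)) hDbl e

omit [Finite Ω] [Nonempty Ω] in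
/-- If `0 ≤ T` and `-div u ≤ (E - X) + (E - Y)`, then `X + Y - T - div u ≤ E + E`. -/
private theorem residual_le {E : Divisor QBar F} {X Y T : Ω → Divisor QBar F}
    (hT0 : ∀ ω, 0 ≤ T ω)
    {u : Ω → F} (hule : ∀ ω, -div QBar (u ω) ≤ E - X ω + (E - Y ω)) (ω : Ω) :
    X ω + Y ω - T ω - div QBar (u ω) ≤ E + E := by
  refine le_trans (le_of_eq ?_) ((add_le_add le_rfl (hule ω)).trans (?_ : _ ≤ E + E))
    (b := (X ω + Y ω - T ω) + -div QBar (u ω))
  · abel
  · refine le_trans (le_of_eq ?_) (sub_le_self _ (hT0 ω))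
    abel

/-- If `Y + E` is regular, `Y` of degree `g`, and the section `v` makes `D = Y + div v` effective
with effective reduction, then `E - D` is regular. -/
private theorem isReg_sub_add_div (hR : HasIntValues R) {E : Divisor QBar F}
    (hEd : bigDeg h + 4 * genusFF QBar F ≤ Divisor.degree E)
    {Y : Ω → Divisor QBar F} {Yb : Divisor (ResidueField A) Fk}
    (hYd : ∀ ω, Divisor.degree (Y ω) = genusFF QBar F) (hYr : ∀ ω, redDiv h (Y ω) = Yb)
    (hYE : IsReg h R (fun ω => Y ω + E) (Yb + redDiv h E))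
    {v : Ω → F} (hv : v ∈ secs h.toRedLattice R) {vb : Fk} (hvb : vb ≠ 0)
    (hvred : ∀ ω, ∃ hm : v ω ∈ h.S, redF h.toRedLattice ⟨_, hm⟩ = vb)
    (hD0 : ∀ ω, 0 ≤ Y ω + div QBar (v ω)) (hDb0 : 0 ≤ Yb + div (ResidueField A) vb) :
    IsReg h R (fun ω => E - (Y ω + div QBar (v ω)))
      (redDiv h E - (Yb + div (ResidueField A) vb)) := by
  obtain ⟨ω₀⟩ := ‹Nonempty Ω›
  have hbd := three_le_bigDeg h
  have hrb := rrBound_lt_bigDeg h
  have hrr := one_le_rrBound h
  have hEbd : Divisor.degree (redDiv h E) = Divisor.degree E := degree_redDiv h E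
  have hYbd : Divisor.degree Yb = genusFF QBar F := by rw [← hYr ω₀, degree_redDiv, hYd]
  have hG := (isReg_const (h := h) (R := R) (D := E + E) (by rw [map_add]; omega)).scale hv hvb
    hvred
  have e : (fun ω => (E + E - div QBar (v ω)) - (Y ω + E)) =
      fun ω => E - (Y ω + div QBar (v ω)) :=
    funext fun ω => by abel
  have eb : (redDiv h (E + E) - div (ResidueField A) vb) - (Yb + redDiv h E) =
      redDiv h E - (Yb + div (ResidueField A) vb) := by
    rw [map_add]; abel
  rw [← e, ← eb]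
  refine hG.colon hR hYE (fun ω => ?_) (fun ω => by rw [map_add, map_add, hYd, hYbd, hEbd]) ?_ ?_
    (E0 := E) ?_ (fun ω => ?_) ?_ (fun ω => ?_)
  · simp only [map_add, map_sub, degree_div, hEbd]
  · simp only [map_add, map_sub, degree_div, hEbd]; omega
  · rw [map_add]; omega
  · omega
  · rw [congrFun e ω]; exact sub_le_self _ (hD0 ω)
  · rw [eb]; exact sub_le_self _ hDb0
  · rw [congrFun e ω, eb]
    refine ell_le_ell_of_degree_eq h
      (by simp only [map_add, map_sub, hYd, hYbd, hEbd, degree_div]) ?_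
    simp only [map_add, map_sub, hYbd, hEbd, degree_div]; omega

/-- The regular family of effective divisors in the class `X + Y - T`. -/
theorem IsReg.exists_op (hR : HasIntValues R) {E : Divisor QBar F}
    (hEd : bigDeg h + 4 * genusFF QBar F ≤ Divisor.degree E)
    {X Y T : Ω → Divisor QBar F} {Xb Yb Tb Db : Divisor (ResidueField A) Fk}
    (hT0 : ∀ ω, 0 ≤ T ω)
    (hXd : ∀ ω, Divisor.degree (X ω) = genusFF QBar F)
    (hYd : ∀ ω, Divisor.degree (Y ω) = genusFF QBar F)
    (hTd : ∀ ω, Divisor.degree (T ω) = genusFF QBar F)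
    (hXr : ∀ ω, redDiv h (X ω) = Xb) (hYr : ∀ ω, redDiv h (Y ω) = Yb)
    (hTr : ∀ ω, redDiv h (T ω) = Tb)
    (hX : IsReg h R (fun ω => E - X ω) (redDiv h E - Xb))
    (hY : IsReg h R (fun ω => E - Y ω) (redDiv h E - Yb))
    (hT : IsReg h R (fun ω => E - T ω) (redDiv h E - Tb))
    (hDb0 : 0 ≤ Db) (hDbl : ell (ResidueField A) Db = 1)
    (hDbe : ∃ f : Fk, f ≠ 0 ∧ Db = Xb + Yb - Tb + div (ResidueField A) f) :
    ∃ D : Ω → Divisor QBar F,
      (∀ ω, 0 ≤ D ω ∧ redDiv h (D ω) = Db ∧
        ∃ f : F, f ≠ 0 ∧ D ω = X ω + Y ω - T ω + div QBar f) ∧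
      IsReg h R (fun ω => E - D ω) (redDiv h E - Db) := by
  set k := ResidueField A
  set g : ℤ := ((genusFF QBar F : ℕ) : ℤ) with hgdef
  have hbd := three_le_bigDeg h
  have hrb := rrBound_lt_bigDeg h
  have hrr := one_le_rrBound h
  obtain ⟨ω₀⟩ := ‹Nonempty Ω›
  set Eb := redDiv h E with hEb
  have hEbd : Divisor.degree Eb = Divisor.degree E := degree_redDiv h E
  have dX : Divisor.degree Xb = g := by rw [← hXr ω₀, degree_redDiv, hXd]
  have dY : Divisor.degree Yb = g := by rw [← hYr ω₀, degree_redDiv, hYd]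
  have dT : Divisor.degree Tb = g := by rw [← hTr ω₀, degree_redDiv, hTd]
  -- the product of the first two
  have hP := hX.mul hY (by rw [map_sub, dX]; omega) (by rw [map_sub, dY]; omega)
  set P : Ω → Divisor QBar F := fun ω => (E - X ω) + (E - Y ω) with hPdef
  set Pb := (Eb - Xb) + (Eb - Yb) with hPbdef
  have hPd : ∀ ω, Divisor.degree (P ω) = Divisor.degree Pb := fun ω => by
    simp only [hPdef, hPbdef, map_add, map_sub, hXd, hYd, dX, dY, hEbd]
  have hPbd : Divisor.degree Pb = 2 * Divisor.degree E - 2 * g := by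
    simp only [hPbdef, map_add, map_sub, dX, dY, hEbd]
    ring
  -- a section of the product
  obtain ⟨ub, hubm, hub⟩ := exists_mem_ne_zero (D := Pb) (by
    rw [ell_eq_of_rrBound_le' h (by omega), genusFF_eq_of_goodRed h]; omega)
  obtain ⟨u, hu, hured, hu0, hudiv, hule⟩ := exists_section_of_isReg hP hubm hub
  replace hudiv : ∀ ω, redDiv h (div QBar (u ω)) = div k ub := hudiv
  -- the residual class
  have hconstE := isReg_const (h := h) (R := R) (D := E) (by omega)
  have hG1 := (hT.mul hconstE (by rw [map_sub, dT]; omega) (by rw [← hEb]; omega)).scale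
    hu hub hured
  set Y2 : Ω → Divisor QBar F := fun ω => X ω + Y ω - T ω - div QBar (u ω) with hY2def
  set Y2b := Xb + Yb - Tb - div k ub with hY2bdef
  have e1 : (fun ω => ((E - T ω) + E - div QBar (u ω)) - P ω) = Y2 := funext fun ω => by
    simp only [hPdef, hY2def]; abel
  have e1b : ((Eb - Tb) + Eb - div k ub) - Pb = Y2b := by
    simp only [hPbdef, hY2bdef]; abel
  have hY2red : ∀ ω, redDiv h (Y2 ω) = Y2b := fun ω => by
    simp only [hY2def, hY2bdef, map_add, map_sub, hXr, hYr, hTr, hudiv]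
  have hY2d : ∀ ω, Divisor.degree (Y2 ω) = g := fun ω => by
    simp only [hY2def, map_add, map_sub, hXd, hYd, hTd, degree_div]; ring
  have hY2le : ∀ ω, Y2 ω ≤ E + E := residual_le hT0 hule
  have hY2ble : Y2b ≤ redDiv h (E + E) := hY2red ω₀ ▸ redDiv_mono (hY2le ω₀)
  obtain ⟨hY2l, hY2e⟩ := ell_eq_one_and_add_div_eq hDb0 hDbl hDbe hub
  have hY2reg : IsReg h R Y2 Y2b := by
    rw [← e1, ← e1b]
    refine hG1.colon hR hP (fun ω => ?_) hPd ?_ ?_ (E0 := E + E) ?_ (fun ω => ?_) ?_ (fun ω => ?_)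
    · simp only [map_add, map_sub, hTd, dT, degree_div, ← hEb, hEbd]
    · simp only [map_add, map_sub, dT, degree_div, ← hEb, hEbd]; omega
    · omega
    · rw [map_add]; omega
    · rw [congrFun e1 ω]; exact hY2le ω
    · rw [e1b]; exact hY2ble
    · rw [congrFun e1 ω, e1b, hY2l]; exact one_le_ell_of_degree_eq_genus (hY2d ω)
  -- its section
  obtain ⟨vb, hvbm, hvb⟩ := exists_mem_ne_zero (D := Y2b) (by rw [hY2l]; norm_num)
  obtain ⟨v, hv, hvred, hv0, hvdiv, hvle⟩ := exists_section_of_isReg hY2reg hvbm hvb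
  replace hvdiv : ∀ ω, redDiv h (div QBar (v ω)) = div k vb := hvdiv
  set D : Ω → Divisor QBar F := fun ω => Y2 ω + div QBar (v ω) with hDdef
  have hD0 : ∀ ω, 0 ≤ D ω := fun ω => neg_le_iff_add_nonneg.mp (hvle ω)
  have hDb : Y2b + div k vb = Db := hY2e vb hvbm hvb
  have hDred : ∀ ω, redDiv h (D ω) = Db := fun ω => by
    simp only [hDdef, map_add, hY2red, hvdiv, hDb]
  refine ⟨D, fun ω => ⟨hD0 ω, hDred ω, (u ω)⁻¹ * v ω, mul_ne_zero (inv_ne_zero (hu0 ω)) (hv0 ω),
    ?_⟩, ?_⟩
  · rw [FF.div_mul (inv_ne_zero (hu0 ω)) (hv0 ω), FF.div_inv]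
    simp only [hDdef, hY2def]; abel
  -- the space of the residual class shifted by `E`
  have hconst2 := isReg_const (h := h) (R := R) (D := E + E) (by rw [map_add]; omega)
  have hG2 := (hT.mul hconst2 (by rw [map_sub, dT]; omega)
    (by rw [map_add, ← hEb, map_add, hEbd]; omega)).scale hu hub hured
  have e2 : (fun ω => ((E - T ω) + (E + E) - div QBar (u ω)) - P ω) = fun ω => Y2 ω + E :=
    funext fun ω => by simp only [hPdef, hY2def]; abel
  have e2b : ((Eb - Tb) + redDiv h (E + E) - div k ub) - Pb = Y2b + Eb := by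
    simp only [hPbdef, hY2bdef, map_add, ← hEb]; abel
  have hY3d : ∀ ω, Divisor.degree (Y2 ω + E) = g + Divisor.degree E := fun ω => by
    rw [map_add, hY2d]
  have hY3bd : Divisor.degree (Y2b + Eb) = g + Divisor.degree E := by
    rw [map_add, hEbd, ← hY2red ω₀, degree_redDiv, hY2d]
  have hY3 : IsReg h R (fun ω => Y2 ω + E) (Y2b + Eb) := by
    rw [← e2, ← e2b]
    refine hG2.colon hR hP (fun ω => ?_) hPd ?_ ?_ (E0 := E + E + E) ?_ (fun ω => ?_) ?_
      (fun ω => ?_)
    · simp only [map_add, map_sub, hTd, dT, degree_div, ← hEb, hEbd]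
    · simp only [map_add, map_sub, dT, degree_div, ← hEb, hEbd]; omega
    · omega
    · rw [map_add, map_add]; omega
    · rw [congrFun e2 ω]; exact add_le_add (hY2le ω) le_rfl
    · rw [e2b, map_add _ (E + E) E, ← hEb]; exact add_le_add hY2ble le_rfl
    · rw [congrFun e2 ω, e2b]
      exact ell_le_ell_of_degree_eq h (by rw [hY3d, hY3bd]) (by rw [hY3bd]; omega)
  subst hDb
  exact isReg_sub_add_div hR hEd hY2d hY2red hY3 hv hvb hvred hD0 hDb0

end Fermat.Agent.FiniteFlat
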