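import Fermat.Agent.FiniteFlat.TorsionOrder
import Fermat.Agent.Mazur.Eisenstein.Inputs

/-!
# The order property of `J₀(N)`

`orderProperty`: at a prime `r ∤ N` the `r`-power torsion of `J₀(N)` lies in Galois orders whose
functions are congruent to their value at the origin on classes reducing to zero.

`FiniteFlat` uses this in place of the Néron model: a `GalOrder` is the coordinate ring of a
finite flat group scheme over `ℤ_(r)` with the given Galois module as its points
(`GalOrderHopf`). It is cut out by coordinates of effective divisors in torsion classes under
good reduction of the function field (`Instance`, `TorsionLattice`, `TorsionOrder`).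

## References

* J. Tate, *Finite flat group schemes*, in *Modular Forms and Fermat's Last Theorem* (1997).
* M. Raynaud, *Schémas en groupes de type (p, ..., p)*, Bull. Soc. Math. France (1974).
-/

set_option autoImplicit false

noncomputable section

open ModularCurve
open Fermat.Agent.Arith

namespace Fermat.Agent.FiniteFlat

/-- The `r`-power torsion of `J₀(N)` lies in Galois orders at every prime `r` not dividing `N`. -/
theorem orderProperty (N : ℕ) [NeZero N] : Mazur.Eisenstein.OrderProperty N := by
  intro r hr hrN A hA m
  have : NeZero (r ^ m) := ⟨pow_ne_zero _ hr.ne_zero⟩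
  obtain ⟨O, hO⟩ := exists_galOrder_torsion hr hrN hA (r ^ m)
  refine ⟨TorsPt N (r ^ m), inferInstance, inferInstance, inferInstance, TorsPt.incl, O,
    TorsPt.incl_injective, TorsPt.incl_smul, fun x hx => ?_, fun f hf x hx => hO f hf x 0 ?_⟩
  · exact ⟨(⟨x, AlgebraicCurve.Pic0.mem_torsion.mpr (by rw [natCast_zsmul]; exact hx)⟩ :
      AlgebraicCurve.Pic0.torsion QBar (modularFunctionFieldBar N) (r ^ m)), rfl⟩
  · rw [map_zero]
    exact hx

end Fermat.Agent.FiniteFlat
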