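import Fermat.Agent.FiniteFlat.CurveLemmas
import Fermat.Agent.Arith.ResidueLift

/-!
# Good reduction of a function field over the algebraic numbers

A valuation lattice `S` with a surjective reduction onto the reduced field, in which every finite
dimensional space sits inside a frame up to a primitive denominator: reduction of subspaces
preserves dimensions, and does not increase the degree of a function.

These are `finrank_redW` and `finrank_adjoin_redF_le`.
-/

set_option autoImplicit false

noncomputable section

open IsLocalRing AlgebraicCurve Polynomial IntermediateField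
open Fermat.Agent.Arith Fermat.Agent.FF

namespace Fermat.Agent.FiniteFlat

/-! ### The structures -/

/-- A lattice in `F` at `A` with reduction onto the reduced field `Fk`: it contains the constants
of `A` and a primitive multiple of every nonzero function, and every finite dimensional space lies,
up to a primitive denominator, in the span of lattice elements with independent reductions. -/
structure RedLattice (A : ValuationSubring QBar) (F : Type*) [Field F] [Algebra QBar F]
    (Fk : Type*) [Field Fk] [Algebra (ResidueField A) Fk] where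
  /-- The lattice, a subring of `F`. -/
  S : Subring F
  /-- The reduction onto the reduced field. -/
  rho : S →+* Fk
  const_mem : ∀ a : A, algebraMap QBar F a ∈ S
  rho_const : ∀ a : A,
    rho ⟨algebraMap QBar F a, const_mem a⟩ = algebraMap (ResidueField A) Fk (residue A a)
  surj : Function.Surjective rho
  scal : ∀ f : F, f ≠ 0 → ∃ (c : QBar) (g : S), c ≠ 0 ∧ rho g ≠ 0 ∧ f = c • (g : F)
  frame : ∀ W : Submodule QBar F, FiniteDimensional QBar W →
    ∃ (d : S) (m : ℕ) (v : Fin m → S), rho d ≠ 0 ∧
      LinearIndependent (ResidueField A) (fun i => rho (v i)) ∧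
      ∀ w ∈ W, (d : F) * w ∈ Submodule.span QBar (Set.range fun i => (v i : F))

/-- Good reduction of `F` at `A` with reduced field `Fk`: the genus does not drop. -/
structure GoodRed (A : ValuationSubring QBar) (F : Type*) [Field F] [Algebra QBar F]
    (Fk : Type*) [Field Fk] [Algebra (ResidueField A) Fk] extends RedLattice A F Fk where
  genus_le : genusFF QBar F ≤ genusFF (ResidueField A) Fk

variable {A : ValuationSubring QBar} {F : Type*} [Field F] [Algebra QBar F]
  {Fk : Type*} [Field Fk] [Algebra (ResidueField A) Fk] (h : RedLattice A F Fk)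

/-- The reduction map. -/
abbrev redF : h.S →+* Fk := h.rho

/-- The lattice is stable under scalars from `A`. -/
theorem smul_mem_lattice (a : A) {f : F} (hf : f ∈ h.S) : (a : QBar) • f ∈ h.S := by
  rw [Algebra.smul_def]
  exact mul_mem (h.const_mem a) hf

/-- The constants of `A` as lattice elements. -/
def intConst : A →+* h.S :=
  ((algebraMap QBar F).comp A.subtype).codRestrict h.S h.const_mem

/-- `intConst a` is the constant `a`. -/
theorem coe_intConst (a : A) : (intConst h a : F) = algebraMap QBar F a := rfl

/-- The reduction of a constant is its residue. -/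
theorem redF_intConst (a : A) :
    redF h (intConst h a) = algebraMap (ResidueField A) Fk (residue A a) := h.rho_const a

/-- Reduction commutes with integral scalars. -/
theorem redF_smul (a : A) (f : h.S) :
    redF h ⟨_, smul_mem_lattice h a f.2⟩ = residue A a • redF h f := by
  have he : (⟨_, smul_mem_lattice h a f.2⟩ : h.S) = intConst h a * f :=
    Subtype.ext (Algebra.smul_def (a : QBar) (f : F))
  rw [he, map_mul, redF_intConst, Algebra.smul_def]

/-! ### Primitive elements and relations -/

include h in
/-- Every nonzero function is a constant times a lattice element with nonzero reduction. -/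
theorem exists_primitive {f : F} (hf : f ≠ 0) :
    ∃ (c : QBar) (g : h.S), c ≠ 0 ∧ redF h g ≠ 0 ∧ f = c • (g : F) := h.scal f hf

theorem inv_mem_of_redF_ne_zero (d : h.S) (hd : redF h d ≠ 0) : ((d : F))⁻¹ ∈ h.S := by
  have hd0 : (d : F) ≠ 0 := fun e => hd (by rw [show d = 0 from Subtype.ext e, map_zero])
  obtain ⟨c, g, hc, hg, hcg⟩ := h.scal _ (inv_ne_zero hd0)
  have hdg : ((d * g : h.S) : F) = algebraMap QBar F c⁻¹ := by
    have h1 : (d : F) * (c • (g : F)) = 1 := by rw [← hcg, mul_inv_cancel₀ hd0]
    rw [mul_smul_comm, Algebra.smul_def] at h1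
    rw [map_inv₀]
    exact eq_inv_of_mul_eq_one_right h1
  rcases A.mem_or_inv_mem c with hA | hA
  · rw [hcg]
    exact smul_mem_lattice h ⟨c, hA⟩ g.2
  · have he : d * g = intConst h ⟨c⁻¹, hA⟩ := Subtype.ext hdg
    have h2 := congrArg (redF h) he
    rw [map_mul, redF_intConst] at h2
    have hcA : c ∈ A := by
      by_contra hcA
      exact mul_ne_zero hd hg (by rw [h2, residue_inv_eq_zero hcA hA, map_zero])
    rw [hcg]
    exact smul_mem_lattice h ⟨c, hcA⟩ g.2

/-- A finite family of scalars can be normalised at a largest one. -/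
theorem exists_normalize {ι : Type*} [Fintype ι] {c : ι → QBar} (hc : ∃ i, c i ≠ 0) :
    ∃ i₀, c i₀ ≠ 0 ∧ ∀ i, c i / c i₀ ∈ A := by
  obtain ⟨i, hi⟩ := hc
  obtain ⟨i₀, -, hmax⟩ := Finset.exists_max_image Finset.univ (fun j => A.valuation (c j))
    ⟨i, Finset.mem_univ i⟩
  have h0 : c i₀ ≠ 0 := fun e => by
    have := hmax i (Finset.mem_univ i)
    rw [e, map_zero, le_zero_iff, Valuation.zero_iff] at this
    exact hi this
  refine ⟨i₀, h0, fun j => ?_⟩
  rw [← A.valuation_le_one_iff, map_div₀, div_le_one₀ (zero_lt_iff.mpr
    ((Valuation.ne_zero_iff _).mpr h0))]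
  exact hmax j (Finset.mem_univ j)

/-- A linear relation between integral elements reduces to a nontrivial one. -/
theorem redF_relation {ι : Type*} [Fintype ι] (u : ι → h.S) {c : ι → QBar}
    (hc : ∃ i, c i ≠ 0) (hrel : ∑ i, c i • (u i : F) = 0) :
    ∃ d : ι → ResidueField A, (∃ i, d i ≠ 0) ∧ ∑ i, d i • redF h (u i) = 0 := by
  obtain ⟨i₀, h0, hA⟩ := exists_normalize (A := A) hc
  refine ⟨fun i => residue A ⟨_, hA i⟩, ⟨i₀, ?_⟩, ?_⟩
  · show residue A ⟨_, hA i₀⟩ ≠ 0
    have he : (⟨_, hA i₀⟩ : A) = 1 := Subtype.ext (div_self h0)
    rw [he, map_one]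
    exact one_ne_zero
  · have hsum : ∑ i, (⟨_, smul_mem_lattice h ⟨_, hA i⟩ (u i).2⟩ : h.S) = 0 := by
      refine Subtype.ext ?_
      rw [AddSubmonoidClass.coe_finsetSum, ZeroMemClass.coe_zero]
      have h1 : ∀ i, (c i / c i₀) • (u i : F) = (c i₀)⁻¹ • (c i • (u i : F)) := fun i => by
        rw [smul_smul, div_eq_inv_mul]
      rw [Finset.sum_congr rfl fun i _ => h1 i, ← Finset.smul_sum, hrel, smul_zero]
    have h2 := congrArg (redF h) hsum
    rw [map_sum, map_zero] at h2
    rw [Finset.sum_congr rfl fun i _ => redF_smul h ⟨_, hA i⟩ (u i)] at h2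
    exact h2

/-- Lattice elements with independent reductions are independent. -/
theorem linearIndependent_of_redF {ι : Type*} [Fintype ι] (u : ι → h.S)
    (hu : LinearIndependent (ResidueField A) fun i => redF h (u i)) :
    LinearIndependent QBar fun i => (u i : F) := by
  rw [Fintype.linearIndependent_iff]
  intro c hc
  by_contra! hne
  obtain ⟨d, ⟨i, hi⟩, hd⟩ := redF_relation h u hne hc
  exact hi (Fintype.linearIndependent_iff.mp hu d hd i)

/-! ### Reduction of subspaces -/

/-- Reductions of the integral elements of a subspace. -/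
def redW (W : Submodule QBar F) : Submodule (ResidueField A) Fk where
  carrier := {y | ∃ f : h.S, (f : F) ∈ W ∧ redF h f = y}
  add_mem' := by
    rintro _ _ ⟨f, hf, rfl⟩ ⟨g, hg, rfl⟩
    exact ⟨f + g, W.add_mem hf hg, map_add _ _ _⟩
  zero_mem' := ⟨0, W.zero_mem, map_zero _⟩
  smul_mem' := by
    rintro c _ ⟨f, hf, rfl⟩
    obtain ⟨a, rfl⟩ := residue_surjective c
    exact ⟨_, W.smul_mem _ hf, redF_smul h a f⟩

/-- The reduction of an integral element of `W` lies in `redW h W`. -/
theorem redF_mem_redW {W : Submodule QBar F} (f : h.S) (hf : (f : F) ∈ W) :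
    redF h f ∈ redW h W := ⟨f, hf, rfl⟩

/-- The reduction of spaces is monotone. -/
theorem redW_mono {W W' : Submodule QBar F} (hle : W ≤ W') : redW h W ≤ redW h W' :=
  fun _ ⟨f, hf, e⟩ => ⟨f, hle hf, e⟩

/-- The product of two reduced spaces lies in the reduction of the product. -/
theorem redW_mul_le (W W' : Submodule QBar F) : redW h W * redW h W' ≤ redW h (W * W') := by
  refine Submodule.mul_le.mpr ?_
  rintro _ ⟨f, hf, rfl⟩ _ ⟨g, hg, rfl⟩
  exact ⟨f * g, Submodule.mul_mem_mul hf hg, map_mul _ _ _⟩

theorem exists_echelon {ι : Type*} [Fintype ι] (n : ℕ) (T : Submodule QBar (ι → QBar))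
    (hT : Module.finrank QBar T = n) : ∃ c : Fin n → ι → A,
      (∀ j, (fun i => ((c j i : A) : QBar)) ∈ T) ∧
      LinearIndependent (ResidueField A) (fun j i => residue A (c j i)) := by
  classical
  induction n generalizing T with
  | zero => exact ⟨Fin.elim0, fun j => j.elim0, linearIndependent_empty_type⟩
  | succ n ih =>
    obtain ⟨x, hxT, hx⟩ := Submodule.exists_mem_ne_zero_of_ne_bot
      (show T ≠ ⊥ from fun e => by subst e; rw [finrank_bot] at hT; omega)
    obtain ⟨i₀, h0, hA⟩ := exists_normalize (A := A) (c := x) (Function.ne_iff.mp hx)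
    set T' : Submodule QBar (ι → QBar) := T ⊓ LinearMap.ker (LinearMap.proj i₀) with hT'
    let f : T →ₗ[QBar] QBar := (LinearMap.proj i₀).comp T.subtype
    have hf : Function.Surjective f := fun a =>
      ⟨(a / x i₀) • ⟨x, hxT⟩, div_mul_cancel₀ a h0⟩
    have hker : Module.finrank QBar T' = n := by
      have h1 := f.finrank_range_add_finrank_ker
      rw [LinearMap.range_eq_top.mpr hf, finrank_top, Module.finrank_self, hT] at h1
      have e : (LinearMap.ker f).map T.subtype = T' := by
        ext y
        simp [f, hT', and_comm]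
      rw [← e, Submodule.finrank_map_subtype_eq]
      omega
    obtain ⟨c, hc, hli⟩ := ih T' hker
    refine ⟨Fin.cons (fun i => ⟨x i / x i₀, hA i⟩) c, fun j => ?_, ?_⟩
    · induction j using Fin.cases with
      | zero =>
        have : (fun i => x i / x i₀) = (x i₀)⁻¹ • x := by
          funext i; simp [div_eq_inv_mul]
        exact (this ▸ T.smul_mem _ hxT : (fun i => x i / x i₀) ∈ T)
      | succ j => exact (hc j).1
    · rw [show (fun j i => residue A ((Fin.cons (fun i => ⟨x i / x i₀, hA i⟩) c :
          Fin (n + 1) → ι → A) j i)) = Fin.cons (fun i => residue A ⟨x i / x i₀, hA i⟩)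
            (fun j i => residue A (c j i)) from funext (Fin.cases (by simp) (by simp))]
      refine linearIndependent_finCons.mpr ⟨hli, fun hmem => ?_⟩
      have hle : Submodule.span (ResidueField A) (Set.range fun j i => residue A (c j i)) ≤
          LinearMap.ker (LinearMap.proj i₀) := by
        refine Submodule.span_le.mpr ?_
        rintro _ ⟨j, rfl⟩
        have h1 : ((c j i₀ : A) : QBar) = 0 := (hc j).2
        simp [show c j i₀ = 0 from Subtype.ext h1]
      have h2 : residue A ⟨x i₀ / x i₀, hA i₀⟩ = 0 := hle hmem
      rw [show (⟨x i₀ / x i₀, hA i₀⟩ : A) = 1 from Subtype.ext (div_self h0), map_one] at h2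
      exact one_ne_zero h2

/-- Reduction preserves the dimension of a subspace. -/
theorem finrank_redW (W : Submodule QBar F) [FiniteDimensional QBar W] :
    FiniteDimensional (ResidueField A) (redW h W) ∧
      Module.finrank (ResidueField A) (redW h W) = Module.finrank QBar W := by
  classical
  obtain ⟨d, m, v, hd, hv, hW⟩ := h.frame W ‹_›
  have hd0 : (d : F) ≠ 0 := fun e => hd (by
    rw [show d = 0 from Subtype.ext e, map_zero])
  set n := Module.finrank QBar W
  -- coordinates of `d • W` in the frame
  let comb : (Fin m → QBar) →ₗ[QBar] F := Fintype.linearCombination QBar fun i => (v i : F)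
  have hinj : Function.Injective comb :=
    (linearIndependent_of_redF h v hv).fintypeLinearCombination_injective
  let T : Submodule QBar (Fin m → QBar) := (W.map (LinearMap.mulLeft QBar (d : F))).comap comb
  have hTd : Module.finrank QBar T = n := by
    have h1 : T.map comb = W.map (LinearMap.mulLeft QBar (d : F)) := by
      refine Submodule.map_comap_eq_self ?_
      rintro _ ⟨w, hw, rfl⟩
      rw [Fintype.range_linearCombination]
      exact hW w hw
    have e1 := LinearEquiv.finrank_eq (Submodule.equivMapOfInjective comb hinj T)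
    have e2 := LinearEquiv.finrank_eq
      (Submodule.equivMapOfInjective (LinearMap.mulLeft QBar (d : F)) (mul_right_injective₀ hd0) W)
    rw [e1, h1, ← e2]
  obtain ⟨c, hcT, hcli⟩ := exists_echelon n T hTd
  -- lifts in `W`
  let u : Fin n → h.S := fun j =>
    ⟨_, inv_mem_of_redF_ne_zero h d hd⟩ * ∑ i, intConst h (c j i) * v i
  have huW : ∀ j, (u j : F) ∈ W := fun j => by
    obtain ⟨w, hw, hwc⟩ := hcT j
    have : (u j : F) = w := by
      simp only [u, MulMemClass.coe_mul, AddSubmonoidClass.coe_finsetSum, coe_intConst]
      rw [LinearMap.mulLeft_apply] at hwc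
      rw [show ∑ i, algebraMap QBar F (c j i : A) * (v i : F) = comb (fun i => (c j i : A)) by
        simp [comb, Fintype.linearCombination_apply, Algebra.smul_def], ← hwc,
        inv_mul_cancel_left₀ hd0]
    rwa [this]
  have hdi : redF h ⟨_, inv_mem_of_redF_ne_zero h d hd⟩ * redF h d = 1 := by
    rw [← map_mul, ← map_one (redF h)]
    exact congrArg _ (Subtype.ext (inv_mul_cancel₀ hd0))
  have huli : LinearIndependent (ResidueField A) fun j => redF h (u j) := by
    have hcomb : Function.Injective (Fintype.linearCombination (ResidueField A)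
        fun i => redF h (v i)) := hv.fintypeLinearCombination_injective
    have hm : Function.Injective (LinearMap.mulLeft (ResidueField A)
        (redF h ⟨_, inv_mem_of_redF_ne_zero h d hd⟩)) :=
      mul_right_injective₀ (left_ne_zero_of_mul_eq_one hdi)
    have h3 := hcli.map' _ (LinearMap.ker_eq_bot.mpr (hm.comp hcomb) :
      LinearMap.ker ((LinearMap.mulLeft (ResidueField A)
        (redF h ⟨_, inv_mem_of_redF_ne_zero h d hd⟩)).comp
        (Fintype.linearCombination (ResidueField A) fun i => redF h (v i))) = ⊥)
    have e : (fun j => redF h (u j)) = ⇑((LinearMap.mulLeft (ResidueField A)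
        (redF h ⟨_, inv_mem_of_redF_ne_zero h d hd⟩)).comp
        (Fintype.linearCombination (ResidueField A) fun i => redF h (v i))) ∘
        fun j i => residue A (c j i) := by
      funext j
      simp only [u, map_mul, map_sum, redF_intConst, Function.comp_apply, LinearMap.comp_apply,
        Fintype.linearCombination_apply, LinearMap.mulLeft_apply, Algebra.smul_def, Finset.mul_sum]
    rw [e]
    exact h3
  have key : ∀ (s : ℕ) (w : Fin s → redW h W), LinearIndependent (ResidueField A) w → s ≤ n := by
    intro s w hw
    choose g hgW hg using fun i => (w i).2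
    have h4 : LinearIndependent QBar fun i => (g i : F) :=
      linearIndependent_of_redF h g (by
        simpa [hg, Function.comp_def] using hw.map' (redW h W).subtype (Submodule.ker_subtype _))
    have h5 : LinearIndependent QBar fun i => (⟨(g i : F), hgW i⟩ : W) :=
      LinearIndependent.of_comp W.subtype h4
    simpa using h5.fintype_card_le_finrank
  have hfd : FiniteDimensional (ResidueField A) (redW h W) := by
    rw [FiniteDimensional, ← Module.rank_lt_aleph0_iff]
    refine lt_of_le_of_lt (rank_le (n := n) fun t ht => ?_) (Cardinal.natCast_lt_aleph0)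
    exact key _ _ (ht.comp _ t.equivFin.symm.injective)
  refine ⟨hfd, le_antisymm (key _ _ (Module.finBasis _ _).linearIndependent) ?_⟩
  have h6 : LinearIndependent (ResidueField A) fun j => (⟨_, redF_mem_redW h (u j) (huW j)⟩ :
      redW h W) := LinearIndependent.of_comp (redW h W).subtype huli
  simpa using h6.fintype_card_le_finrank

/-- A basis of a subspace spans it. -/
theorem span_range_basis_coe {K E ι : Type*} [Field K] [AddCommGroup E] [Module K E]
    {W : Submodule K E} (b : Module.Basis ι K W) :
    Submodule.span K (Set.range fun i => (b i : E)) = W := by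
  have := congrArg (Submodule.map W.subtype) b.span_eq
  rwa [Submodule.map_span, Submodule.map_top, Submodule.range_subtype, ← Set.range_comp] at this

/-- A basis of the reduction of a subspace lifts to a basis of the subspace. -/
theorem exists_basis_lifts (W : Submodule QBar F) [FiniteDimensional QBar W] :
    ∃ (n : ℕ) (u : Fin n → h.S), (∀ i, (u i : F) ∈ W) ∧
      LinearIndependent (ResidueField A) (fun i => redF h (u i)) ∧
      Submodule.span (ResidueField A) (Set.range fun i => redF h (u i)) = redW h W ∧
      Submodule.span QBar (Set.range fun i => (u i : F)) = W := by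
  obtain ⟨hfd, hfr⟩ := finrank_redW h W
  have := hfd
  let μ := Module.finBasis (ResidueField A) (redW h W)
  choose u huW hu using fun i => (μ i).2
  have hu' : (fun i => redF h (u i)) = fun i => (μ i : Fk) := funext hu
  have huli : LinearIndependent (ResidueField A) fun i => redF h (u i) :=
    hu'.symm ▸ μ.linearIndependent.map' (redW h W).subtype (Submodule.ker_subtype _)
  refine ⟨_, u, huW, huli, hu'.symm ▸ span_range_basis_coe μ,
    Submodule.eq_of_le_of_finrank_eq (Submodule.span_le.mpr ?_) ?_⟩
  · rintro _ ⟨i, rfl⟩; exact huW i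
  · rw [finrank_span_eq_card (linearIndependent_of_redF h u huli), Fintype.card_fin, hfr]

/-- Lifts of a basis of the reduction form a basis with integral coordinates. -/
theorem exists_coords {ι : Type*} [Fintype ι] {W : Submodule QBar F} [FiniteDimensional QBar W]
    (u : ι → h.S) (huW : ∀ i, (u i : F) ∈ W)
    (hli : LinearIndependent (ResidueField A) fun i => redF h (u i))
    (hcard : Fintype.card ι = Module.finrank QBar W) {f : F} (hf : f ∈ W) :
    ∃ c : ι → QBar, f = ∑ i, c i • (u i : F) ∧ (f ∈ h.S → ∀ i, c i ∈ A) := by
  classical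
  -- The lifts are a basis over `ℚ̄`.
  have hsp : Submodule.span QBar (Set.range fun i => (u i : F)) = W := by
    refine Submodule.eq_of_le_of_finrank_eq (Submodule.span_le.mpr ?_) ?_
    · rintro _ ⟨i, rfl⟩; exact huW i
    · rw [finrank_span_eq_card (linearIndependent_of_redF h u hli), hcard]
  obtain ⟨c, hc⟩ := (Submodule.mem_span_range_iff_exists_fun QBar).mp (hsp.symm ▸ hf)
  refine ⟨c, hc.symm, fun hfi i => ?_⟩
  -- Otherwise normalise the relation by its largest coefficient, which is not at `f`.
  by_contra hci
  let u' : Option ι → h.S := fun o => o.elim ⟨f, hfi⟩ u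
  let c' : Option ι → QBar := fun o => o.elim (-1) c
  have hrel : ∑ o, c' o • (u' o : F) = 0 := by
    rw [Fintype.sum_option]
    simp [u', c', hc]
  obtain ⟨o₀, h0, hA⟩ := exists_normalize (A := A) (c := c') ⟨none, by simp [c']⟩
  have hi0 : o₀ ≠ none := by
    rintro rfl
    have := hA (some i)
    simp only [c', Option.elim] at this
    rw [div_neg, div_one] at this
    exact hci (by simpa using neg_mem this)
  have hnu : (⟨_, hA none⟩ : A) ∈ maximalIdeal A := by
    rw [← ValuationSubring.coe_mem_nonunits_iff, ValuationSubring.mem_nonunits_iff]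
    refine lt_of_le_of_ne ((A.valuation_le_one_iff _).mpr (hA none)) fun h1 => hci ?_
    have h2 : A.valuation (c' o₀) = 1 := by
      rw [map_div₀, div_eq_one_iff_eq ((Valuation.ne_zero_iff _).mpr h0)] at h1
      rw [← h1]
      simp [c']
    have h3 := mul_mem (hA (some i)) ((A.valuation_le_one_iff _).mp h2.le)
    rwa [div_mul_cancel₀ _ h0] at h3
  have hsum : ∑ o, (⟨_, smul_mem_lattice h ⟨_, hA o⟩ (u' o).2⟩ : h.S) = 0 := by
    refine Subtype.ext ?_
    rw [AddSubmonoidClass.coe_finsetSum, ZeroMemClass.coe_zero]
    have h1 : ∀ o, (c' o / c' o₀) • (u' o : F) = (c' o₀)⁻¹ • (c' o • (u' o : F)) := fun o => by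
      rw [smul_smul, div_eq_inv_mul]
    rw [Finset.sum_congr rfl fun o _ => h1 o, ← Finset.smul_sum, hrel, smul_zero]
  -- Its reduction is a nontrivial relation between the reductions of the lifts.
  have h2 := congrArg (redF h) hsum
  rw [map_sum, map_zero] at h2
  rw [Finset.sum_congr rfl fun o _ => redF_smul h ⟨_, hA o⟩ (u' o), Fintype.sum_option,
    (IsLocalRing.residue_eq_zero_iff _).mpr hnu, zero_smul, zero_add] at h2
  obtain ⟨j, rfl⟩ := Option.ne_none_iff_exists'.mp hi0
  have h3 := Fintype.linearIndependent_iff.mp hli _ h2 j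
  have he : (⟨_, hA (some j)⟩ : A) = 1 := Subtype.ext (div_self h0)
  rw [he, map_one] at h3
  exact one_ne_zero h3

/-! ### Degrees -/

theorem transcendental_of_redF (f : h.S) (hx : Transcendental (ResidueField A) (redF h f)) :
    Transcendental QBar (f : F) := fun hal => hx (by
  have := IntermediateField.adjoin.finiteDimensional hal.isIntegral
  have hb := IntermediateField.eq_bot_of_isAlgClosed_of_isAlgebraic QBar⟮(f : F)⟯
  obtain ⟨a, ha⟩ := IntermediateField.mem_bot.mp (hb ▸ mem_adjoin_simple_self QBar (f : F))
  by_cases haA : a ∈ A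
  · rw [show f = intConst h ⟨a, haA⟩ from Subtype.ext ha.symm, redF_intConst]
    exact isAlgebraic_algebraMap _
  · have hi : a⁻¹ ∈ A := (A.mem_or_inv_mem a).resolve_left haA
    have ha0 : a ≠ 0 := fun e => haA (e ▸ A.zero_mem)
    have hm := residue_inv_eq_zero haA hi
    have h1 : intConst h ⟨a⁻¹, hi⟩ * f = 1 := Subtype.ext (by
      rw [MulMemClass.coe_mul, coe_intConst, ← ha, OneMemClass.coe_one, ← map_mul,
        inv_mul_cancel₀ ha0, map_one])
    have h2 := congrArg (redF h) h1
    rw [map_mul, redF_intConst, hm, map_zero, zero_mul, map_one] at h2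
    exact absurd h2 zero_ne_one)

/-- The degree of the reduction of a function is at most the degree of the function. -/
theorem finrank_adjoin_redF_le [IsFunctionField QBar F] [IsFunctionField (ResidueField A) Fk]
    (f : h.S) (hx : Transcendental (ResidueField A) (redF h f)) :
    Transcendental QBar (f : F) ∧
      Module.finrank (ResidueField A)⟮redF h f⟯ Fk ≤ Module.finrank QBar⟮(f : F)⟯ F := by
  classical
  have hf := transcendental_of_redF h f hx
  refine ⟨hf, ?_⟩
  set x := redF h f
  have := finiteDimensional_adjoin hx
  have := finiteDimensional_adjoin hf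
  -- Lift a basis of the reduced field over `k(x)`.
  let bk := Module.finBasis (ResidueField A)⟮x⟯ Fk
  let b := Fin (Module.finrank (ResidueField A)⟮x⟯ Fk)
  choose u hu using fun y : b => h.surj (bk y)
  have hli : LinearIndependent QBar⟮(f : F)⟯ fun y => (u y : F) := by
    refine linearIndependent_adjoin hf fun p hp i => ?_
    by_contra hpi
    let J := Σ y : b, Fin ((p y).natDegree + 1)
    let c : J → QBar := fun j => (p j.1).coeff j.2
    -- A polynomial relation between the lifts, normalised, is integral with a coefficient one.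
    obtain ⟨j₀, h0, hA⟩ := exists_normalize (A := A) (c := c) ⟨⟨i, 0⟩, hpi⟩
    let q : b → A[X] := fun y =>
      ∑ m : Fin ((p y).natDegree + 1), C ⟨_, hA ⟨y, m⟩⟩ * X ^ (m : ℕ)
    have hq : ∀ y, (q y).map A.subtype = C (c j₀)⁻¹ * p y := fun y => by
      conv_rhs => rw [(p y).as_sum_range_C_mul_X_pow, Finset.mul_sum, Finset.sum_range]
      simp only [q, Polynomial.map_sum, Polynomial.map_mul, map_C, Polynomial.map_pow, map_X]
      refine Finset.sum_congr rfl fun m _ => ?_
      rw [← mul_assoc, ← C_mul]
      simp [c, div_eq_inv_mul]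
    have hev : ∀ y, ((eval₂RingHom (intConst h) f (q y) : h.S) : F) =
        algebraMap QBar F (c j₀)⁻¹ * aeval (f : F) (p y) := fun y => by
      have h1 : ((h.S).subtype.comp (eval₂RingHom (intConst h) f)) =
          (aeval (f : F)).toRingHom.comp (mapRingHom A.subtype) :=
        Polynomial.ringHom_ext (fun a => by simp [coe_intConst]) (by simp)
      have h2 := RingHom.congr_fun h1 (q y)
      simp only [RingHom.comp_apply, coe_mapRingHom, AlgHom.toRingHom_eq_coe, RingHom.coe_coe,
        Subring.subtype_apply] at h2
      rw [h2, hq, map_mul, aeval_C]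
    have hsum : ∑ y, eval₂RingHom (intConst h) f (q y) * u y = 0 := by
      refine Subtype.ext ?_
      rw [AddSubmonoidClass.coe_finsetSum, ZeroMemClass.coe_zero]
      simp only [MulMemClass.coe_mul, hev, mul_assoc, ← Finset.mul_sum, hp, mul_zero]
    -- Its reduction is a relation between the basis, so all coefficients reduce to zero.
    have hred := congrArg (redF h) hsum
    rw [map_sum, map_zero] at hred
    have hev' : ∀ y, redF h (eval₂RingHom (intConst h) f (q y)) =
        aeval x ((q y).map (residue A)) := fun y => by
      have h1 : (redF h).comp (eval₂RingHom (intConst h) f) =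
          (aeval x).toRingHom.comp (mapRingHom (residue A)) :=
        Polynomial.ringHom_ext (fun a => by simp [redF_intConst]) (by simp [x])
      exact RingHom.congr_fun h1 (q y)
    let d : b → (ResidueField A)⟮x⟯ := fun y => ⟨aeval x ((q y).map (residue A)),
      algebra_adjoin_le_adjoin _ _ (by
        rw [Algebra.adjoin_singleton_eq_range_aeval]; exact ⟨_, rfl⟩)⟩
    have hd0 : ∑ y, d y • bk y = 0 := by
      rw [← hred]
      refine Finset.sum_congr rfl fun y _ => ?_
      rw [map_mul, hev', show redF h (u y) = bk y from hu y, IntermediateField.smul_def,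
        smul_eq_mul]
    have h3 := congrArg Subtype.val
      (Fintype.linearIndependent_iff.mp bk.linearIndependent d hd0 j₀.1)
    have h4 : (q j₀.1).map (residue A) = 0 := by
      by_contra hne
      exact aeval_ne_zero hx hne h3
    have h5 := congrArg (fun r => Polynomial.coeff r (j₀.2 : ℕ)) h4
    simp only [q, Polynomial.map_sum, Polynomial.map_mul, map_C, Polynomial.map_pow, map_X,
      finsetSum_coeff, coeff_C_mul, coeff_X_pow, Fin.val_inj, mul_ite, mul_one, mul_zero,
      Finset.sum_ite_eq, Finset.mem_univ, if_true, coeff_zero] at h5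
    have he : (⟨_, hA ⟨j₀.1, j₀.2⟩⟩ : A) = 1 := Subtype.ext (div_self h0)
    rw [he, map_one] at h5
    exact one_ne_zero h5
  simpa [b] using hli.fintype_card_le_finrank

end Fermat.Agent.FiniteFlat
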