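import Fermat.Agent.FiniteFlat.RedSpace
import Fermat.Agent.RedTorsion.PolesOrbits

/-!
# Reduction of divisors

For a function field with good reduction, the supremum of the polar divisors of
the reduced Riemann–Roch space gives the reduction of effective divisors of large degree. It is
additive, hence induced by a map of places, which is compatible with divisors of functions.

The map of divisors is `redDiv`; the last theorems are `redDiv_div`, `redW_riemannRochSpace` and
`genusFF_eq_of_goodRed`.
-/

set_option autoImplicit false

noncomputable section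

open IsLocalRing AlgebraicCurve
open Fermat.Agent.Arith Fermat.Agent.FF Fermat.Agent.RedTorsion

namespace Fermat.Agent.FiniteFlat

open scoped Classical

/-! ### Polar divisors of spaces -/

section Generic

variable {K E : Type*} [Field K] [Field E] [Algebra K E] [IsFunctionField K E] [IsAlgClosed K]

/-- The least divisor bounding the poles of the elements of a finite-dimensional space. -/
def poleSup (W : Submodule K E) [FiniteDimensional K W] : Divisor K E :=
  Finsupp.onFinset (Finset.univ.biUnion fun i => (finite_support (K := K)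
      ((Module.finBasis K W i : W) : E)).toFinset)
    (fun v => ((Finset.univ.sup fun i => (-v.ord ((Module.finBasis K W i : W) : E)).toNat : ℕ) : ℤ))
    fun v hv => by
      obtain ⟨i, -, hi⟩ : ∃ i ∈ Finset.univ,
          (-v.ord ((Module.finBasis K W i : W) : E)).toNat ≠ 0 := by
        by_contra! hall
        exact hv (Nat.cast_eq_zero.mpr (Nat.le_zero.mp (Finset.sup_le fun i hi => (hall i hi).le)))
      exact Finset.mem_biUnion.mpr
        ⟨i, Finset.mem_univ i, (Set.Finite.mem_toFinset _).mpr (show v.ord _ ≠ 0 from
          fun h0 => hi (by rw [h0]; rfl))⟩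

omit [IsAlgClosed K] in
theorem poleSup_nonneg (W : Submodule K E) [FiniteDimensional K W] : 0 ≤ poleSup W :=
  Finsupp.le_def.mpr fun v => by simp [poleSup]

omit [IsAlgClosed K] in
theorem le_poleSup (W : Submodule K E) [FiniteDimensional K W] :
    W ≤ riemannRochSpace (poleSup W) := by
  intro f hf
  have hb : ∀ i, ((Module.finBasis K W i : W) : E) ∈ riemannRochSpace (poleSup W) := fun i => by
    rw [mem_riemannRochSpace']
    intro v
    refine mem_ordGe_of_le v ?_
    have h1 : (-v.ord ((Module.finBasis K W i : W) : E)).toNat ≤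
        Finset.univ.sup fun i => (-v.ord ((Module.finBasis K W i : W) : E)).toNat :=
      Finset.le_sup (f := fun i => (-v.ord ((Module.finBasis K W i : W) : E)).toNat)
        (Finset.mem_univ i)
    simp only [poleSup, Finsupp.onFinset_apply]
    omega
  have := congrArg Subtype.val ((Module.finBasis K W).sum_repr ⟨f, hf⟩)
  change _ = f at this
  rw [← this, AddSubmonoidClass.coe_finsetSum]
  exact Submodule.sum_mem _ fun i _ => Submodule.smul_mem _ _ (hb i)

theorem exists_poles_ge_poleSup (W : Submodule K E) [FiniteDimensional K W] :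
    ∃ f ∈ W, poleSup W ≤ poles K f := by
  obtain ⟨f, hf, hfn⟩ := exists_exact W (poleSup W).support (fun v => -poleSup W v + 1)
    fun v hv => by
      by_contra! hall
      have hv' : poleSup W v ≠ 0 := Finsupp.mem_support_iff.mp hv
      simp only [poleSup, Finsupp.onFinset_apply, ne_eq, Nat.cast_eq_zero] at hv'
      obtain ⟨i, -, hi⟩ := Finset.exists_mem_eq_sup Finset.univ
        (Finset.univ_nonempty_iff.mpr (by
          by_contra hne
          rw [not_nonempty_iff] at hne
          exact hv' (by simp))) fun i => (-v.ord ((Module.finBasis K W i : W) : E)).toNat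
      have h1 := hall _ (Module.finBasis K W i).2
      rcases eq_or_ne ((Module.finBasis K W i : W) : E) 0 with h0 | h0
      · rw [hi, h0] at hv'
        simp at hv'
      have h2 := le_ord_of_mem_ordGe v h0 h1
      simp only [poleSup, Finsupp.onFinset_apply] at h2
      rw [hi] at h2 hv'
      omega
  refine ⟨f, hf, Finsupp.le_def.mpr fun v => ?_⟩
  rcases eq_or_ne (poleSup W v) 0 with h0 | h0
  · simp [h0]
  · have h1 : v.ord f < -poleSup W v + 1 :=
      not_le.mp fun e => hfn v (Finsupp.mem_support_iff.mpr h0) (mem_ordGe_of_le v e)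
    rw [poles_apply]
    omega

/-- If `D ≤ D'` and `deg D' ≤ deg D` then `D = D'`. -/
theorem eq_of_le_of_degree_le {D D' : Divisor K E} (h : D ≤ D')
    (hd : Divisor.degree D' ≤ Divisor.degree D) : D = D' := by
  have h1 : 0 ≤ D' - D := sub_nonneg.mpr h
  have h2 : Divisor.degree (D' - D) ≤ 0 := by rw [map_sub]; omega
  rw [degree_eq_sum _ _ subset_rfl] at h2
  simp only [deg_eq_one, Nat.cast_one, mul_one] at h2
  refine (sub_eq_zero.mp (Finsupp.ext fun v => ?_)).symm
  by_contra hv
  have := Finset.single_le_sum (f := fun w => (D' - D) w) (fun w _ => Finsupp.le_def.mp h1 w)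
    (Finsupp.mem_support_iff.mpr hv)
  have h3 := Finsupp.le_def.mp h1 v
  simp only [Finsupp.coe_zero, Pi.zero_apply] at hv h3
  omega

omit [IsFunctionField K E] [IsAlgClosed K] in
theorem exists_single_le {D : Divisor K E} (hD : 0 ≤ D) (h : D ≠ 0) :
    ∃ v, Finsupp.single v 1 ≤ D := by
  obtain ⟨v, hv⟩ := Finsupp.ne_iff.mp h
  refine ⟨v, Finsupp.le_def.mpr fun w => ?_⟩
  have h1 := Finsupp.le_def.mp hD w
  simp only [Finsupp.coe_zero, Pi.zero_apply] at hv h1
  rcases eq_or_ne w v with rfl | hw
  · rw [Finsupp.single_eq_same]; omega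
  · rwa [Finsupp.single_eq_of_ne hw]

theorem eq_single_of_degree_eq_one {D : Divisor K E} (hD : 0 ≤ D) (h : Divisor.degree D = 1) :
    ∃ v, D = Finsupp.single v 1 := by
  obtain ⟨v, hv⟩ := exists_single_le hD fun e => by simp [e] at h
  exact ⟨v, (eq_of_le_of_degree_le hv (by rw [h, FF.degree_single_one])).symm⟩

/-- Induction on effective divisors. -/
theorem effective_induction {p : Divisor K E → Prop} (h0 : p 0)
    (hs : ∀ v D, 0 ≤ D → p D → p (Finsupp.single v 1 + D)) {D : Divisor K E} (hD : 0 ≤ D) :
    p D := by
  obtain ⟨n, hn⟩ : ∃ n : ℕ, Divisor.degree D = n :=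
    ⟨_, (Int.toNat_of_nonneg (degree_nonneg hD)).symm⟩
  induction n generalizing D with
  | zero => rwa [← eq_of_le_of_degree_le hD (by simp [hn])]
  | succ n ih =>
    obtain ⟨v, hv⟩ := exists_single_le hD fun e => by
      rw [e, map_zero] at hn
      omega
    have := hs v (D - Finsupp.single v 1) (sub_nonneg.mpr hv)
      (ih (sub_nonneg.mpr hv) (by rw [map_sub, hn, FF.degree_single_one]; push_cast; ring))
    rwa [add_sub_cancel] at this

omit [IsAlgClosed K] in
/-- Multiplication by `g` carries the Riemann–Roch space of `D` onto that of `D - div g`. -/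
theorem map_mulRight_riemannRochSpace {g : E} (hg : g ≠ 0) (D : Divisor K E) :
    (riemannRochSpace D).map (LinearMap.mulRight K g) = riemannRochSpace (D - div K g) := by
  ext f
  constructor
  · rintro ⟨a, ha, rfl⟩
    rw [mem_riemannRochSpace']
    intro v
    refine ordGe_anti v ?_ (mul_mem_ordGe v (mem_riemannRochSpace'.mp ha v)
      (mem_ordGe_of_le v (le_refl (v.ord g))))
    rw [Finsupp.sub_apply, div_apply]
    omega
  · intro hf
    refine ⟨f * g⁻¹, mem_riemannRochSpace'.mpr fun v => ?_, by simp [hg]⟩
    refine ordGe_anti v ?_ (mul_mem_ordGe v (mem_riemannRochSpace'.mp hf v)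
      (mem_ordGe_of_le v (v.ord_inv g).ge))
    rw [Finsupp.sub_apply, div_apply]
    omega

omit [IsAlgClosed K] in
/-- A nonzero constant factor does not change the divisor. -/
theorem div_smul {c : K} (hc : c ≠ 0) {f : E} (hf : f ≠ 0) : div K (c • f) = div K f := by
  rw [Algebra.smul_def, FF.div_mul ((map_ne_zero _).mpr hc) hf]
  ext v
  simp [ord_algebraMap]

end Generic

variable {A : ValuationSubring QBar} {F : Type*} [Field F] [Algebra QBar F]
  {Fk : Type*} [Field Fk] [Algebra (ResidueField A) Fk]
  [IsFunctionField QBar F] [IsFunctionField (ResidueField A) Fk]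
  (h : GoodRed A F Fk)

scoped instance isAlgClosed_residueField (A : ValuationSubring QBar) :
    IsAlgClosed (ResidueField A) :=
  residueField_isAlgClosed A

instance finiteDimensional_redW (W : Submodule QBar F) [FiniteDimensional QBar W] :
    FiniteDimensional (ResidueField A) (redW h.toRedLattice W) :=
  (finrank_redW h.toRedLattice W).1

omit [IsFunctionField (ResidueField ↥A) Fk] in
theorem ell_eq_finrank_redW (D : Divisor QBar F) :
    ell QBar D = Module.finrank (ResidueField A) (redW h.toRedLattice (riemannRochSpace D)) := by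
  rw [(finrank_redW h.toRedLattice _).2]
  rfl

/-! ### Effective divisors of large degree -/

/-- The reduction of an effective divisor of large degree. -/
def rho (D : Divisor QBar F) : Divisor (ResidueField A) Fk :=
  poleSup (redW h.toRedLattice (riemannRochSpace D))

include h in
theorem degree_rho_le {D : Divisor QBar F} (hD : 0 ≤ D) :
    Divisor.degree (rho h D) ≤ Divisor.degree D := by
  obtain ⟨_, ⟨f, hf, rfl⟩, hle⟩ :=
    exists_poles_ge_poleSup (redW h.toRedLattice (riemannRochSpace D))
  refine (degree_mono hle).trans ?_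
  by_cases hx : IsAlgebraic (ResidueField A) (redF h.toRedLattice f)
  · rw [show poles (ResidueField A) (redF h.toRedLattice f) = 0 from Finsupp.ext fun v => by
      simp [ord_eq_zero_of_isAlgebraic hx v], map_zero]
    exact degree_nonneg hD
  · obtain ⟨hft, hfin⟩ := finrank_adjoin_redF_le h.toRedLattice f hx
    rw [degree_poles hx]
    refine le_trans (Int.ofNat_le.mpr hfin) ?_
    rw [← degree_poles hft]
    refine degree_mono (Finsupp.le_def.mpr fun v => ?_)
    have hf0 : (f : F) ≠ 0 := fun e => hft (e ▸ isAlgebraic_zero)
    have h1 := le_ord_of_mem_ordGe v hf0 (mem_riemannRochSpace'.mp hf v)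
    have h2 := Finsupp.le_def.mp hD v
    simp only [Finsupp.coe_zero, Pi.zero_apply] at h2
    rw [poles_apply]
    omega

theorem exists_degree_threshold : ∃ T : ℤ, 1 ≤ T ∧
    (∀ D : Divisor QBar F, T ≤ Divisor.degree D →
      ell QBar D = Divisor.degree D + 1 - genusFF QBar F) ∧
    (∀ D : Divisor (ResidueField A) Fk, T ≤ Divisor.degree D →
      ell (ResidueField A) D = Divisor.degree D + 1 - genusFF (ResidueField A) Fk) := by
  obtain ⟨c, hc1, hc⟩ := exists_threshold (K := QBar) (F := F)
  obtain ⟨d, hd1, hd⟩ := exists_threshold (K := ResidueField A) (F := Fk)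
  exact ⟨max c d, hc1.trans (le_max_left _ _),
    fun D hD => hc D ((le_max_left _ _).trans hD),
    fun D hD => hd D ((le_max_right _ _).trans hD)⟩

/-- A degree from which on Riemann–Roch spaces are non-special on both curves. -/
def rrBound (_h : GoodRed A F Fk) : ℤ :=
  (exists_degree_threshold (A := A) (F := F) (Fk := Fk)).choose

/-- The Riemann–Roch bound is positive. -/
theorem one_le_rrBound : 1 ≤ rrBound h :=
  (exists_degree_threshold (A := A) (F := F) (Fk := Fk)).choose_spec.1

/-- Above the bound Riemann–Roch is exact upstairs. -/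
theorem ell_eq_of_rrBound_le {D : Divisor QBar F} (hD : rrBound h ≤ Divisor.degree D) :
    ell QBar D = Divisor.degree D + 1 - genusFF QBar F :=
  (exists_degree_threshold (A := A) (F := F) (Fk := Fk)).choose_spec.2.1 D hD

/-- Above the bound Riemann–Roch is exact on the reduced curve. -/
theorem ell_eq_of_rrBound_le' {D : Divisor (ResidueField A) Fk}
    (hD : rrBound h ≤ Divisor.degree D) :
    ell (ResidueField A) D = Divisor.degree D + 1 - genusFF (ResidueField A) Fk :=
  (exists_degree_threshold (A := A) (F := F) (Fk := Fk)).choose_spec.2.2 D hD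

/-- A degree from which on reduction of divisors is well behaved. -/
def bigDeg : ℤ := 3 * rrBound h + 2 + genusFF QBar F

/-- The big degree exceeds the bound plus the genus. -/
theorem rrBound_lt_bigDeg : rrBound h + genusFF QBar F < bigDeg h := by
  have := one_le_rrBound h
  unfold bigDeg
  omega

/-- The big degree is at least three times the bound plus two. -/
theorem three_le_bigDeg : 3 * rrBound h + 2 ≤ bigDeg h := by
  unfold bigDeg
  omega

theorem rho_spec {D : Divisor QBar F} (hD : 0 ≤ D) (hdeg : bigDeg h ≤ Divisor.degree D) :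
    genusFF (ResidueField A) Fk = genusFF QBar F ∧
      Divisor.degree (rho h D) = Divisor.degree D ∧
      redW h.toRedLattice (riemannRochSpace D) = riemannRochSpace (rho h D) := by
  have hb := rrBound_lt_bigDeg h
  have hle := le_poleSup (redW h.toRedLattice (riemannRochSpace D))
  have h1 : ell QBar D ≤ ell (ResidueField A) (rho h D) := by
    rw [ell_eq_finrank_redW h D]
    exact Int.ofNat_le.mpr (Submodule.finrank_mono hle)
  have h2 := ell_eq_of_rrBound_le h (D := D) (by omega)
  have h3 := degree_rho_le h hD
  have h4 : rrBound h ≤ Divisor.degree (rho h D) := by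
    have := ell_le_degree_add_one (poleSup_nonneg (redW h.toRedLattice (riemannRochSpace D)))
    rw [← rho] at this
    omega
  have h5 := ell_eq_of_rrBound_le' h h4
  have hg : (genusFF QBar F : ℤ) ≤ genusFF (ResidueField A) Fk := Int.ofNat_le.mpr h.genus_le
  refine ⟨by omega, by omega, Submodule.eq_of_le_of_finrank_le hle ?_⟩
  have h6 : ell (ResidueField A) (rho h D) ≤
      Module.finrank (ResidueField A) (redW h.toRedLattice (riemannRochSpace D)) := by
    rw [← ell_eq_finrank_redW h D]; omega
  unfold ell at h6
  exact_mod_cast h6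

theorem rho_mono {D E : Divisor QBar F} (hD : 0 ≤ D) (hdeg : bigDeg h ≤ Divisor.degree D)
    (hle : D ≤ E) : rho h D ≤ rho h E := by
  obtain ⟨-, hd, he⟩ := rho_spec h hD hdeg
  obtain ⟨-, -, he'⟩ := rho_spec h (hD.trans hle) (hdeg.trans (degree_mono hle))
  have hb := rrBound_lt_bigDeg h
  exact le_of_riemannRochSpace_le (fun _ => ell_eq_of_rrBound_le' h) (by omega)
    (he ▸ he' ▸ redW_mono h.toRedLattice (riemannRochSpace_mono hle))

theorem rho_add {D E : Divisor QBar F} (hD : 0 ≤ D) (hE : 0 ≤ E)
    (hdD : bigDeg h ≤ Divisor.degree D) (hdE : bigDeg h ≤ Divisor.degree E) :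
    rho h (D + E) = rho h D + rho h E := by
  have hT := one_le_rrBound h
  have hb := three_le_bigDeg h
  obtain ⟨-, hd, he⟩ := rho_spec h hD hdD
  obtain ⟨-, hd', he'⟩ := rho_spec h hE hdE
  obtain ⟨-, hd'', he''⟩ := rho_spec h (add_nonneg hD hE) (by rw [map_add]; omega)
  refine (eq_of_le_of_degree_le (le_of_riemannRochSpace_le (fun _ => ell_eq_of_rrBound_le' h)
    (by rw [map_add]; omega) ?_) (by rw [hd'', map_add, map_add, hd, hd'])).symm
  rw [← riemannRochSpace_mul hT (fun _ => ell_eq_of_rrBound_le' h) (by omega) (by omega), ← he,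
    ← he', ← he'']
  exact (redW_mul_le h.toRedLattice _ _).trans
    (redW_mono h.toRedLattice (riemannRochSpace_mul_le D E))

-- `h` is unused here but keeps `basePlace` a function of the reduction
set_option linter.unusedSectionVars false in
include h in
theorem nonempty_place : Nonempty (Place QBar F) := (infinite_place (K := QBar) (F := F)).nonempty

/-- An auxiliary place. -/
def basePlace : Place QBar F := (nonempty_place h).some

/-- An auxiliary multiple of a place. -/
def aux : Divisor QBar F := Finsupp.single (basePlace h) (bigDeg h)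

theorem aux_nonneg : 0 ≤ aux h := Finsupp.le_def.mpr fun v => by
  have := one_le_rrBound h
  have := three_le_bigDeg h
  rcases eq_or_ne v (basePlace h) with rfl | hv
  · rw [aux, Finsupp.single_eq_same, Finsupp.coe_zero, Pi.zero_apply]; omega
  · rw [aux, Finsupp.single_eq_of_ne hv, Finsupp.coe_zero, Pi.zero_apply]

/-- The auxiliary divisor has the big degree. -/
theorem degree_aux : Divisor.degree (aux h) = bigDeg h := FF.degree_single_one _ _

/-! ### The reduction of places and divisors -/

/-- The reduction of an effective divisor. -/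
def rEff (D : Divisor QBar F) : Divisor (ResidueField A) Fk := rho h (D + aux h) - rho h (aux h)

theorem rEff_add {D E : Divisor QBar F} (hD : 0 ≤ D) (hE : 0 ≤ E) :
    rEff h (D + E) = rEff h D + rEff h E := by
  have hA := aux_nonneg h
  have hdA := degree_aux h
  have e1 : rho h (D + aux h + (E + aux h)) = rho h (D + aux h) + rho h (E + aux h) :=
    rho_add h (add_nonneg hD hA) (add_nonneg hE hA)
      (by rw [map_add, hdA]; exact le_add_of_nonneg_left (degree_nonneg hD))
      (by rw [map_add, hdA]; exact le_add_of_nonneg_left (degree_nonneg hE))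
  have e2 : rho h (D + E + aux h + aux h) = rho h (D + E + aux h) + rho h (aux h) :=
    rho_add h (add_nonneg (add_nonneg hD hE) hA) hA
      (by rw [map_add, hdA]; exact le_add_of_nonneg_left (degree_nonneg (add_nonneg hD hE)))
      hdA.ge
  have e3 : D + aux h + (E + aux h) = D + E + aux h + aux h := by abel
  rw [e3, e2] at e1
  unfold rEff
  rw [eq_sub_of_add_eq e1]
  abel

theorem rEff_eq_rho {D : Divisor QBar F} (hD : 0 ≤ D) (hdeg : bigDeg h ≤ Divisor.degree D) :
    rEff h D = rho h D := by
  rw [rEff, rho_add h hD (aux_nonneg h) hdeg (degree_aux h).ge, add_sub_cancel_right]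

theorem exists_redPlace (P : Place QBar F) :
    ∃ Q : Place (ResidueField A) Fk, rEff h (Finsupp.single P 1) = Finsupp.single Q 1 := by
  have hA := aux_nonneg h
  have hP : (0 : Divisor QBar F) ≤ Finsupp.single P 1 := Finsupp.le_def.mpr fun v => by
    rcases eq_or_ne v P with rfl | hv <;> simp [*]
  refine eq_single_of_degree_eq_one (sub_nonneg.mpr
    (rho_mono h hA (degree_aux h).ge (le_add_of_nonneg_left hP))) ?_
  rw [rEff, map_sub, (rho_spec h hA (degree_aux h).ge).2.1,
    (rho_spec h (add_nonneg hP hA) (by rw [map_add, degree_aux, FF.degree_single_one]; omega)).2.1,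
    map_add, FF.degree_single_one]
  omega

/-- The reduction of places. -/
def redPlace (P : Place QBar F) : Place (ResidueField A) Fk := (exists_redPlace h P).choose

/-- The reduction of divisors. -/
def redDiv : Divisor QBar F →+ Divisor (ResidueField A) Fk :=
  Finsupp.mapDomain.addMonoidHom (redPlace h)

/-- `redDiv` moves each coefficient to the reduced place. -/
theorem redDiv_apply (D : Divisor QBar F) : redDiv h D = Finsupp.mapDomain (redPlace h) D := rfl

/-- The reduction of a multiple of a place is that multiple of the reduced place. -/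
theorem redDiv_single (P : Place QBar F) (n : ℤ) :
    redDiv h (Finsupp.single P n) = Finsupp.single (redPlace h P) n := Finsupp.mapDomain_single

/-- Reduction preserves degrees. -/
theorem degree_redDiv (D : Divisor QBar F) :
    Divisor.degree (redDiv h D) = Divisor.degree D := by
  induction D using Finsupp.induction with
  | zero => simp
  | single_add v n E _ _ ih =>
    rw [map_add, map_add, map_add, ih, redDiv_single, FF.degree_single_one, FF.degree_single_one]

/-- Reduction preserves effectivity. -/
theorem redDiv_nonneg {D : Divisor QBar F} (hD : 0 ≤ D) : 0 ≤ redDiv h D := by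
  refine effective_induction (p := fun D => 0 ≤ redDiv h D) (by simp) (fun v D _ ih => ?_) hD
  rw [map_add, redDiv_single]
  refine add_nonneg (Finsupp.le_def.mpr fun w => ?_) ih
  rcases eq_or_ne w (redPlace h v) with rfl | hw <;> simp [*]

theorem redDiv_eq_rEff {D : Divisor QBar F} (hD : 0 ≤ D) : redDiv h D = rEff h D := by
  refine effective_induction (p := fun D => redDiv h D = rEff h D) ?_ (fun v D hD' ih => ?_) hD
  · simp [rEff]
  · have hv : (0 : Divisor QBar F) ≤ Finsupp.single v 1 := Finsupp.le_def.mpr fun w => by
      rcases eq_or_ne w v with rfl | hw <;> simp [*]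
    rw [map_add, rEff_add h hv hD', ih, redDiv_single]
    exact congrArg (· + _) (exists_redPlace h v).choose_spec.symm

theorem redW_riemannRochSpace_of_nonneg {D : Divisor QBar F} (hD : 0 ≤ D)
    (hdeg : bigDeg h ≤ Divisor.degree D) :
    redW h.toRedLattice (riemannRochSpace D) = riemannRochSpace (redDiv h D) := by
  rw [(rho_spec h hD hdeg).2.2, redDiv_eq_rEff h hD, rEff_eq_rho h hD hdeg]

/-! ### Functions and Riemann–Roch spaces -/

omit [IsFunctionField (ResidueField ↥A) Fk] in
/-- Multiplication by a lattice element `g` carries the reduced space of `Q` into that of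
`Q - div g`. -/
theorem map_mulRight_redW_le (g : h.S) (hg0 : (g : F) ≠ 0) (Q : Divisor QBar F) :
    (redW h.toRedLattice (riemannRochSpace Q)).map
        (LinearMap.mulRight _ (redF h.toRedLattice g)) ≤
      redW h.toRedLattice (riemannRochSpace (Q - div QBar (g : F))) := by
  rintro _ ⟨_, ⟨f, hf, rfl⟩, rfl⟩
  refine ⟨f * g, ?_, map_mul _ _ _⟩
  rw [← map_mulRight_riemannRochSpace hg0]
  exact ⟨f, hf, rfl⟩

/-- Reduction of the divisor of a primitive function. -/
theorem redDiv_div (g : h.S) (hg : redF h.toRedLattice g ≠ 0) :
    redDiv h (div QBar (g : F)) = div (ResidueField A) (redF h.toRedLattice g) := by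
  have hg0 : (g : F) ≠ 0 := fun e => hg (by
    rw [show g = 0 from Subtype.ext e, map_zero])
  set P : Divisor QBar F := poles QBar (g : F) + aux h with hPdef
  set Q : Divisor QBar F := P + div QBar (g : F) with hQdef
  have hPn : 0 ≤ P := add_nonneg (poles_nonneg _) (aux_nonneg h)
  have hQn : 0 ≤ Q := by
    rw [hQdef, hPdef]
    refine Finsupp.le_def.mpr fun v => ?_
    have := Finsupp.le_def.mp (aux_nonneg h) v
    simp only [Finsupp.coe_zero, Pi.zero_apply] at this
    simp only [Finsupp.coe_zero, Pi.zero_apply, Finsupp.add_apply, poles_apply, div_apply]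
    omega
  have hPd : bigDeg h ≤ Divisor.degree P := by
    rw [hPdef, map_add, degree_aux]
    exact le_add_of_nonneg_left (degree_nonneg (poles_nonneg _))
  have hQd : Divisor.degree Q = Divisor.degree P := by
    rw [hQdef, map_add, degree_div, add_zero]
  have hb := rrBound_lt_bigDeg h
  have hle := map_mulRight_redW_le h g hg0 Q
  rw [hQdef, add_sub_cancel_right, ← hQdef] at hle
  rw [redW_riemannRochSpace_of_nonneg h hQn (hQd ▸ hPd), redW_riemannRochSpace_of_nonneg h hPn hPd,
    map_mulRight_riemannRochSpace hg] at hle
  have heq := eq_of_le_of_degree_le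
    (le_of_riemannRochSpace_le (fun _ => ell_eq_of_rrBound_le' h)
      (by rw [map_sub, degree_redDiv, degree_div]; omega) hle)
    (by rw [map_sub, degree_redDiv, degree_redDiv, degree_div, hQd, sub_zero])
  rw [hQdef, map_add] at heq
  rw [add_sub_assoc, add_eq_left, sub_eq_zero] at heq
  exact heq

/-- Reduction of the Riemann–Roch space of any divisor of large degree. -/
theorem redW_riemannRochSpace {D : Divisor QBar F} (hdeg : bigDeg h ≤ Divisor.degree D) :
    redW h.toRedLattice (riemannRochSpace D) = riemannRochSpace (redDiv h D) := by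
  have hb := rrBound_lt_bigDeg h
  have hT := one_le_rrBound h
  have hell := ell_eq_of_rrBound_le h (D := D) (by omega)
  obtain ⟨f, hf, hfD⟩ := exists_ne_zero_of_ell_pos (D := D) (by omega)
  obtain ⟨c, g, hc, hg, rfl⟩ := exists_primitive h.toRedLattice hf
  have hg0 : (g : F) ≠ 0 := fun e => hf (by simp [e])
  rw [div_smul hc hg0] at hfD
  have hdeg' : bigDeg h ≤ Divisor.degree (D + div QBar (g : F)) := by
    rwa [map_add, degree_div, add_zero]
  have hle := map_mulRight_redW_le h g hg0 (D + div QBar (g : F))
  rw [add_sub_cancel_right] at hle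
  rw [redW_riemannRochSpace_of_nonneg h hfD hdeg', map_mulRight_riemannRochSpace hg, map_add,
    redDiv_div h g hg, add_sub_cancel_right] at hle
  refine (Submodule.eq_of_le_of_finrank_le hle ?_).symm
  have e1 := ell_eq_finrank_redW h D
  have e2 := ell_eq_of_rrBound_le' h (D := redDiv h D) (by rw [degree_redDiv]; omega)
  have e3 := (rho_spec h hfD hdeg').1
  rw [degree_redDiv] at e2
  unfold ell at e1 e2 hell
  omega

/-- Reduction sends poles to poles when it keeps their degree. -/
theorem redDiv_poles_of_degree (g : h.S) (hg : redF h.toRedLattice g ≠ 0)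
    (hdeg : Divisor.degree (poles QBar (g : F)) =
      Divisor.degree (poles (ResidueField A) (redF h.toRedLattice g))) :
    redDiv h (poles QBar (g : F)) = poles (ResidueField A) (redF h.toRedLattice g) := by
  have hz : 0 ≤ redDiv h (poles QBar (g : F)) +
      div (ResidueField A) (redF h.toRedLattice g) := by
    rw [← redDiv_div h g hg, ← map_add]
    refine redDiv_nonneg h (Finsupp.le_def.mpr fun v => ?_)
    simp only [Finsupp.coe_zero, Pi.zero_apply, Finsupp.add_apply, poles_apply, div_apply]
    omega
  refine (eq_of_le_of_degree_le (Finsupp.le_def.mpr fun v => ?_)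
    (by rw [degree_redDiv, hdeg])).symm
  have h1 := Finsupp.le_def.mp hz v
  have h2 := Finsupp.le_def.mp (redDiv_nonneg h (poles_nonneg (K := QBar) (g : F))) v
  simp only [Finsupp.coe_zero, Pi.zero_apply, Finsupp.add_apply, div_apply] at h1 h2
  rw [poles_apply]
  omega

include h in
/-- Good reduction keeps the genus. -/
theorem genusFF_eq_of_goodRed : genusFF (ResidueField A) Fk = genusFF QBar F :=
  (rho_spec h (aux_nonneg h) (degree_aux h).ge).1

end Fermat.Agent.FiniteFlat
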