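import Fermat.Agent.FiniteFlat.Reduction
import Mathlib.LinearAlgebra.Matrix.ToLin
import Mathlib.LinearAlgebra.Matrix.NonsingularInverse

/-!
# Families of functions with coordinates in a ring of functions on a finite set

For a ring `R` of functions with values in `A` on a finite set `Ω`, sections are families of
functions which are `R`-combinations of lattice elements. Elements of `R` with unit values are
invertible, so linear algebra with invertible reduction stays inside `R`.
-/

set_option autoImplicit false

noncomputable section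

open IsLocalRing Matrix
open Fermat.Agent.Arith Fermat.Agent.FF

namespace Fermat.Agent.FiniteFlat

variable {A : ValuationSubring QBar} {Ω : Type*}

/-- The residue field, as a chosen section of the residue map. -/
def liftRes (A : ValuationSubring QBar) : ResidueField A → A :=
  Function.surjInv residue_surjective

/-- The chosen lift of a residue has that residue. -/
theorem residue_liftRes (a : ResidueField A) : residue A (liftRes A a) = a :=
  Function.surjInv_eq residue_surjective a

section Values

variable (R : Subalgebra A (Ω → QBar))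

/-- Functions with values in `A`. -/
def HasIntValues : Prop := ∀ r : R, ∀ ω, (r : Ω → QBar) ω ∈ A

/-- Evaluation in `ℚ̄`. -/
def evalQ (ω : Ω) : R →+* QBar := (Pi.evalRingHom (fun _ => QBar) ω).comp R.val.toRingHom

theorem evalQ_apply (ω : Ω) (r : R) : evalQ R ω r = (r : Ω → QBar) ω := rfl

variable {R} (hR : HasIntValues R)

/-- Evaluation in `A`. -/
def evalA' (ω : Ω) : R →+* A := (evalQ R ω).codRestrict A.toSubring fun r => hR r ω

/-- Evaluation in the residue field. -/
def resAt (ω : Ω) : R →+* ResidueField A := (residue A).comp (evalA' hR ω)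

theorem coe_evalA' (ω : Ω) (r : R) : ((evalA' hR ω r : A) : QBar) = (r : Ω → QBar) ω := rfl

theorem resAt_algebraMap (ω : Ω) (a : A) : resAt hR ω (algebraMap A R a) = residue A a := by
  refine congrArg (residue A) (Subtype.ext ?_)
  rw [coe_evalA']
  rfl

include hR in
theorem isUnit_of_resAt_ne_zero [Finite Ω] (r : R) (hr : ∀ ω, resAt hR ω r ≠ 0) : IsUnit r := by
  classical
  have := Fintype.ofFinite Ω
  let P : Polynomial A := ∏ ω, (Polynomial.X - Polynomial.C (evalA' hR ω r))
  have hP : Polynomial.aeval r P = 0 := by
    refine Subtype.ext (funext fun ω => ?_)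
    simp only [P, map_prod, map_sub, Polynomial.aeval_X, Polynomial.aeval_C,
      SubmonoidClass.coe_finsetProd, AddSubgroupClass.coe_sub, Finset.prod_apply, Pi.sub_apply,
      ZeroMemClass.coe_zero, Pi.zero_apply]
    refine Finset.prod_eq_zero (Finset.mem_univ ω) ?_
    show (r : Ω → QBar) ω - ((evalA' hR ω r : A) : QBar) = 0
    rw [coe_evalA', sub_self]
  have h0 : IsUnit (P.coeff 0) := by
    rw [Polynomial.coeff_zero_prod]
    refine IsUnit.prod_iff.mpr fun ω _ => ?_
    simp only [Polynomial.coeff_sub, Polynomial.coeff_X_zero, Polynomial.coeff_C_zero, zero_sub,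
      IsUnit.neg_iff]
    exact (residue_ne_zero_iff_isUnit _).mp (hr ω)
  have h1 : r * Polynomial.aeval r P.divX = -algebraMap A R (P.coeff 0) := by
    rw [eq_neg_iff_add_eq_zero]
    have := congrArg (Polynomial.aeval r) (Polynomial.divX_mul_X_add P)
    rw [map_add, map_mul, Polynomial.aeval_X, Polynomial.aeval_C, hP] at this
    rwa [mul_comm]
  exact isUnit_of_mul_isUnit_left (h1 ▸ (h0.map (algebraMap A R)).neg)

variable {m n : Type*} [Fintype m] [Fintype n] [DecidableEq m] [DecidableEq n]

include hR in
/-- A matrix over the ring of families that reduces to one at every point is invertible. -/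
theorem isUnit_matrix [Finite Ω] (N : Matrix n n R) (hN : ∀ ω, N.map (resAt hR ω) = 1) :
    IsUnit N := by
  refine (Matrix.isUnit_iff_isUnit_det N).mpr (isUnit_of_resAt_ne_zero hR _ fun ω => ?_)
  rw [RingHom.map_det, RingHom.mapMatrix_apply, hN ω, Matrix.det_one]
  exact one_ne_zero

theorem map_inv_eq_one {S : Type*} [CommRing S] (f : R →+* S) {N : Matrix n n R} (hN : IsUnit N)
    (h1 : N.map f = 1) : N⁻¹.map f = 1 := by
  have h2 : (N * N⁻¹).map f = 1 := by
    rw [Matrix.mul_nonsing_inv _ ((Matrix.isUnit_iff_isUnit_det N).mp hN),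
      Matrix.map_one _ (map_zero _) (map_one _)]
  rwa [Matrix.map_mul, h1, Matrix.one_mul] at h2

/-- Constant matrices. -/
def constMat (M : Matrix m n (ResidueField A)) : Matrix m n R :=
  M.map fun a => algebraMap A R (liftRes A a)

omit [Fintype m] [Fintype n] [DecidableEq m] [DecidableEq n] in
/-- A constant matrix reduces to itself at every point. -/
theorem resAt_constMat (ω : Ω) (M : Matrix m n (ResidueField A)) :
    (constMat (R := R) M).map (resAt hR ω) = M := by
  ext i j
  simp [constMat, resAt_algebraMap, residue_liftRes]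

end Values

section Matrices

variable {K : Type*} [Field K] {m n : Type*} [Fintype m] [Fintype n] [DecidableEq m] [DecidableEq n]

/-- An injective matrix over a field has a left inverse. -/
theorem exists_left_inverse {U : Matrix m n K} (hU : Function.Injective U.mulVec) :
    ∃ L : Matrix n m K, L * U = 1 := by
  obtain ⟨g, hg⟩ := LinearMap.exists_leftInverse_of_injective U.mulVecLin
    (LinearMap.ker_eq_bot.mpr hU)
  refine ⟨LinearMap.toMatrix' g, ?_⟩
  apply Matrix.toLin'.injective
  rw [Matrix.toLin'_mul, Matrix.toLin'_toMatrix', Matrix.toLin'_one]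
  exact hg

/-- A matrix of rank `r` has an invertible `r × r` compression. -/
theorem exists_compression (M : Matrix m n K) :
    ∃ (r : ℕ) (P : Matrix (Fin r) m K) (Q : Matrix n (Fin r) K), P * M * Q = 1 ∧
      r + Module.finrank K (LinearMap.ker M.mulVecLin) = Fintype.card n := by
  set f := M.mulVecLin
  let e := LinearEquiv.ofFinrankEq (LinearMap.range f)
    (Fin (Module.finrank K (LinearMap.range f)) → K)
    (by rw [Module.finrank_fintype_fun_eq_card, Fintype.card_fin])
  obtain ⟨t, ht⟩ := LinearMap.exists_leftInverse_of_injective (LinearMap.range f).subtype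
    (Submodule.ker_subtype _)
  obtain ⟨s, hs⟩ := LinearMap.exists_rightInverse_of_surjective f.rangeRestrict
    f.range_rangeRestrict
  refine ⟨_, LinearMap.toMatrix' (e.toLinearMap.comp t),
    LinearMap.toMatrix' (s.comp e.symm.toLinearMap), ?_, ?_⟩
  · apply Matrix.toLin'.injective
    rw [Matrix.toLin'_mul, Matrix.toLin'_mul, Matrix.toLin'_toMatrix', Matrix.toLin'_toMatrix',
      Matrix.toLin'_one]
    refine LinearMap.ext fun y => ?_
    have h1 := congrArg Subtype.val (LinearMap.congr_fun hs (e.symm y))
    have h2 := LinearMap.congr_fun ht (e.symm y)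
    simp only [LinearMap.comp_apply, LinearEquiv.coe_coe, LinearMap.id_apply,
      Submodule.subtype_apply] at h1 h2 ⊢
    change f (s (e.symm y)) = _ at h1
    show e (t (f (s (e.symm y)))) = y
    rw [h1, h2, e.apply_symm_apply]
  · have := f.finrank_range_add_finrank_ker
    rwa [Module.finrank_fintype_fun_eq_card] at this

end Matrices

section Sections

variable {F Fk : Type*} [Field F] [Algebra QBar F] [Field Fk] [Algebra (ResidueField A) Fk]
  (h : RedLattice A F Fk) (R : Subalgebra A (Ω → QBar))

/-- Families with coordinates in `R`. -/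
def secs : AddSubmonoid (Ω → F) :=
  AddSubmonoid.closure {φ | ∃ r ∈ R, ∃ e : h.S, φ = fun ω => r ω • (e : F)}

variable {h R}

/-- A constant family with value in the lattice is a family of sections. -/
theorem const_mem_secs (e : h.S) : (fun _ => (e : F)) ∈ secs h R :=
  AddSubmonoid.subset_closure ⟨1, one_mem R, e, funext fun ω => by simp⟩

/-- The families of sections are closed under products. -/
theorem mul_mem_secs {φ ψ : Ω → F} (hφ : φ ∈ secs h R) (hψ : ψ ∈ secs h R) :
    φ * ψ ∈ secs h R := by
  induction hφ using AddSubmonoid.closure_induction with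
  | mem φ hφ =>
    obtain ⟨r, hr, e, rfl⟩ := hφ
    induction hψ using AddSubmonoid.closure_induction with
    | mem ψ hψ =>
      obtain ⟨r', hr', e', rfl⟩ := hψ
      exact AddSubmonoid.subset_closure ⟨r * r', mul_mem hr hr', e * e',
        funext fun ω => by
          simp only [Pi.mul_apply, MulMemClass.coe_mul]; exact smul_mul_smul_comm _ _ _ _⟩
    | zero => rw [mul_zero]; exact zero_mem _
    | add a b _ _ h1 h2 => rw [mul_add]; exact add_mem h1 h2
  | zero => rw [zero_mul]; exact zero_mem _
  | add a b _ _ h1 h2 => rw [add_mul]; exact add_mem h1 h2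

/-- Combinations of lattice elements with coefficients in `R` are families of sections. -/
theorem sum_mem_secs {ι : Type*} (s : Finset ι) (r : ι → R) (e : ι → h.S) :
    (fun ω => ∑ i ∈ s, (r i : Ω → QBar) ω • (e i : F)) ∈ secs h R := by
  have he : (fun ω => ∑ i ∈ s, (r i : Ω → QBar) ω • (e i : F)) =
      ∑ i ∈ s, fun ω => (r i : Ω → QBar) ω • (e i : F) :=
    funext fun ω => (Finset.sum_apply ω s fun i ω => (r i : Ω → QBar) ω • (e i : F)).symm
  rw [he]
  exact sum_mem fun i _ => AddSubmonoid.subset_closure ⟨_, (r i).2, e i, rfl⟩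

theorem exists_list {φ : Ω → F} (hφ : φ ∈ secs h R) :
    ∃ l : List (R × h.S), ∀ ω, φ ω = (l.map fun p => (p.1 : Ω → QBar) ω • (p.2 : F)).sum := by
  induction hφ using AddSubmonoid.closure_induction with
  | mem φ hφ =>
    obtain ⟨r, hr, e, rfl⟩ := hφ
    exact ⟨[(⟨r, hr⟩, e)], fun ω => by simp⟩
  | zero => exact ⟨[], fun ω => by simp⟩
  | add φ ψ _ _ h1 h2 =>
    obtain ⟨l, hl⟩ := h1
    obtain ⟨l', hl'⟩ := h2
    exact ⟨l ++ l', fun ω => by simp [hl ω, hl' ω]⟩

/-- Finitely many sections have coordinates in a common frame. -/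
theorem exists_frame_secs {ι : Type*} [Finite ι] (φ : ι → Ω → F) (hφ : ∀ i, φ i ∈ secs h R) :
    ∃ (d : ℕ) (v : Fin d → h.S) (P : Matrix (Fin d) ι R),
      LinearIndependent (ResidueField A) (fun a => redF h (v a)) ∧
      ∀ i ω, φ i ω = ∑ a, (P a i : Ω → QBar) ω • (v a : F) := by
  classical
  have := Fintype.ofFinite ι
  choose l hl using fun i => exists_list (hφ i)
  let T : Finset F := Finset.univ.biUnion fun i => ((l i).map fun p => (p.2 : F)).toFinset
  let W : Submodule QBar F := Submodule.span QBar (T : Set F)
  have : FiniteDimensional QBar W := FiniteDimensional.span_finset QBar T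
  obtain ⟨d, v, hvW, hli, -, hsp⟩ := exists_basis_lifts h W
  have hcard : Fintype.card (Fin d) = Module.finrank QBar W := by
    rw [← hsp, finrank_span_eq_card (linearIndependent_of_redF h v hli)]
  have hc : ∀ i, ∀ p ∈ l i, ∃ c : Fin _ → A, (p.2 : F) = ∑ a, (c a : QBar) • (v a : F) := by
    intro i p hp
    have hpW : (p.2 : F) ∈ W := Submodule.subset_span (Finset.mem_biUnion.mpr
      ⟨i, Finset.mem_univ i, List.mem_toFinset.mpr (List.mem_map.mpr ⟨p, hp, rfl⟩)⟩)
    obtain ⟨c, hc, hcA⟩ := exists_coords h v hvW hli hcard hpW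
    exact ⟨fun a => ⟨c a, hcA p.2.2 a⟩, hc⟩
  choose c hc using hc
  refine ⟨_, v, fun a i => ((l i).attach.map fun p => p.1.1 * algebraMap A R (c i p.1 p.2 a)).sum,
    hli, fun i ω => ?_⟩
  rw [hl i ω]
  have key : ∀ L : List {p // p ∈ l i},
      (L.map fun p => (p.1.1 : Ω → QBar) ω • (p.1.2 : F)).sum =
        ∑ a, ((L.map fun p => p.1.1 * algebraMap A R (c i p.1 p.2 a)).sum : R).1 ω • (v a : F) := by
    intro L
    induction L with
    | nil => simp
    | cons p L ih =>
      simp only [List.map_cons, List.sum_cons]
      rw [ih, hc i p.1 p.2, Finset.smul_sum, ← Finset.sum_add_distrib]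
      refine Finset.sum_congr rfl fun a _ => ?_
      rw [smul_smul, ← add_smul]
      rfl
  rw [← key, List.attach_map_val (f := fun p : R × h.S => (p.1 : Ω → QBar) ω • (p.2 : F))]

end Sections

end Fermat.Agent.FiniteFlat
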