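import Fermat.Agent.FiniteFlat.Equivariant
import Fermat.Agent.FiniteFlat.PlaceReduction
import Fermat.Agent.JacTorsion.Main

/-!
# Effective divisors in translated torsion classes

For a base divisor `T` with non-special translated reduced classes, each torsion class `x` has a
unique effective divisor in `x + T`; it is compatible with Galois and with reduction.
-/

set_option autoImplicit false

noncomputable section

open IsLocalRing ModularCurve AlgebraicCurve
open Fermat.Agent.Arith Fermat.Agent.FF Fermat.Agent.EichlerShimura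

namespace Fermat.Agent.FiniteFlat

-- elaboration speed only: these candidates make instance search on the reduced field very slow
attribute [-instance] IsLocalRing.ResidueField.algebraOfIsIntegral RingHom.Finite.instFinite
  IsScalarTower.of_algHom
  SetLike.GradeZero.instSemiring SetLike.GradeZero.instCommSemiring SetLike.GradeZero.instCommRing
  SetLike.GradeZero.instRing SetLike.GradeZero.instMonoid
  SetLike.GradeZero.instAlgebraSubtypeMemOfNat
attribute [local instance 10000] SubalgebraClass.toAlgebra IntermediateField.instSMulMemClass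

section Classes

variable {K E : Type*} [Field K] [Field E] [Algebra K E] [IsFunctionField K E]

/-- Linear equivalence of divisors. -/
def LinEquiv (D D' : Divisor K E) : Prop := ∃ f : E, f ≠ 0 ∧ D = D' + div K f

theorem LinEquiv.refl (D : Divisor K E) : LinEquiv D D :=
  ⟨1, one_ne_zero, by rw [FF.div_one, add_zero]⟩

theorem LinEquiv.symm {D D' : Divisor K E} (h : LinEquiv D D') : LinEquiv D' D := by
  obtain ⟨f, hf, rfl⟩ := h
  exact ⟨f⁻¹, inv_ne_zero hf, by rw [FF.div_inv]; abel⟩

theorem LinEquiv.trans {D D' D'' : Divisor K E} (h : LinEquiv D D') (h' : LinEquiv D' D'') :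
    LinEquiv D D'' := by
  obtain ⟨f, hf, rfl⟩ := h
  obtain ⟨g, hg, rfl⟩ := h'
  exact ⟨g * f, mul_ne_zero hg hf, by rw [FF.div_mul hg hf, add_assoc]⟩

theorem LinEquiv.add {D D' C C' : Divisor K E} (h : LinEquiv D D') (h' : LinEquiv C C') :
    LinEquiv (D + C) (D' + C') := by
  obtain ⟨f, hf, rfl⟩ := h
  obtain ⟨g, hg, rfl⟩ := h'
  exact ⟨f * g, mul_ne_zero hf hg, by rw [FF.div_mul hf hg]; abel⟩

theorem LinEquiv.sub {D D' C C' : Divisor K E} (h : LinEquiv D D') (h' : LinEquiv C C') :
    LinEquiv (D - C) (D' - C') := by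
  obtain ⟨f, hf, rfl⟩ := h
  obtain ⟨g, hg, rfl⟩ := h'
  exact ⟨f * g⁻¹, mul_ne_zero hf (inv_ne_zero hg), by
    rw [FF.div_mul hf (inv_ne_zero hg), FF.div_inv]; abel⟩

theorem LinEquiv.smul {D D' : Divisor K E} (h : LinEquiv D D') (g : SemilinearAut K E) :
    LinEquiv (g • D) (g • D') := by
  obtain ⟨f, hf, rfl⟩ := h
  exact ⟨g • f, (smul_ne_zero_iff_ne g).mpr hf, by rw [smul_add, EichlerShimura.smul_div]⟩

theorem LinEquiv.ell_eq [IsAlgClosed K] {D D' : Divisor K E} (h : LinEquiv D D') :
    ell K D = ell K D' := by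
  obtain ⟨f, hf, rfl⟩ := h
  rw [ell_add_div hf]

theorem linEquiv_of_mk_eq {D D' : Divisor.degZero (K := K) (F := E)}
    (h : Pic0.mk D = Pic0.mk D') : LinEquiv (D : Divisor K E) D' := by
  have h1 : D - D' ∈ (Divisor.principal (K := K) (F := E)).addSubgroupOf
      (Divisor.degZero (K := K) (F := E)) := QuotientAddGroup.eq_iff_sub_mem.mp h
  obtain ⟨f, hf, hD⟩ := AddSubgroup.mem_addSubgroupOf.mp h1
  refine ⟨f, hf, ?_⟩
  have e : ((D - D' : Divisor.degZero (K := K) (F := E)) : Divisor K E) = div K f :=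
    Finsupp.ext fun v => by rw [hD v, div_apply]
  rw [AddSubgroupClass.coe_sub] at e
  rw [← e]; abel

theorem mk_eq_of_linEquiv {D D' : Divisor.degZero (K := K) (F := E)}
    (h : LinEquiv (D : Divisor K E) D') : Pic0.mk D = Pic0.mk D' := by
  obtain ⟨f, hf, hD⟩ := h
  refine QuotientAddGroup.eq_iff_sub_mem.mpr (AddSubgroup.mem_addSubgroupOf.mpr ⟨f, hf,
    fun v => ?_⟩)
  rw [AddSubgroupClass.coe_sub, hD, add_sub_cancel_left, div_apply]

end Classes

theorem LinEquiv.redDiv {A : ValuationSubring QBar} {F : Type*} [Field F] [Algebra QBar F]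
    {Fk : Type*} [Field Fk] [Algebra (ResidueField A) Fk]
    [IsFunctionField QBar F] [IsFunctionField (ResidueField A) Fk] {h : GoodRed A F Fk}
    {D D' : Divisor QBar F} (hD : LinEquiv D D') :
    LinEquiv (FiniteFlat.redDiv h D) (FiniteFlat.redDiv h D') := by
  obtain ⟨f, hf, rfl⟩ := hD
  obtain ⟨c, g, hc, hg, hfg⟩ := exists_primitive h.toRedLattice hf
  have hg0 : (g : F) ≠ 0 := fun e => hg (by rw [show g = 0 from Subtype.ext e, map_zero])
  exact ⟨_, hg, by rw [map_add, hfg, div_smul hc hg0, redDiv_div h g hg]⟩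

/-- The `n`-torsion points of `J₀(N)`. -/
def TorsPt (N n : ℕ) [NeZero N] : Type := Pic0.torsion QBar (modularFunctionFieldBar N) n

section Points

variable {N n : ℕ} [NeZero N]

instance : AddCommGroup (TorsPt N n) :=
  inferInstanceAs (AddCommGroup (Pic0.torsion QBar (modularFunctionFieldBar N) n))

/-- The inclusion of the torsion points. -/
def TorsPt.incl : TorsPt N n →+ JZero N :=
  (Pic0.torsion QBar (modularFunctionFieldBar N) n).subtype

/-- The inclusion of the torsion points in `J₀(N)` is injective. -/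
theorem TorsPt.incl_injective : Function.Injective (TorsPt.incl : TorsPt N n →+ JZero N) :=
  Subtype.val_injective

theorem TorsPt.incl_torsion (x : TorsPt N n) : (n : ℤ) • TorsPt.incl x = 0 :=
  Pic0.mem_torsion.mp (Subtype.prop (x : Pic0.torsion QBar (modularFunctionFieldBar N) n))

instance : DistribMulAction GQ (TorsPt N n) where
  smul σ x := (⟨σ • TorsPt.incl x, SemilinearAut.smul_mem_torsion (galF N σ)
    (Subtype.prop (x : Pic0.torsion QBar (modularFunctionFieldBar N) n))⟩ :
      Pic0.torsion QBar (modularFunctionFieldBar N) n)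
  one_smul x := Subtype.ext (one_smul GQ (TorsPt.incl x))
  mul_smul σ τ x := Subtype.ext (mul_smul σ τ (TorsPt.incl x))
  smul_zero σ := Subtype.ext (smul_zero σ)
  smul_add σ x y := Subtype.ext (smul_add σ (TorsPt.incl x) (TorsPt.incl y))

theorem TorsPt.incl_smul (σ : GQ) (x : TorsPt N n) :
    TorsPt.incl (σ • x) = σ • TorsPt.incl x := rfl

instance [NeZero n] : Finite (TorsPt N n) := by
  show Finite (Pic0.torsion QBar (modularFunctionFieldBar N) n)
  have : FF.IsFunctionField QBar (modularFunctionFieldBar N) := ModFun.isFunctionField_bar _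
  exact JacTorsion.finite_torsion_JZero N n

/-- A divisor of degree zero in the class of a torsion point. -/
def TorsPt.rep (x : TorsPt N n) : Divisor QBar (modularFunctionFieldBar N) :=
  ((Pic0.mk_surjective (TorsPt.incl x)).choose).1

theorem TorsPt.degree_rep (x : TorsPt N n) : Divisor.degree x.rep = 0 :=
  Divisor.mem_degZero.mp ((Pic0.mk_surjective (TorsPt.incl x)).choose).2

theorem TorsPt.mk_rep (x : TorsPt N n) :
    Pic0.mk ⟨x.rep, Divisor.mem_degZero.mpr x.degree_rep⟩ = TorsPt.incl x :=
  (Pic0.mk_surjective (TorsPt.incl x)).choose_spec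

variable [IsFunctionField QBar (modularFunctionFieldBar N)]

theorem TorsPt.rep_add (x y : TorsPt N n) : LinEquiv (x + y).rep (x.rep + y.rep) := by
  let D : Divisor.degZero (K := QBar) (F := modularFunctionFieldBar N) :=
    ⟨x.rep, Divisor.mem_degZero.mpr x.degree_rep⟩ + ⟨y.rep, Divisor.mem_degZero.mpr y.degree_rep⟩
  refine linEquiv_of_mk_eq (D' := D)
    (D := ⟨(x + y).rep, Divisor.mem_degZero.mpr (x + y).degree_rep⟩) ?_
  rw [TorsPt.mk_rep, map_add, ← TorsPt.mk_rep x, ← TorsPt.mk_rep y]
  rfl

theorem TorsPt.rep_smul (σ : GQ) (x : TorsPt N n) : LinEquiv (σ • x).rep (galF N σ • x.rep) := by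
  refine linEquiv_of_mk_eq (D' := ⟨galF N σ • x.rep,
      SemilinearAut.smul_mem_degZero _ (Divisor.mem_degZero.mpr x.degree_rep)⟩)
    (D := ⟨(σ • x).rep, Divisor.mem_degZero.mpr (σ • x).degree_rep⟩) ?_
  rw [TorsPt.mk_rep, TorsPt.incl_smul, ← TorsPt.mk_rep x]
  rfl

theorem TorsPt.eq_of_linEquiv {x y : TorsPt N n} (h : LinEquiv x.rep y.rep) : x = y := by
  refine TorsPt.incl_injective ?_
  rw [← TorsPt.mk_rep x, ← TorsPt.mk_rep y]
  exact mk_eq_of_linEquiv h

variable {A : ValuationSubring QBar}
  [IsFunctionField (ResidueField A) (modularFunctionFieldFullC (ResidueField A) N)]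
  {hNA : (N : ResidueField A) ≠ 0}

/-- The reduction of torsion points. -/
def TorsPt.red (A : ValuationSubring QBar) :
    TorsPt N n →+ JZeroC (ResidueField A) N :=
  (reductionModL A N).comp TorsPt.incl

theorem TorsPt.red_eq [NeZero n] (hNA : (N : ResidueField A) ≠ 0) (x : TorsPt N n) :
    TorsPt.red A x = Pic0.mk ⟨redDiv (goodRed (A := A) (N := N) hNA) x.rep,
      Divisor.mem_degZero.mpr (by rw [degree_redDiv]; exact x.degree_rep)⟩ := by
  show reductionModL A N (TorsPt.incl x) = _
  rw [← TorsPt.mk_rep x]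
  exact reductionModL_mk_of_torsion (seriesCompat hNA)
    (EichlerShimura.principalGeneratedByIntegral hNA) _ (NeZero.ne n)
    (by rw [TorsPt.mk_rep]; exact x.incl_torsion)

theorem TorsPt.red_linEquiv [NeZero n] {x y : TorsPt N n}
    (h : TorsPt.red A x = TorsPt.red A y) :
    LinEquiv (redDiv (goodRed (A := A) (N := N) hNA) x.rep)
    (redDiv (goodRed (A := A) (N := N) hNA) y.rep) := by
  rw [TorsPt.red_eq hNA, TorsPt.red_eq hNA] at h
  exact linEquiv_of_mk_eq h

/-- A base divisor: all translated reduced classes are non-special. -/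
def IsBase (Φ : Ambient (goodRed (A := A) (N := N) hNA)) (n : ℕ)
    (T : Divisor QBar (modularFunctionFieldBar N)) : Prop :=
  Φ.Small T ∧ ∀ x : TorsPt N n,
    ell (ResidueField A) (redDiv (goodRed (A := A) (N := N) hNA) (x.rep + T)) = 1

open Classical in
/-- The effective divisor in the class `x + T`. -/
def famDiv (T : Divisor QBar (modularFunctionFieldBar N)) (x : TorsPt N n) :
    Divisor QBar (modularFunctionFieldBar N) :=
  if h : ∃ D, 0 ≤ D ∧ LinEquiv D (x.rep + T) then h.choose else 0

variable {Φ : Ambient (goodRed (A := A) (N := N) hNA)}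
    {T : Divisor QBar (modularFunctionFieldBar N)}

/-- The family divisor is small and linearly equivalent to `x + T`. -/
theorem famDiv_spec (hT : IsBase Φ n T) (x : TorsPt N n) :
    Φ.Small (famDiv T x) ∧ LinEquiv (famDiv T x) (x.rep + T) := by
  have hd : Divisor.degree (x.rep + T) = genusFF QBar (modularFunctionFieldBar N) := by
    rw [map_add, x.degree_rep, hT.1.2, zero_add]
  have h : ∃ D, 0 ≤ D ∧ LinEquiv D (x.rep + T) := by
    obtain ⟨f, hf, hf'⟩ := exists_ne_zero_of_ell_pos
      (lt_of_lt_of_le zero_lt_one (one_le_ell_of_degree_eq_genus hd))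
    exact ⟨_, hf', f, hf, rfl⟩
  unfold famDiv
  rw [dif_pos h]
  obtain ⟨h0, f, hf, he⟩ := h.choose_spec
  exact ⟨⟨h0, by rw [he, map_add, degree_div, hd, add_zero]⟩, f, hf, he⟩

theorem famDiv_unique (hT : IsBase Φ n T) {x : TorsPt N n}
    {D : Divisor QBar (modularFunctionFieldBar N)} (hD : 0 ≤ D) (h : LinEquiv D (x.rep + T)) :
    D = famDiv T x := by
  obtain ⟨hs, he⟩ := famDiv_spec hT x
  obtain ⟨f, hf, hDf⟩ := h.trans he.symm
  refine eq_of_ell_eq_one hs.1 hD (le_antisymm ?_ ?_) hDf
  · rw [he.ell_eq]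
    exact (ell_le_ell_redDiv (goodRed (A := A) (N := N) hNA) _).trans_eq (hT.2 x)
  · exact one_le_ell_of_degree_eq_genus hs.2

theorem ell_redDiv_famDiv (hT : IsBase Φ n T) (x : TorsPt N n) :
    ell (ResidueField A) (redDiv (goodRed (A := A) (N := N) hNA) (famDiv T x)) = 1 := by
  rw [(famDiv_spec hT x).2.redDiv.ell_eq]
  exact hT.2 x

/-- Torsion points with equal reductions have family divisors with equal reductions. -/
theorem redDiv_famDiv_eq [NeZero n] (hT : IsBase Φ n T) {x y : TorsPt N n}
    (h : TorsPt.red A x = TorsPt.red A y) :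
    redDiv (goodRed (A := A) (N := N) hNA) (famDiv T x) = redDiv (goodRed (A := A) (N := N) hNA)
    (famDiv T y) := by
  have hxy : LinEquiv (redDiv (goodRed (A := A) (N := N) hNA) (famDiv T x))
      (redDiv (goodRed (A := A) (N := N) hNA) (famDiv T y)) := by
    refine (famDiv_spec hT x).2.redDiv.trans
      (LinEquiv.trans ?_ (famDiv_spec hT y).2.redDiv.symm)
    rw [map_add, map_add]
    exact (TorsPt.red_linEquiv h).add (LinEquiv.refl _)
  obtain ⟨f, hf, he⟩ := hxy
  exact eq_of_ell_eq_one (redDiv_nonneg _ (famDiv_spec hT y).1.1)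
    (redDiv_nonneg _ (famDiv_spec hT x).1.1) (ell_redDiv_famDiv hT y) he

theorem famDiv_add (hT : IsBase Φ n T) (x y : TorsPt N n) :
    LinEquiv (famDiv T (x + y)) (famDiv T x + famDiv T y - T) := by
  have h1 := (((famDiv_spec hT x).2.add (famDiv_spec hT y).2).sub (LinEquiv.refl T)).symm
  refine (famDiv_spec hT (x + y)).2.trans (LinEquiv.trans ?_ h1)
  have e : x.rep + T + (y.rep + T) - T = x.rep + y.rep + T := by abel
  rw [e]
  exact (TorsPt.rep_add x y).add (LinEquiv.refl T)

theorem galF_famDiv (hT : IsBase Φ n T) (σ : GQ)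
    (hT' : IsBase Φ n (galF N σ • T)) (x : TorsPt N n) :
    galF N σ • famDiv T x = famDiv (galF N σ • T) (σ • x) := by
  refine famDiv_unique hT' (small_galF Φ (famDiv_spec hT x).1 σ).1 ?_
  refine ((famDiv_spec hT x).2.smul (galF N σ)).trans ?_
  rw [smul_add]
  exact (TorsPt.rep_smul σ x).symm.add (LinEquiv.refl _)

theorem eq_of_famDiv_eq (hT : IsBase Φ n T) {x y : TorsPt N n} (h : famDiv T x = famDiv T y) :
    x = y := by
  refine TorsPt.eq_of_linEquiv ?_
  obtain ⟨f, hf, he⟩ := (famDiv_spec hT x).2.symm.trans (h ▸ (famDiv_spec hT y).2)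
  exact ⟨f, hf, add_right_cancel (b := T) (he.trans (by abel))⟩

end Points

end Fermat.Agent.FiniteFlat
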