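import Fermat.Agent.Arith.Precomp
import Fermat.Agent.FiniteFlat.TorsionClasses

/-!
# The lattice of functions on the torsion of `J₀(N)`

The algebra generated by the indicators of the reduction classes and the normalised coordinates
of the effective divisors in the classes `x + T` is a lattice compatible with the group law.

The lattice is `torsLattice`; it separates points (`torsLattice_separates`) and is compatible with
`torsLattice_neg` and `torsLattice_add`.
-/

set_option autoImplicit false

noncomputable section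

open IsLocalRing ModularCurve AlgebraicCurve
open Fermat.Agent.Arith Fermat.Agent.FF Fermat.Agent.EichlerShimura

namespace Fermat.Agent.FiniteFlat

-- elaboration speed only: these candidates make instance search on the reduced field very slow
attribute [-instance] IsLocalRing.ResidueField.algebraOfIsIntegral RingHom.Finite.instFinite
  IsScalarTower.of_algHom
  SetLike.GradeZero.instSemiring SetLike.GradeZero.instCommSemiring SetLike.GradeZero.instCommRing
  SetLike.GradeZero.instRing SetLike.GradeZero.instMonoid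
  SetLike.GradeZero.instAlgebraSubtypeMemOfNat
attribute [local instance 10000] SubalgebraClass.toAlgebra IntermediateField.instSMulMemClass
  DFunLike.toCoeFun AddMonoidHom.instFunLike

/-! ### Functions of two variables -/

section Functions

variable {A : ValuationSubring QBar}

/-- A function which agrees with an element of the algebra on each fibre lies in the algebra. -/
theorem mem_of_fibrewise {X K : Type*} [Finite X] {P : Subalgebra A (X → QBar)} (cl : X → K)
    [DecidableEq K] (hind : ∀ p₀ : X, (fun p => if cl p = cl p₀ then (1 : QBar) else 0) ∈ P)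
    {g : X → QBar} (h : ∀ p₀, ∃ g' ∈ P, ∀ p, cl p = cl p₀ → g p = g' p) : g ∈ P := by
  classical
  have := Fintype.ofFinite X
  rcases isEmpty_or_nonempty X with hX | hX
  · rw [show g = 0 from funext fun p => (hX.false p).elim]
    exact zero_mem P
  choose g' hg' hgp using h
  have e : g = ∑ q ∈ Finset.univ.image cl,
      (fun p => if cl p = cl (Function.invFun cl q) then (1 : QBar) else 0) *
        g' (Function.invFun cl q) := by
    funext p
    rw [Finset.sum_apply, Finset.sum_eq_single (cl p)]
    · have h1 : cl (Function.invFun cl (cl p)) = cl p := Function.invFun_eq ⟨p, rfl⟩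
      rw [Pi.mul_apply, if_pos h1.symm, one_mul]
      exact hgp _ p h1.symm
    · intro q hq hne
      obtain ⟨p', -, rfl⟩ := Finset.mem_image.mp hq
      have h1 : cl (Function.invFun cl (cl p')) = cl p' := Function.invFun_eq ⟨p', rfl⟩
      rw [Pi.mul_apply, if_neg (fun e => hne (h1.symm.trans e.symm)), zero_mul]
    · exact fun h => absurd (Finset.mem_image_of_mem cl (Finset.mem_univ p)) h
  rw [e]
  exact sum_mem fun q _ => mul_mem (hind _) (hg' _)

/-- The algebra of functions of two variables spanned by products. -/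
def tensorSq {M : Type} (S : Subalgebra A (M → QBar)) : Subalgebra A (M × M → QBar) :=
  S.map (precomp A Prod.fst) ⊔ S.map (precomp A Prod.snd)

theorem exists_sum_of_mem_tensorSq {M : Type} {S : Subalgebra A (M → QBar)} {F : M × M → QBar}
    (hF : F ∈ tensorSq S) : ∃ (n : ℕ) (a b : Fin n → (M → QBar)),
      (∀ i, a i ∈ S) ∧ (∀ i, b i ∈ S) ∧ ∀ x y, F (x, y) = ∑ i, a i x * b i y :=
  exists_sum_of_mem_precomp_sup hF

end Functions

variable {N n : ℕ} [NeZero N] [IsFunctionField QBar (modularFunctionFieldBar N)]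
  {A : ValuationSubring QBar}
  [IsFunctionField (ResidueField A) (modularFunctionFieldFullC (ResidueField A) N)]
  {hNA : (N : ResidueField A) ≠ 0}

/-! ### The lattice -/

open Classical in
/-- The indicator of a reduction class. -/
def classInd (A : ValuationSubring QBar) (x₀ : TorsPt N n) : TorsPt N n → QBar :=
  fun x => if TorsPt.red A x = TorsPt.red A x₀ then 1 else 0

/-- A normalised coordinate of the effective divisors in `x + T`. -/
def famCoord (Φ : Ambient (goodRed (A := A) (N := N) hNA))
    (T : Divisor QBar (modularFunctionFieldBar N))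
    (J : Finset (Fin Φ.n))
    (j i : Fin Φ.n) : TorsPt N n → QBar :=
  fun x => Φ.coord (famDiv T x) J j i

/-- The generators of the lattice. -/
def latticeGens (Φ : Ambient (goodRed (A := A) (N := N) hNA))
    (Ts : Set (Divisor QBar (modularFunctionFieldBar N))) (n : ℕ) :
    Set (TorsPt N n → QBar) :=
  {f | ∃ x₀, f = classInd A x₀} ∪ {f | ∃ T ∈ Ts, ∃ J j i, f = famCoord Φ T J j i}

/-- The lattice. -/
def torsLattice (Φ : Ambient (goodRed (A := A) (N := N) hNA))
    (Ts : Set (Divisor QBar (modularFunctionFieldBar N))) (n : ℕ) :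
    Subalgebra A (TorsPt N n → QBar) :=
  Algebra.adjoin A (latticeGens Φ Ts n)

variable {Φ : Ambient (goodRed (A := A) (N := N) hNA)}
    {Ts : Set (Divisor QBar (modularFunctionFieldBar N))}
  (hTs : ∀ T ∈ Ts, IsBase Φ n T)

theorem classInd_mem (x₀ : TorsPt N n) : classInd A x₀ ∈ torsLattice Φ Ts n :=
  Algebra.subset_adjoin (Or.inl ⟨x₀, rfl⟩)

theorem famCoord_mem {T : Divisor QBar (modularFunctionFieldBar N)} (hT : T ∈ Ts)
    (J : Finset (Fin Φ.n)) (j i : Fin Φ.n) :
    famCoord Φ T J j i ∈ torsLattice Φ Ts n :=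
  Algebra.subset_adjoin (Or.inr ⟨T, hT, J, j, i, rfl⟩)

theorem torsLattice_int {f : TorsPt N n → QBar} (hf : f ∈ torsLattice Φ Ts n) (x : TorsPt N n) :
    f x ∈ A := by
  induction hf using Algebra.adjoin_induction with
  | mem f hf =>
    rcases hf with ⟨x₀, rfl⟩ | ⟨T, -, J, j, i, rfl⟩
    · unfold classInd; split_ifs
      exacts [one_mem A, zero_mem A]
    · exact Ambient.coord_mem _ J j i
  | algebraMap c => exact c.2
  | add f g _ _ hf hg => exact add_mem hf hg
  | mul f g _ _ hf hg => exact mul_mem hf hg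

variable [NeZero n]

include hTs in
theorem torsLattice_congr {f : TorsPt N n → QBar} (hf : f ∈ torsLattice Φ Ts n)
    {x y : TorsPt N n} (hxy : TorsPt.red A x = TorsPt.red A y) : f x - f y ∈ A.nonunits := by
  have h0 : (0 : QBar) ∈ A.nonunits := by
    simp
  induction hf using Algebra.adjoin_induction with
  | mem f hf =>
    rcases hf with ⟨x₀, rfl⟩ | ⟨T, hT, J, j, i, rfl⟩
    · rw [show classInd A x₀ x = classInd A x₀ y by simp only [classInd]; rw [hxy], sub_self]
      exact h0
    · exact residue_eq_iff.mp (Ambient.residue_coord_eq (famDiv_spec (hTs T hT) x).1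
        (famDiv_spec (hTs T hT) y).1 (redDiv_famDiv_eq (hTs T hT) hxy) j i)
  | algebraMap c =>
    rw [show algebraMap A (TorsPt N n → QBar) c x - algebraMap A (TorsPt N n → QBar) c y = 0 from
      sub_self _]
    exact h0
  | add f g _ _ hf hg =>
    rw [Pi.add_apply, Pi.add_apply, add_sub_add_comm]
    exact nonunits_add hf hg
  | mul f g hf' hg' hf hg =>
    rw [Pi.mul_apply, Pi.mul_apply,
      show f x * g x - f y * g y = f x * (g x - g y) + (f x - f y) * g y by ring]
    exact nonunits_add (nonunits_mul_left (torsLattice_int hf' x) hg)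
      (nonunits_mul_right hf (torsLattice_int hg' y))

include hTs in
theorem torsLattice_separates (hne : Ts.Nonempty) {x y : TorsPt N n}
    (h : ∀ f ∈ torsLattice Φ Ts n, f x = f y) : x = y := by
  obtain ⟨T, hT⟩ := hne
  have hxy : TorsPt.red A x = TorsPt.red A y := by
    have h1 := h _ (classInd_mem y)
    by_contra hne
    simp [classInd, hne] at h1
  refine eq_of_famDiv_eq (hTs T hT) ?_
  exact Ambient.eq_of_coord_eq (famDiv_spec (hTs T hT) x).1 (famDiv_spec (hTs T hT) y).1
    (redDiv_famDiv_eq (hTs T hT) hxy) fun J j i => h _ (famCoord_mem hT J j i)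

/-! ### Compatibility with the group law -/

/-- The restriction of an algebra of functions to a fibre. -/
def onFibre {X K : Type} (P : Subalgebra A (X → QBar)) (cl : X → K) (p₀ : X) :
    Subalgebra A ({p // cl p = cl p₀} → QBar) :=
  P.map (precomp A Subtype.val)

include hTs in
theorem group_op_mem {X K : Type} [Finite X] [DecidableEq K] {P : Subalgebra A (X → QBar)}
    (hint : ∀ f ∈ P, ∀ p, f p ∈ A) (cl : X → K)
    (hind : ∀ p₀ : X, (fun p => if cl p = cl p₀ then (1 : QBar) else 0) ∈ P)
    {T : Divisor QBar (modularFunctionFieldBar N)} (hT : T ∈ Ts) (a b c z : X → TorsPt N n)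
    (habc : ∀ p, z p = a p + b p - c p)
    (hcl : ∀ p q, cl p = cl q → TorsPt.red A (a p) = TorsPt.red A (a q) ∧
      TorsPt.red A (b p) = TorsPt.red A (b q) ∧ TorsPt.red A (c p) = TorsPt.red A (c q))
    (ha : ∀ J j i, (fun p => famCoord Φ T J j i (a p)) ∈ P)
    (hb : ∀ J j i, (fun p => famCoord Φ T J j i (b p)) ∈ P)
    (hc : ∀ J j i, (fun p => famCoord Φ T J j i (c p)) ∈ P)
    (J : Finset (Fin Φ.n)) (j i : Fin Φ.n) :
    (fun p => famCoord Φ T J j i (z p)) ∈ P := by
  classical
  have hb' := hTs T hT
  refine mem_of_fibrewise cl hind fun p₀ => ?_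
  -- On each fibre of `cl` the three families are regular with constant reduction, so the family
  -- `a + b - c` is regular, hence has its coordinates in the ring of the fibre.
  let Ω := {p : X // cl p = cl p₀}
  have : Nonempty Ω := ⟨⟨p₀, rfl⟩⟩
  let R : Subalgebra A (Ω → QBar) := onFibre P cl p₀
  have hR : HasIntValues R := by
    rintro ⟨_, f, hf, rfl⟩ ω
    show precomp A Subtype.val f ω ∈ A
    rw [precomp_apply]
    exact hint f hf _
  have hcR : ∀ (w : X → TorsPt N n), (∀ J j i, (fun p => famCoord Φ T J j i (w p)) ∈ P) →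
      (∀ p, cl p = cl p₀ → TorsPt.red A (w p) = TorsPt.red A (w p₀)) →
      IsReg (goodRed (A := A) (N := N) hNA) R (fun ω : Ω => Φ.E - famDiv T (w ω.1))
        (redDiv (goodRed (A := A) (N := N) hNA) Φ.E - redDiv (goodRed (A := A) (N := N) hNA)
            (famDiv T (w p₀))) := by
    intro w hw hwcl
    refine Ambient.isReg_of_coord_mem (fun ω => (famDiv_spec hb' _).1)
      (fun ω => redDiv_famDiv_eq hb' (hwcl _ ω.2)) fun J j i => ⟨_, hw J j i, ?_⟩
    exact funext fun ω => precomp_apply (R := A) _ _ _
  have hza : ∀ p, cl p = cl p₀ → TorsPt.red A (z p) = TorsPt.red A (z p₀) := fun p hp => by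
    obtain ⟨h1, h2, h3⟩ := hcl p p₀ hp
    rw [habc, habc]
    simp only [map_sub, map_add, h1, h2, h3]
  have hkey : ∀ p, LinEquiv (famDiv T (z p))
      (famDiv T (a p) + famDiv T (b p) - famDiv T (c p)) := by
    intro p
    have h1 := famDiv_add hb' (z p) (c p)
    have h2 := famDiv_add hb' (a p) (b p)
    rw [show z p + c p = a p + b p by rw [habc]; abel] at h1
    obtain ⟨f, hf, he⟩ := h1.symm.trans h2
    exact ⟨f, hf, by
      have e1 : famDiv T (z p) = (famDiv T (z p) + famDiv T (c p) - T) - famDiv T (c p) + T := by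
        abel
      rw [e1, he]; abel⟩
  obtain ⟨D, hD, hDreg⟩ := IsReg.exists_op (h := goodRed (A := A) (N := N) hNA)
    (R := R) hR Φ.big
    (X := fun ω : Ω => famDiv T (a ω.1)) (Y := fun ω : Ω => famDiv T (b ω.1))
    (T := fun ω : Ω => famDiv T (c ω.1))
    (Db := redDiv (goodRed (A := A) (N := N) hNA) (famDiv T (z p₀)))
    (fun ω => (famDiv_spec hb' _).1.1) (fun ω => (famDiv_spec hb' _).1.2)
    (fun ω => (famDiv_spec hb' _).1.2) (fun ω => (famDiv_spec hb' _).1.2)
    (fun ω => redDiv_famDiv_eq hb' (hcl _ _ ω.2).1)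
    (fun ω => redDiv_famDiv_eq hb' (hcl _ _ ω.2).2.1)
    (fun ω => redDiv_famDiv_eq hb' (hcl _ _ ω.2).2.2)
    (hcR a ha fun p hp => (hcl p p₀ hp).1) (hcR b hb fun p hp => (hcl p p₀ hp).2.1)
    (hcR c hc fun p hp => (hcl p p₀ hp).2.2)
    (redDiv_nonneg _ (famDiv_spec hb' _).1.1) (ell_redDiv_famDiv hb' _)
    (by
      have h1 := (hkey p₀).redDiv (h := goodRed (A := A) (N := N) hNA)
      rwa [map_sub, map_add] at h1)
  have hDeq : ∀ ω, D ω = famDiv T (z ω.1) := fun ω => by
    obtain ⟨hD0, -, f, hf, he⟩ := hD ω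
    refine famDiv_unique hb' hD0 ?_
    exact (LinEquiv.trans ⟨f, hf, he⟩ (hkey ω.1).symm).trans (famDiv_spec hb' _).2
  obtain ⟨g', hg', he⟩ := Ambient.coord_mem_of_isReg hR
    (G := fun ω : Ω => famDiv T (z ω.1)) (Gb := redDiv (goodRed (A := A) (N := N) hNA)
      (famDiv T (z p₀)))
    (fun ω => (famDiv_spec hb' _).1) (fun ω => redDiv_famDiv_eq hb' (hza _ ω.2))
    (by simpa only [hDeq] using hDreg) J j i
  refine ⟨g', hg', fun p hp => ?_⟩
  have h1 : precomp A Subtype.val g' (⟨p, hp⟩ : Ω) = Φ.coord (famDiv T (z p)) J j i :=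
    congrFun he ⟨p, hp⟩
  rw [precomp_apply] at h1
  exact h1.symm

include hTs in
theorem torsLattice_neg :
    torsLattice Φ Ts n ≤ (torsLattice Φ Ts n).comap (precomp A fun x : TorsPt N n => -x) := by
  classical
  refine Algebra.adjoin_le ?_
  intro f hf
  show precomp A (fun x : TorsPt N n => -x) f ∈ torsLattice Φ Ts n
  rcases hf with ⟨x₀, rfl⟩ | ⟨T, hT, J, j, i, rfl⟩
  · have e : precomp A (fun x : TorsPt N n => -x) (classInd A x₀) = classInd A (-x₀) := by
      funext x
      simp only [precomp_apply, classInd, map_neg, neg_eq_iff_eq_neg]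
    exact e ▸ classInd_mem _
  · have e : precomp A (fun x : TorsPt N n => -x) (famCoord Φ T J j i) =
        fun x => famCoord Φ T J j i (-x) := funext fun x => precomp_apply _ _ _
    rw [e]
    have hconst : ∀ J j i, (fun _ : TorsPt N n => famCoord Φ T J j i (0 : TorsPt N n)) ∈
        torsLattice Φ Ts n := fun J j i => by
      have := (torsLattice Φ Ts n).algebraMap_mem
        (⟨_, Ambient.coord_mem (Φ := Φ) (famDiv T (0 : TorsPt N n)) J j i⟩ : A)
      exact this
    refine group_op_mem hTs (fun f hf => torsLattice_int hf) (TorsPt.red A) (fun x₀ => ?_) hT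
      (fun _ => 0) (fun _ => 0) id (fun x => -x) (fun x => by simp) (fun p q hpq => ?_)
      hconst hconst (fun J j i => famCoord_mem hT J j i) J j i
    · exact classInd_mem x₀
    · exact ⟨rfl, rfl, hpq⟩

include hTs in
theorem torsLattice_add :
    torsLattice Φ Ts n ≤
      (tensorSq (torsLattice Φ Ts n)).comap
        (precomp A fun p : TorsPt N n × TorsPt N n => p.1 + p.2) := by
  classical
  refine Algebra.adjoin_le ?_
  intro f hf
  show precomp A (fun p : TorsPt N n × TorsPt N n => p.1 + p.2) f ∈ tensorSq (torsLattice Φ Ts n)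
  set S := torsLattice Φ Ts n with hS
  have h1 : ∀ f ∈ S, (fun p : TorsPt N n × TorsPt N n => f p.1) ∈ tensorSq S := fun f hf =>
    (le_sup_left : S.map (precomp A Prod.fst) ≤ tensorSq S)
      ⟨f, hf, funext fun p => precomp_apply (R := A) _ _ _⟩
  have h2 : ∀ f ∈ S, (fun p : TorsPt N n × TorsPt N n => f p.2) ∈ tensorSq S := fun f hf =>
    (le_sup_right : S.map (precomp A Prod.snd) ≤ tensorSq S)
      ⟨f, hf, funext fun p => precomp_apply (R := A) _ _ _⟩
  -- The indicators of pairs of reduction classes lie in the tensor square.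
  let cl : TorsPt N n × TorsPt N n → JZeroC (ResidueField A) N × JZeroC (ResidueField A) N :=
    fun p => (TorsPt.red A p.1, TorsPt.red A p.2)
  have hind : ∀ p₀, (fun p => if cl p = cl p₀ then (1 : QBar) else 0) ∈ tensorSq S := fun p₀ => by
    have e : (fun p => if cl p = cl p₀ then (1 : QBar) else 0) =
        (fun p => classInd A p₀.1 p.1) * fun p => classInd A p₀.2 p.2 := funext fun p => by
      simp only [cl, Prod.mk.injEq, Pi.mul_apply, classInd]
      split_ifs <;> simp_all
    rw [e]
    exact mul_mem (h1 _ (classInd_mem _)) (h2 _ (classInd_mem _))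
  have hint : ∀ F ∈ tensorSq S, ∀ p, F p ∈ A := fun F hF p => by
    obtain ⟨m, a, b, ha, hb, h⟩ := exists_sum_of_mem_tensorSq hF
    rw [show p = (p.1, p.2) from rfl, h]
    exact sum_mem fun i _ => mul_mem (torsLattice_int (ha i) _) (torsLattice_int (hb i) _)
  -- An indicator composed with addition is constant on pairs of classes.
  rcases hf with ⟨x₀, rfl⟩ | ⟨T, hT, J, j, i, rfl⟩
  · refine mem_of_fibrewise cl hind fun p₀ => ⟨algebraMap A _
      ⟨classInd A x₀ (p₀.1 + p₀.2), torsLattice_int (classInd_mem (Φ := Φ) (Ts := Ts) x₀) _⟩,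
      (tensorSq S).algebraMap_mem _, fun p hp => ?_⟩
    simp only [cl, Prod.mk.injEq] at hp
    rw [precomp_apply, Pi.algebraMap_apply]
    show _ = classInd A x₀ (p₀.1 + p₀.2)
    simp only [classInd, map_add, hp.1, hp.2]
  -- A coordinate function: the group operation on coordinates.
  · rw [show precomp A (fun p : TorsPt N n × TorsPt N n => p.1 + p.2) (famCoord Φ T J j i) =
      fun p => famCoord Φ T J j i (p.1 + p.2) from funext fun p => precomp_apply _ _ _]
    refine group_op_mem hTs hint cl hind hT (fun p => p.1) (fun p => p.2) (fun _ => 0)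
      (fun p => p.1 + p.2) (fun p => by simp) (fun p q hpq => ?_)
      (fun J j i => h1 _ (famCoord_mem hT J j i)) (fun J j i => h2 _ (famCoord_mem hT J j i))
      (fun J j i => ?_) J j i
    · simp only [cl, Prod.mk.injEq] at hpq
      exact ⟨hpq.1, hpq.2, rfl⟩
    · exact (tensorSq S).algebraMap_mem
        (⟨_, Ambient.coord_mem (Φ := Φ) (famDiv T (0 : TorsPt N n)) J j i⟩ : A)

end Fermat.Agent.FiniteFlat
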