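import Fermat.Agent.FiniteFlat.TorsionLattice
import Fermat.Agent.FiniteFlat.OfLattice

/-!
# Galois orders on the torsion of `J₀(N)`

At a prime `l` not dividing `N` the `n`-torsion of `J₀(N)` carries a Galois order whose functions
are congruent on the classes of equal reduction, for every `n` (`exists_galOrder_torsion`):

1. An ambient space of functions with rational expansions (`exists_ambient`) and a finite stable
   set of base divisors fixed by inertia with non-special classes (`exists_bases`).
2. `torsLattice` (`TorsionLattice`): the algebra generated by the indicators of the reduction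
   classes and the normalised coordinates of the divisors in the classes `x + T`; it separates
   points and is closed under negation and comultiplication.
3. It is stable under the decomposition group and spanned by functions fixed by an open subgroup,
   so it comes from an order over `ℤ₍l₎` (`exists_galOrder_of_lattice`).

S19 takes the Hopf algebra of this order (`GalOrder.exists_hopfAlgebra`, `GalOrderHopf`).
-/

set_option autoImplicit false

noncomputable section

open IsLocalRing ModularCurve AlgebraicCurve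
open Fermat.Agent.Arith Fermat.Agent.FF Fermat.Agent.RedTorsion Fermat.Agent.EichlerShimura
open scoped Pointwise

namespace Fermat.Agent.FiniteFlat

attribute [local instance 20000] SubalgebraClass.toAlgebra
attribute [-instance] IsLocalRing.ResidueField.algebraOfIsIntegral IsScalarTower.of_algHom
  RingHom.Finite.instFinite

/-- Shortcut: the search is slow. -/
local instance (priority := 10000) semilinearSMulDivisor (N : ℕ) [NeZero N] :
    SMul (SemilinearAut QBar (modularFunctionFieldBar N))
      (Divisor QBar (modularFunctionFieldBar N)) :=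
  DistribMulAction.toDistribSMul.toSMul

/-- Shortcut: the search is slow. -/
local instance (priority := 10000) semilinearSMul (N : ℕ) [NeZero N] :
    SMul (SemilinearAut QBar (modularFunctionFieldBar N)) (modularFunctionFieldBar N) :=
  (inferInstance : MulSemiringAction _ _).toSMul

variable {N n : ℕ} [NeZero N] [IsFunctionField QBar (modularFunctionFieldBar N)]
  {A : ValuationSubring QBar}
  [IsFunctionField (ResidueField A) (modularFunctionFieldFullC (ResidueField A) N)]
  {hNA : (N : ResidueField A) ≠ 0} {Φ : Ambient (goodRed (A := A) hNA)}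
  (hΦE : ∀ σ : GQ, galF N σ • Φ.E = Φ.E)
  (hΦfb : ∀ (σ : GQ) i, galF N σ • (Φ.fb i : modularFunctionFieldBar N) = Φ.fb i)

include hΦfb in
theorem galF_vec (σ : GQ) (c : Fin Φ.n → QBar) :
    galF N σ • Φ.vec c = Φ.vec fun i => σ (c i) := by
  rw [Φ.vec_apply, Φ.vec_apply, Finset.smul_sum]
  exact Finset.sum_congr rfl fun i _ => by rw [galF_smul_smul, hΦfb]

include hΦE hΦfb in
theorem vec_mem_galF {D : Divisor QBar (modularFunctionFieldBar N)} (σ : GQ)
    {c : Fin Φ.n → QBar} (hc : Φ.vec c ∈ riemannRochSpace (Φ.E - D)) :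
    Φ.vec (fun i => σ (c i)) ∈ riemannRochSpace (Φ.E - galF N σ • D) := by
  have h1 := smul_mem_riemannRochSpace (galF N σ) hc
  rwa [galF_vec hΦfb, smul_sub, hΦE] at h1

include hΦE hΦfb in
theorem isSol_galF {D : Divisor QBar (modularFunctionFieldBar N)} (σ : GQ)
    {J : Finset (Fin Φ.n)} {j : Fin Φ.n} {c : Fin Φ.n → QBar} (hc : Φ.IsSol D J j c) :
    Φ.IsSol (galF N σ • D) J j fun i => σ (c i) :=
  ⟨vec_mem_galF hΦE hΦfb σ hc.1, fun i hi => by
    show σ (c i) = _
    rw [hc.2 i hi]
    split <;> simp⟩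

include hΦE hΦfb in
theorem valid_galF {D : Divisor QBar (modularFunctionFieldBar N)} {σ : GQ} (hσ : σ • A = A)
    {J : Finset (Fin Φ.n)} (hv : Φ.Valid D J) : Φ.Valid (galF N σ • D) J := by
  refine ⟨fun j hj => ?_, fun c hc h0 => ?_⟩
  · obtain ⟨c, hc, hcA⟩ := hv.1 j hj
    exact ⟨_, isSol_galF hΦE hΦfb σ hc, fun i => map_mem_of_mem_decomposition hσ (hcA i)⟩
  · have h1 := vec_mem_galF hΦE hΦfb σ⁻¹ hc
    rw [galF_inv, inv_smul_smul] at h1
    have h2 := hv.2 _ h1 fun i hi => by rw [h0 i hi, map_zero]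
    funext i
    simpa using congrFun h2 i

include hΦE hΦfb in
theorem coord_galF {D : Divisor QBar (modularFunctionFieldBar N)} (σ : GQ)
    {J : Finset (Fin Φ.n)} (hiff : Φ.Valid D J ↔ Φ.Valid (galF N σ • D) J) (j i : Fin Φ.n) :
    Φ.coord (galF N σ • D) J j i = σ (Φ.coord D J j i) := by
  by_cases hv : Φ.Valid D J ∧ j ∈ J
  · exact (congrFun (Ambient.coord_unique (hiff.mp hv.1) hv.2
      (isSol_galF hΦE hΦfb σ (Ambient.isSol_coord hv.1 hv.2))) i).symm
  · rw [Ambient.coord_eq_zero hv, Ambient.coord_eq_zero fun h => hv ⟨hiff.mpr h.1, h.2⟩, map_zero]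

omit [IsFunctionField QBar ↥(modularFunctionFieldBar N)]
  [IsFunctionField (ResidueField ↥A) ↥(modularFunctionFieldFullC (ResidueField ↥A) N)] in
theorem TorsPt.red_smul (hNA : (N : ResidueField A) ≠ 0) {σ : GQ} (hσ : σ • A = A)
    (x : TorsPt N n) :
    TorsPt.red A (σ • x) = coeffAut N (resAut hσ) • TorsPt.red A x := by
  exact reductionModL_smul hNA hσ (resAut hσ) (fun a => (resAut_residue hσ a).symm) (incl x)

omit [IsFunctionField QBar ↥(modularFunctionFieldBar N)]
  [IsFunctionField (ResidueField ↥A) ↥(modularFunctionFieldFullC (ResidueField ↥A) N)] in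
theorem TorsPt.red_inertia (hNA : (N : ResidueField A) ≠ 0) {σ : GQ}
    (hσ : σ ∈ A.inertiaSubgroupIn ℚ) (x : TorsPt N n) :
    TorsPt.red A (σ • x) = TorsPt.red A x := by
  exact reductionModL_inertia hNA hσ (incl x)

omit [IsFunctionField QBar ↥(modularFunctionFieldBar N)]
  [IsFunctionField (ResidueField ↥A) ↥(modularFunctionFieldFullC (ResidueField ↥A) N)] in
include hNA in
theorem galAct_classInd [NeZero n] {σ : GQ} (hσ : σ • A = A) (x₀ : TorsPt N n) :
    galAct σ (classInd A x₀) = classInd A (σ • x₀) := by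
  funext x
  have h : TorsPt.red A (σ⁻¹ • x) = TorsPt.red A x₀ ↔
      TorsPt.red A x = TorsPt.red A (σ • x₀) := by
    conv_rhs => rw [← smul_inv_smul σ x, TorsPt.red_smul hNA hσ, TorsPt.red_smul hNA hσ]
    exact ⟨fun e => by rw [e], fun e => smul_left_cancel _ e⟩
  classical
  simp only [galAct, classInd]
  rw [apply_ite σ, map_one, map_zero]
  exact if_congr h rfl rfl

variable {Ts : Set (Divisor QBar (modularFunctionFieldBar N))}
  (hTs : ∀ T ∈ Ts, IsBase Φ n T)
  (hTD : ∀ d : GQ, d • A = A → ∀ T ∈ Ts, galF N d • T ∈ Ts)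

include hΦE hΦfb hTs hTD in
theorem galAct_famCoord {σ : GQ} (hσ : σ • A = A)
    {T : Divisor QBar (modularFunctionFieldBar N)} (hT : T ∈ Ts) (J : Finset (Fin Φ.n))
    (j i : Fin Φ.n) :
    galAct σ (famCoord (n := n) Φ T J j i) = famCoord Φ (galF N σ • T) J j i := by
  funext x
  have hT' := hTs _ (hTD σ hσ T hT)
  have hg : galF N σ • famDiv T (σ⁻¹ • x) = famDiv (galF N σ • T) x := by
    rw [galF_famDiv (hTs T hT) σ hT', smul_inv_smul]
  show σ (Φ.coord (famDiv T (σ⁻¹ • x)) J j i) = Φ.coord (famDiv (galF N σ • T) x) J j i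
  rw [← hg, coord_galF hΦE hΦfb σ ?_]
  refine ⟨valid_galF hΦE hΦfb hσ, fun h => ?_⟩
  have h1 := valid_galF hΦE hΦfb (inv_smul_eq_iff.mpr hσ.symm) h
  rwa [galF_inv, inv_smul_smul] at h1

include hΦE hΦfb hTs in
theorem galAct_famCoord_of_fixed [NeZero n] {σ : GQ}
    (hσ : ∀ x : TorsPt N n, TorsPt.red A (σ • x) = TorsPt.red A x)
    {T : Divisor QBar (modularFunctionFieldBar N)} (hT : T ∈ Ts) (hσT : galF N σ • T = T)
    (J : Finset (Fin Φ.n)) (j i : Fin Φ.n) :
    galAct σ (famCoord (n := n) Φ T J j i) = famCoord Φ T J j i := by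
  funext x
  have hb := hTs T hT
  have hg : galF N σ • famDiv T (σ⁻¹ • x) = famDiv T x := by
    rw [galF_famDiv hb σ (hσT.symm ▸ hb), hσT, smul_inv_smul]
  show σ (Φ.coord (famDiv T (σ⁻¹ • x)) J j i) = Φ.coord (famDiv T x) J j i
  rw [← hg, coord_galF hΦE hΦfb σ ?_]
  rw [hg, Ambient.valid_iff (famDiv_spec hb _).1, Ambient.valid_iff (famDiv_spec hb _).1,
    redDiv_famDiv_eq hb (x := σ⁻¹ • x) (y := x) (by
      have := hσ (σ⁻¹ • x)
      rwa [smul_inv_smul, eq_comm] at this)]

/-- The elements fixing the base divisors and the reduction classes. -/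
def baseFixer (A : ValuationSubring QBar) (Ts : Set (Divisor QBar (modularFunctionFieldBar N)))
    (n : ℕ) : Subgroup GQ where
  carrier := {σ | (∀ T ∈ Ts, galF N σ • T = T) ∧
    ∀ x : TorsPt N n, TorsPt.red A (σ • x) = TorsPt.red A x}
  one_mem' := ⟨fun T _ => by rw [galF_one, one_smul], fun x => by rw [one_smul]⟩
  mul_mem' {σ τ} hσ hτ := ⟨fun T hT => by rw [galF_mul, mul_smul, hτ.1 T hT, hσ.1 T hT],
    fun x => by rw [mul_smul, hσ.2, hτ.2]⟩
  inv_mem' {σ} hσ := ⟨fun T hT => by rw [galF_inv, inv_smul_eq_iff, hσ.1 T hT],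
    fun x => by
      have := hσ.2 (σ⁻¹ • x)
      rwa [smul_inv_smul, eq_comm] at this⟩

include hΦE hTs in
theorem isOpen_baseFixer [NeZero n] (hfin : Ts.Finite) :
    IsOpen (baseFixer A Ts n : Set GQ) := by
  have := hfin.to_subtype
  choose L hL hfix using fun T : Ts => isOpen_stabilizer Φ hΦE (hTs T.1 T.2).1
  choose L' hL' hfix' using fun x : TorsPt N n =>
    GaloisReps.exists_fixing_torsion N (m := n) x
  let K : IntermediateField ℚ QBar := (⨆ T, L T) ⊔ ⨆ x, L' x
  refine Subgroup.isOpen_mono ?_ (IntermediateField.fixingSubgroup_isOpen K)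
  intro σ hσ
  have hz := (IntermediateField.mem_fixingSubgroup_iff _ σ).mp hσ
  refine ⟨fun T hT => hfix ⟨T, hT⟩ σ ((IntermediateField.mem_fixingSubgroup_iff _ σ).mpr
    fun z hz' => hz z ((le_iSup L ⟨T, hT⟩).trans le_sup_left hz')), fun x => ?_⟩
  have h1 : σ • x = x := TorsPt.incl_injective
    (hfix' x σ fun z hz' => hz z ((le_iSup L' x).trans le_sup_right hz'))
  rw [h1]

include hΦE hΦfb hTs hTD in
theorem exists_galOrder_of_bases [NeZero n] {l : ℕ} (hA : A.LiesOverPrime l) (hl : l.Prime)
    (hfin : Ts.Finite) (hne : Ts.Nonempty)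
    (hTI : ∀ T ∈ Ts, ∀ σ ∈ A.inertiaSubgroupIn ℚ, galF N σ • T = T) :
    ∃ O : GalOrder l (TorsPt N n), ∀ f ∈ O.H, ∀ x y : TorsPt N n,
      TorsPt.red A x = TorsPt.red A y → f x - f y ∈ A.nonunits := by
  classical
  set S := torsLattice Φ Ts n with hS
  -- The decomposition group permutes the generators.
  have hD : ∀ d : GQ, d • A = A → ∀ f ∈ S, galAct d f ∈ S := by
    intro d hd f hf
    induction hf using Algebra.adjoin_induction with
    | mem f hf =>
      rcases hf with ⟨x₀, rfl⟩ | ⟨T, hT, J, j, i, rfl⟩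
      · rw [galAct_classInd (hNA := hNA) hd]
        exact classInd_mem _
      · rw [galAct_famCoord hΦE hΦfb hTs hTD hd hT]
        exact famCoord_mem (hTD d hd T hT) J j i
    | algebraMap c =>
      have e : galAct d (algebraMap A (TorsPt N n → QBar) c) =
          algebraMap A (TorsPt N n → QBar) ⟨d c, map_mem_of_mem_decomposition hd c.2⟩ := rfl
      rw [e]
      exact S.algebraMap_mem _
    | add f g _ _ hf hg =>
      rw [show galAct d (f + g) = galAct d f + galAct d g from funext fun x => by simp [galAct]]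
      exact add_mem hf hg
    | mul f g _ _ hf hg =>
      rw [show galAct d (f * g) = galAct d f * galAct d g from funext fun x => by simp [galAct]]
      exact mul_mem hf hg
  -- The lattice is spanned by functions fixed by the stabiliser of the bases.
  have hgen : S.toSubmodule ≤ Submodule.span A
      {f | f ∈ S ∧ ∀ u ∈ baseFixer A Ts n, galAct u f = f} := by
    rw [hS, torsLattice, Algebra.adjoin_eq_span, Submodule.span_le]
    intro f hf
    refine Submodule.subset_span ?_
    induction hf using Submonoid.closure_induction with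
    | mem f hf =>
      refine ⟨Algebra.subset_adjoin hf, fun u hu => ?_⟩
      rcases hf with ⟨x₀, rfl⟩ | ⟨T, hT, J, j, i, rfl⟩
      · funext x
        have h1 := hu.2 (u⁻¹ • x)
        rw [smul_inv_smul] at h1
        simp only [galAct, classInd]
        rw [apply_ite u, map_one, map_zero]
        exact if_congr (by rw [h1]) rfl rfl
      · exact galAct_famCoord_of_fixed hΦE hΦfb hTs hu.2 hT (hu.1 T hT) J j i
    | one => exact ⟨one_mem _, fun u _ => funext fun x => map_one u⟩
    | mul f g _ _ hf hg =>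
      refine ⟨mul_mem hf.1 hg.1, fun u hu => ?_⟩
      rw [show galAct u (f * g) = galAct u f * galAct u g from funext fun x => by simp [galAct],
        hf.2 u hu, hg.2 u hu]
  -- Comultiplication and negation are the lattice lemmas.
  have hcomul : ∀ f ∈ S, ∃ (m : ℕ) (a b : Fin m → (TorsPt N n → QBar)),
      (∀ i, a i ∈ S) ∧ (∀ i, b i ∈ S) ∧ ∀ x y, f (x + y) = ∑ i, a i x * b i y := by
    intro f hf
    obtain ⟨m, a, b, ha, hb, hab⟩ := exists_sum_of_mem_tensorSq
      (show precomp A (fun p : TorsPt N n × TorsPt N n => p.1 + p.2) f ∈ tensorSq S from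
        torsLattice_add hTs hf)
    exact ⟨m, a, b, ha, hb, fun x y => by rw [← hab x y, precomp_apply]⟩
  have hneg : ∀ f ∈ S, (fun x => f (-x)) ∈ S := fun f hf => by
    rw [show (fun x => f (-x)) = precomp A (fun x : TorsPt N n => -x) f from
      funext fun x => (precomp_apply (R := A) _ _ _).symm]
    exact torsLattice_neg hTs hf
  obtain ⟨O, hO⟩ := exists_galOrder_of_lattice hA hl S (fun f hf => torsLattice_int hf) hD
    (isOpen_baseFixer hΦE hTs hfin)
    (fun σ hσ => ⟨fun T hT => hTI T hT σ hσ, fun x => TorsPt.red_inertia hNA hσ x⟩) hgen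
    (fun x y => torsLattice_separates hTs hne) hcomul hneg
  refine ⟨O, fun f hf x y => torsLattice_congr hTs ?_⟩
  rw [hO] at hf
  exact hf.1

omit [IsFunctionField QBar (modularFunctionFieldBar N)]
  [IsFunctionField (ResidueField A) (modularFunctionFieldFullC (ResidueField A) N)] in
/-- At `l ∤ N` the torsion of `J₀(N)` has a Galois order whose functions are congruent on classes
with equal reduction. -/
theorem exists_galOrder_torsion {l : ℕ} (hl : l.Prime) (hlN : ¬ l ∣ N)
    (hA : A.LiesOverPrime l) (n : ℕ) [NeZero n] :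
    ∃ O : GalOrder l (TorsPt N n), ∀ f ∈ O.H, ∀ x y : TorsPt N n,
      TorsPt.red A x = TorsPt.red A y → f x - f y ∈ A.nonunits := by
  have := residueField_charP hA hl
  have hNA : (N : ResidueField A) ≠ 0 := fun h =>
    hlN ((CharP.cast_eq_zero_iff (ResidueField A) l N).mp h)
  have : IsFunctionField (ResidueField A) (modularFunctionFieldFullC (ResidueField A) N) :=
    isFunctionField_full (F := modularFunctionFieldFullC (ResidueField A) N) rfl hNA
  obtain ⟨Φ, hΦE, hΦfb⟩ := exists_ambient hA hl hNA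
  obtain ⟨Ts, hfin, hne, hT, hTD⟩ := exists_bases hA hl Φ hΦE (fun x : TorsPt N n => x.rep)
    (fun x => x.degree_rep) fun d _ x => by
      refine ⟨d⁻¹ • x, ?_⟩
      have h := (TorsPt.rep_smul d (d⁻¹ • x)).symm
      rw [smul_inv_smul] at h
      exact h
  exact exists_galOrder_of_bases hΦE hΦfb (fun T h => ⟨(hT T h).1, (hT T h).2.2⟩) hTD hA hl
    hfin hne fun T h => (hT T h).2.1

end Fermat.Agent.FiniteFlat
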